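import Fermat.Agent.Jacobian.Sections
import Mathlib.AlgebraicGeometry.Morphisms.QuasiSeparated
import Mathlib.RingTheory.Ideal.Span
import Mathlib.LinearAlgebra.Finsupp.LinearCombination
import Mathlib.Algebra.Module.Projective
import Mathlib.RingTheory.Finiteness.Basic
import Mathlib.RingTheory.IsTensorProduct

/-!
# Sections of a line bundle over an affine open

There is a partition `∑ sⱼ tⱼ = 1` with `sⱼ` sections of `L` and `tⱼ` of `L⁻¹`; hence the module
of sections is finite projective and commutes with base change to any open of any scheme.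
-/

set_option autoImplicit false

noncomputable section

universe u

open CategoryTheory TopologicalSpace AlgebraicGeometry

namespace Fermat.Agent.Jacobian

variable {X Y : Scheme.{u}}

lemma basicOpen_res' {U V : X.Opens} (h : V ≤ U) (f : Γ(X, U)) :
    X.basicOpen (res h f) = V ⊓ X.basicOpen f :=
  X.basicOpen_res f (homOfLE h).op

lemma isUnit_res_basicOpen' {U : X.Opens} (f : Γ(X, U)) :
    IsUnit (res (X.basicOpen_le f) f) := by
  have h : IsUnit (res (X.basicOpen_le f) f) ↔ True := by
    refine iff_true_intro ?_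
    exact RingedSpace.isUnit_res_basicOpen _ f
  exact h.mpr trivial

/-- Extension of functions from a principal open of an affine open, up to a power. -/
lemma exists_res_eq_pow_mul {O B : X.Opens} (hO : IsAffineOpen O) (b : Γ(X, O))
    (hB : B = X.basicOpen b) (hBO : B ≤ O) (f : Γ(X, B)) :
    ∃ (n : ℕ) (a : Γ(X, O)), res hBO a = res hBO b ^ n * f := by
  subst hB
  exact exists_eq_pow_mul_of_isCompact_of_isQuasiSeparated X O hO.isCompact
    hO.isQuasiSeparated b f

lemma exists_pow_mul_eq_zero {O B : X.Opens} (hO : IsAffineOpen O) (b a : Γ(X, O))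
    (hB : B = X.basicOpen b) (hBO : B ≤ O) (h : res hBO a = 0) : ∃ n : ℕ, b ^ n * a = 0 := by
  subst hB
  exact exists_pow_mul_eq_zero_of_res_basicOpen_eq_zero_of_isCompact X hO.isCompact a b h

namespace LineCocycle

namespace Sect

/-- Through every point of an affine open there is a section which is a frame nearby. -/
theorem exists_isUnit (L : LineCocycle X) {W : X.Opens} (hW : IsAffineOpen W) {z : X}
    (hz : z ∈ W) :
    ∃ (b : Γ(X, W)) (_ : z ∈ X.basicOpen b) (hbU : X.basicOpen b ≤ L.U z) (s : L.Sect W),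
      IsUnit (s.at z (X.basicOpen_le b) hbU) := by
  classical
  obtain ⟨b, hb, hzb⟩ := hW.exists_basicOpen_le ⟨z, L.mem z⟩ hz
  refine ⟨b, hzb, hb, ?_⟩
  choose c hc hyc using fun y : W => hW.exists_basicOpen_le (V := L.U y) ⟨y.1, L.mem y⟩ y.2
  obtain ⟨S, hS⟩ := hW.isCompact.elim_finite_subcover (fun y : W => (X.basicOpen (c y) : Set X))
    (fun y => (X.basicOpen (c y)).2) (fun y hy => Set.mem_iUnion.mpr ⟨⟨y, hy⟩, hyc ⟨y, hy⟩⟩)
  set O : S → X.Opens := fun j => X.basicOpen (c j) with hOdef
  have hOW : ∀ j, O j ≤ W := fun j => X.basicOpen_le _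
  have hOU : ∀ j, O j ≤ L.U (j.1 : W).1 := fun j => hc _
  have hcov : ∀ w ∈ W, ∃ j, w ∈ O j := fun w hw => by
    obtain ⟨y, hyS, hy⟩ := Set.mem_iUnion₂.mp (hS hw)
    exact ⟨⟨y, hyS⟩, hy⟩
  set B := X.basicOpen b
  have hBW : B ≤ W := X.basicOpen_le b
  choose n a ha using fun j => exists_res_eq_pow_mul (B := O j ⊓ B) (hW.basicOpen (c j))
    (res (hOW j) b) (basicOpen_res' _ _).symm inf_le_left
    (L.tr (j.1 : W).1 z (inf_le_left.trans (hOU j)) (inf_le_right.trans hb))
  set N := Finset.univ.sup n with hN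
  obtain ⟨a', ha'def⟩ : ∃ a' : ∀ j, Γ(X, O j), a' = fun j => res (hOW j) b ^ (N - n j) * a j :=
    ⟨_, rfl⟩
  have ha' : ∀ j (V : X.Opens) (hj : V ≤ O j) (hB : V ≤ B),
      res hj (a' j) = res (hj.trans (hOW j)) b ^ N *
        L.tr (j.1 : W).1 z (hj.trans (hOU j)) (hB.trans hb) := fun j V hj hB => by
    have h1 := congrArg (res (le_inf hj hB)) (ha j)
    simp only [map_mul, map_pow, res_res, res_tr] at h1
    simp only [ha'def, map_mul, map_pow, res_res]
    rw [h1, ← mul_assoc, ← pow_add,
      Nat.sub_add_cancel (Finset.le_sup (Finset.mem_univ j) : n j ≤ N)]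
  have hpair : ∀ j l : S, ∃ m : ℕ, res (inf_le_left.trans (hOW j)) b ^ m *
      (res (inf_le_left : O j ⊓ O l ≤ O j) (a' j) -
        L.tr (j.1 : W).1 (l.1 : W).1 (inf_le_left.trans (hOU j)) (inf_le_right.trans (hOU l)) *
          res inf_le_right (a' l)) = 0 := fun j l => by
    have hjl : IsAffineOpen (O j ⊓ O l) := by
      rw [hOdef, ← Scheme.basicOpen_mul]
      exact hW.basicOpen _
    refine exists_pow_mul_eq_zero (B := O j ⊓ O l ⊓ B) hjl _ _ (basicOpen_res' _ _).symm
      inf_le_left ?_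
    rw [map_sub, map_mul, res_res, res_res, res_tr,
      ha' j _ (inf_le_left.trans inf_le_left) inf_le_right,
      ha' l _ (inf_le_left.trans inf_le_right) inf_le_right, mul_left_comm, L.tr_mul_tr, sub_self]
  choose m hm using hpair
  set M := Finset.univ.sup fun p : S × S => m p.1 p.2 with hM
  let v : ∀ j, Γ(X, O j) := fun j => res (hOW j) b ^ M * a' j
  have hv : ∀ (j l : S) (V : X.Opens) (hj : V ≤ O j) (hl : V ≤ O l),
      res hj (v j) =
        L.tr (j.1 : W).1 (l.1 : W).1 (hj.trans (hOU j)) (hl.trans (hOU l)) * res hl (v l) := by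
    intro j l V hj hl
    have h1 := congrArg (res (le_inf hj hl)) (hm j l)
    simp only [map_mul, map_sub, map_pow, map_zero, res_res, res_tr] at h1
    have hle : m j l ≤ M := Finset.le_sup (f := fun p : S × S => m p.1 p.2) (Finset.mem_univ (j, l))
    obtain ⟨d, hd⟩ := Nat.exists_eq_add_of_le hle
    simp only [v, map_mul, map_pow, res_res, hd, pow_add]
    linear_combination res (hj.trans (hOW j)) b ^ d * h1
  obtain ⟨s, hs⟩ := exists_glue O hOW hcov (fun j => single (hOU j) (v j))
    fun j l x V hj hl hx => by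
      rw [at_single, at_single, hv j l V hj hl, ← mul_assoc, L.tr_mul_tr]
  refine ⟨s, ?_⟩
  have hsz : s.at z hBW hb = res hBW b ^ (M + N) := by
    refine eq_of_cover (fun j => O j ⊓ B) (fun j => inf_le_right)
      (fun w hw => (hcov w (hBW hw)).elim fun j hj => ⟨j, hj, hw⟩) fun j => ?_
    have h1 := congrArg (fun t : L.Sect (O j) =>
      t.at z (V := O j ⊓ B) inf_le_left (inf_le_right.trans hb)) (hs j)
    simp only [at_restrict, at_single] at h1
    rw [res_at, h1, map_pow, res_res]
    simp only [v, map_mul, map_pow, res_res, ha' j (O j ⊓ B) inf_le_left inf_le_right, pow_add]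
    linear_combination (res (inf_le_right.trans hBW : O j ⊓ B ≤ W) b ^ M *
      res (inf_le_right.trans hBW : O j ⊓ B ≤ W) b ^ N) *
      L.tr_mul_tr_symm z (j.1 : W).1 (inf_le_right.trans hb) (inf_le_left.trans (hOU j))
  rw [hsz]
  exact (isUnit_res_basicOpen' b).pow _

/-- The partition of unity of a line bundle on an affine open. -/
theorem exists_partition (L : LineCocycle X) {W : X.Opens} (hW : IsAffineOpen W) :
    ∃ (n : ℕ) (s : Fin n → L.Sect W) (t : Fin n → L.inv.Sect W),
      ∑ j, (s j).pair (t j) = 1 := by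
  classical
  choose b hzb hbU s hs using fun z : W => exists_isUnit L hW z.2
  choose b' hzb' hbU' t ht using fun z : W => exists_isUnit L.inv hW z.2
  let c : W → Γ(X, W) := fun z => (s z).pair (t z)
  have hmem : ∀ z : W, z.1 ∈ X.basicOpen (c z) := fun z => by
    let D := X.basicOpen (b z) ⊓ X.basicOpen (b' z)
    have hD : D ≤ W := inf_le_left.trans (X.basicOpen_le _)
    have hu : IsUnit (res hD (c z)) := by
      rw [res_pair (s z) (t z) z.1 hD (inf_le_left.trans (hbU z)),
        ← res_at (s z) z.1 (X.basicOpen_le _) (hbU z) (inf_le_left : D ≤ _),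
        ← res_at (t z) z.1 (X.basicOpen_le _) (hbU' z) (inf_le_right : D ≤ _)]
      exact ((hs z).map _).mul ((ht z).map _)
    have h1 : D ⊓ X.basicOpen (c z) = D := by
      rw [← basicOpen_res' hD, Scheme.basicOpen_of_isUnit X hu]
    exact (h1.ge ⟨hzb z, hzb' z⟩ : z.1 ∈ D ⊓ X.basicOpen (c z)).2
  have htop : Ideal.span (Set.range c) = ⊤ := by
    rw [← hW.iSup_basicOpen_eq_self_iff]
    refine le_antisymm (iSup_le fun f => X.basicOpen_le _) fun z hz => ?_
    exact Opens.mem_iSup.mpr ⟨⟨c ⟨z, hz⟩, ⟨z, hz⟩, rfl⟩, hmem ⟨z, hz⟩⟩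
  obtain ⟨r, hr⟩ := Finsupp.mem_span_range_iff_exists_finsupp.mp
    ((Ideal.eq_top_iff_one _).mp htop : (1 : Γ(X, W)) ∈ Submodule.span _ (Set.range c))
  refine ⟨r.support.card, fun j => r (r.support.equivFin.symm j).1 • s (r.support.equivFin.symm j).1,
    fun j => t (r.support.equivFin.symm j).1, ?_⟩
  rw [← hr, Finsupp.sum, ← Finset.sum_coe_sort r.support]
  exact Fintype.sum_equiv r.support.equivFin.symm _
    (fun z : r.support => r z.1 • c z.1) fun j => pair_smul_left _ _ _

/-- The coordinates of a section with respect to a partition. -/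
def coords {L : LineCocycle X} {W : X.Opens} {n : ℕ} (t : Fin n → L.inv.Sect W) :
    L.Sect W →ₗ[Γ(X, W)] (Fin n → Γ(X, W)) :=
  LinearMap.pi fun j => pairLeft (t j)

/-- The section with given coordinates. -/
def ofCoords {L : LineCocycle X} {W : X.Opens} {n : ℕ} (s : Fin n → L.Sect W) :
    (Fin n → Γ(X, W)) →ₗ[Γ(X, W)] L.Sect W :=
  ∑ j, (LinearMap.proj j).smulRight (s j)

lemma ofCoords_coords {L : LineCocycle X} {W : X.Opens} {n : ℕ} {s : Fin n → L.Sect W}
    {t : Fin n → L.inv.Sect W} (h : ∑ j, (s j).pair (t j) = 1) (e : L.Sect W) :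
    ofCoords s (coords t e) = e := by
  simp only [ofCoords, LinearMap.sum_apply, LinearMap.smulRight_apply, LinearMap.proj_apply]
  exact sum_pair_smul h e

theorem moduleFinite (L : LineCocycle X) {W : X.Opens} (hW : IsAffineOpen W) :
    Module.Finite Γ(X, W) (L.Sect W) := by
  obtain ⟨n, s, t, h⟩ := exists_partition L hW
  exact Module.Finite.of_surjective (ofCoords s) fun e => ⟨_, ofCoords_coords h e⟩

theorem moduleProjective (L : LineCocycle X) {W : X.Opens} (hW : IsAffineOpen W) :
    Module.Projective Γ(X, W) (L.Sect W) := by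
  obtain ⟨n, s, t, h⟩ := exists_partition L hW
  exact Module.Projective.of_split (coords t) (ofCoords s) (LinearMap.ext (ofCoords_coords h))

/-- Pullback of a section of `L⁻¹`. -/
def comapInv {L : LineCocycle X} {W : X.Opens} (f : Y ⟶ X) {W' : Y.Opens} (hW' : W' ≤ f ⁻¹ᵁ W)
    (t : L.inv.Sect W) : (L.comap f).inv.Sect W' :=
  mk (fun x => (t.comap f hW').1 x) fun x y V hW hx hy => by
    rw [LineCocycle.tr_inv]
    refine (at_eq (t.comap f hW') x y hW hx hy).trans ?_
    rw [LineCocycle.tr_comap, LineCocycle.tr_comap]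
    exact congrArg (· * _) (pb_res f (U := L.U (f y) ⊓ L.U (f x))
      (U' := L.U (f x) ⊓ L.U (f y)) _ _ _)

lemma pb_pair {L : LineCocycle X} {W : X.Opens} (f : Y ⟶ X) {W' : Y.Opens}
    (hW' : W' ≤ f ⁻¹ᵁ W) (s : L.Sect W) (t : L.inv.Sect W) :
    pb f hW' (s.pair t) = (s.comap f hW').pair (comapInv f hW' t) := by
  refine eq_of_cover (fun x => W' ⊓ (L.comap f).U x) (fun _ => inf_le_left)
    (fun z hz => ⟨z, hz, (L.comap f).mem z⟩) fun x => ?_
  rw [res_pair (s.comap f hW') (comapInv f hW' t) x inf_le_left inf_le_right, res_pb, at_comap]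
  have h2 : W' ⊓ (L.comap f).U x ≤ f ⁻¹ᵁ (W ⊓ L.U (f x)) := inf_le_inf_right _ hW'
  have h1 := congrArg (pb f h2) (res_pair s t (f x) (V := W ⊓ L.U (f x)) inf_le_left inf_le_right)
  rw [pb_res, map_mul] at h1
  refine h1.trans (congrArg₂ (· * ·) ?_ ?_)
  · exact congrArg (pb f h2) (res_refl _ _)
  · refine (congrArg (pb f h2) (res_refl _ _)).trans ?_
    change _ = res _ ((t.comap f hW').1 x)
    rw [res_refl]
    exact rfl

/-- Pullback of sections, semilinearly. -/
def comapₗ {L : LineCocycle X} {W : X.Opens} (f : Y ⟶ X) {W' : Y.Opens} (hW' : W' ≤ f ⁻¹ᵁ W) :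
    L.Sect W →ₛₗ[pb f hW'] (L.comap f).Sect W' where
  toFun s := s.comap f hW'
  map_add' := comap_add f hW'
  map_smul' r s := comap_smul f hW' r s

open TensorProduct in
/-- Base change: sections over any open `W'` mapping into the affine `W` are the tensor product. -/
theorem bijective_liftBaseChange {L : LineCocycle X} {W : X.Opens} (hW : IsAffineOpen W)
    (f : Y ⟶ X) {W' : Y.Opens} (hW' : W' ≤ f ⁻¹ᵁ W) :
    letI : Algebra Γ(X, W) Γ(Y, W') := (pb f hW').toAlgebra
    letI : Module Γ(X, W) ((L.comap f).Sect W') := Module.compHom _ (pb f hW')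
    haveI : IsScalarTower Γ(X, W) Γ(Y, W') ((L.comap f).Sect W') :=
      ⟨fun a b c => mul_smul (pb f hW' a) b c⟩
    IsBaseChange Γ(Y, W')
      ({ toFun := fun s => s.comap f hW'
         map_add' := comap_add f hW'
         map_smul' := fun r s => comap_smul f hW' r s } :
        L.Sect W →ₗ[Γ(X, W)] (L.comap f).Sect W') := by
  obtain ⟨n, s, t, h⟩ := exists_partition L hW
  letI : Algebra Γ(X, W) Γ(Y, W') := (pb f hW').toAlgebra
  letI : Module Γ(X, W) ((L.comap f).Sect W') := Module.compHom _ (pb f hW')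
  haveI : IsScalarTower Γ(X, W) Γ(Y, W') ((L.comap f).Sect W') :=
    ⟨fun a b c => mul_smul (pb f hW' a) b c⟩
  have h' : ∑ j, ((s j).comap f hW').pair (comapInv f hW' (t j)) = 1 := by
    have := congrArg (pb f hW') h
    simpa only [map_sum, map_one, pb_pair] using this
  let g : L.Sect W →ₗ[Γ(X, W)] (L.comap f).Sect W' :=
    { toFun := fun s => s.comap f hW'
      map_add' := comap_add f hW'
      map_smul' := fun r s => comap_smul f hW' r s }
  let fw : Γ(Y, W') ⊗[Γ(X, W)] L.Sect W →ₗ[Γ(Y, W')] (L.comap f).Sect W' := g.liftBaseChange _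
  let bw : (L.comap f).Sect W' →ₗ[Γ(Y, W')] Γ(Y, W') ⊗[Γ(X, W)] L.Sect W :=
    ∑ j, (pairLeft (comapInv f hW' (t j))).smulRight ((1 : Γ(Y, W')) ⊗ₜ[Γ(X, W)] s j)
  have hbw : ∀ e, bw e = ∑ j, e.pair (comapInv f hW' (t j)) ⊗ₜ[Γ(X, W)] s j := fun e => by
    simp [bw, pairLeft, TensorProduct.smul_tmul']
  refine IsBaseChange.of_equiv (LinearEquiv.ofLinearMap fw bw ?_ ?_) fun x => ?_
  · refine LinearMap.ext fun e => ?_
    rw [LinearMap.comp_apply, hbw, map_sum]
    simp only [fw, LinearMap.liftBaseChange_tmul, LinearMap.id_apply]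
    exact sum_pair_smul h' e
  · refine LinearMap.ext fun e => ?_
    induction e using TensorProduct.induction_on with
    | zero => simp
    | add a b ha hb => rw [map_add, map_add, ha, hb]
    | tmul r e =>
      have key : (1 : Γ(Y, W')) ⊗ₜ[Γ(X, W)] e = bw (fw (1 ⊗ₜ e)) := by
        rw [hbw]
        conv_lhs => rw [← sum_pair_smul h e, TensorProduct.tmul_sum]
        refine Finset.sum_congr rfl fun j _ => ?_
        simp only [fw, LinearMap.liftBaseChange_tmul, one_smul]
        rw [TensorProduct.tmul_smul, TensorProduct.smul_tmul', Algebra.smul_def, mul_one]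
        exact congrArg (· ⊗ₜ[Γ(X, W)] s j) (pb_pair f hW' e (t j))
      have : r ⊗ₜ[Γ(X, W)] e = r • ((1 : Γ(Y, W')) ⊗ₜ[Γ(X, W)] e) := by
        rw [TensorProduct.smul_tmul', smul_eq_mul, mul_one]
      rw [LinearMap.id_apply, LinearMap.comp_apply, this, map_smul, map_smul, ← key]
  · change fw _ = _
    simp [fw, g]

end Sect

end LineCocycle

end Fermat.Agent.Jacobian
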