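import Fermat.Agent.Jacobian.Cocycle

/-!
# Gluing functions on a scheme
-/

set_option autoImplicit false

noncomputable section

universe u

open CategoryTheory TopologicalSpace AlgebraicGeometry Opposite

namespace Fermat.Agent.Jacobian

variable {X : Scheme.{u}}

theorem existsUnique_glue {ι : Type*} {V : X.Opens} (O : ι → X.Opens) (hO : ∀ i, O i ≤ V)
    (hc : ∀ x ∈ V, ∃ i, x ∈ O i) (a : ∀ i, Γ(X, O i))
    (h : ∀ i j (W : X.Opens) (hi : W ≤ O i) (hj : W ≤ O j), res hi (a i) = res hj (a j)) :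
    ∃! b : Γ(X, V), ∀ i, res (hO i) b = a i :=
  X.sheaf.existsUnique_gluing' O V (fun i => homOfLE (hO i))
    (fun x hx => Opens.mem_iSup.mpr (hc x hx)) a (fun i j => h i j _ inf_le_left inf_le_right)

theorem eq_of_cover {ι : Type*} {V : X.Opens} (O : ι → X.Opens) (hO : ∀ i, O i ≤ V)
    (hc : ∀ x ∈ V, ∃ i, x ∈ O i) {a b : Γ(X, V)}
    (h : ∀ i, res (hO i) a = res (hO i) b) : a = b :=
  X.sheaf.eq_of_locally_eq' O V (fun i => homOfLE (hO i))
    (fun x hx => Opens.mem_iSup.mpr (hc x hx)) a b h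

/-- Glue compatible functions. -/
def glue {ι : Type*} {V : X.Opens} (O : ι → X.Opens) (hO : ∀ i, O i ≤ V)
    (hc : ∀ x ∈ V, ∃ i, x ∈ O i) (a : ∀ i, Γ(X, O i))
    (h : ∀ i j (W : X.Opens) (hi : W ≤ O i) (hj : W ≤ O j), res hi (a i) = res hj (a j)) :
    Γ(X, V) :=
  (existsUnique_glue O hO hc a h).choose

@[simp] theorem res_glue {ι : Type*} {V : X.Opens} (O : ι → X.Opens) (hO : ∀ i, O i ≤ V)
    (hc : ∀ x ∈ V, ∃ i, x ∈ O i) (a : ∀ i, Γ(X, O i))
    (h : ∀ i j (W : X.Opens) (hi : W ≤ O i) (hj : W ≤ O j), res hi (a i) = res hj (a j))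
    (i : ι) : res (hO i) (glue O hO hc a h) = a i :=
  (existsUnique_glue O hO hc a h).choose_spec.1 i

end Fermat.Agent.Jacobian
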