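import Fermat.Agent.Jacobian.Bridge.AlgEquivZero
import Fermat.Agent.Jacobian.Properties.AlgEquivGroup
import Fermat.Agent.Jacobian.Properties.Power
import Fermat.Agent.Jacobian.Curve.ChartBaseChange
import Fermat.Agent.Jacobian.Represent.AffineChart
import Fermat.Agent.Jacobian.Represent.DescentInst

/-!
# The Jacobian from charts and a dominating power of the curve

Given smooth charts of the cut out Picard functor which reach every point valued in an
algebraically closed field, and a family over a power of the curve which reaches them all, the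
functor is represented by a smooth proper geometrically connected scheme.
-/

set_option autoImplicit false

noncomputable section

universe u

open CategoryTheory CategoryTheory.Limits AlgebraicGeometry AlgebraicGeometry.RelPicard
  NeronModelInfra GoodReductionJacobian

namespace Fermat.Agent.Jacobian

/-- A rational point of a scheme locally of finite type over a field is a closed immersion. -/
theorem isClosedImmersion_of_rationalPoint {k : Type u} [Field k] {X : Scheme.{u}}
    (p : X ⟶ Spec (CommRingCat.of k)) [LocallyOfFiniteType p]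
    (z : Spec (CommRingCat.of k) ⟶ X) (hz : z ≫ p = 𝟙 _) : IsClosedImmersion z := by
  have : IsImmersion (z ≫ p) := by rw [hz]; infer_instance
  have : IsImmersion z := IsImmersion.of_comp z p
  have : LocallyOfFiniteType (z ≫ p) := by rw [hz]; infer_instance
  have : LocallyOfFiniteType z := locallyOfFiniteType_of_comp z p
  have : JacobsonSpace X := LocallyOfFiniteType.jacobsonSpace p
  refine .of_isPreimmersion _ ?_
  rw [Set.range_unique]
  refine z.closePoints_subset_preimage_closedPoints ?_
  have e : ({default} : Set (Spec (CommRingCat.of k))) = Set.univ :=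
    Set.eq_univ_of_forall fun q => Subsingleton.elim (α := PrimeSpectrum k) q _
  rw [mem_closedPoints_iff, e]
  exact isClosed_univ

variable {k : Type u} [Field k] {C : Scheme.{u}} {c : C ⟶ Spec (CommRingCat.of k)}
  {ε : SchemeHomOver (𝟙 (Spec (CommRingCat.of k))) c}

/-- A condition on rigidified bundles is closed under division. -/
def IsDivClosed (P : SubPicCondition c ε) : Prop :=
  ∀ {T : Scheme.{u}} (t : T ⟶ Spec (CommRingCat.of k)) (M M' : RigidifiedLineBundle c ε t),
    P.P t M → P.P t M' →
      ∃ N : RigidifiedLineBundle c ε t, P.P t N ∧ bundleClass N = bundleClass M / bundleClass M'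

theorem isDivClosed_algEquivZeroCut : IsDivClosed (algEquivZeroCut c ε) := by
  intro T t M M' hM hM'
  obtain ⟨N, hN⟩ := exists_bundleClass_eq (ε := ε) (ξ := bundleClass M / bundleClass M') (by
    rw [map_div, comap_rigSection_bundleClass, comap_rigSection_bundleClass, div_one])
  refine ⟨N, (fibrewiseAlgEquivZero_iff N).mpr fun K _ _ s => ?_, hN⟩
  have h := ((fibrewiseAlgEquivZero_iff M).mp hM K s).div
    ((fibrewiseAlgEquivZero_iff M').mp hM' K s)
  rw [← map_div] at h
  change PicAlgEquivZero _ (Pic.comap _ (bundleClass N))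
  rw [hN]
  exact h

/-- A representing object of a condition closed under division, locally of finite type, is
separated. -/
theorem isSeparated_of_representsRelSubPic (P : SubPicCondition c ε) (hdiv : IsDivClosed P)
    {D : RelativePic0Designation k c} (h : RepresentsRelSubPic c ε P D)
    [LocallyOfFiniteType D.toBase] : IsSeparated D.toBase := by
  let p := D.toBase
  have := isClosedImmersion_of_rationalPoint p D.zeroSection D.zeroSection_toBase
  let t0 : pullback p p ⟶ Spec (CommRingCat.of k) := pullback.fst p p ≫ p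
  let ψ₁ : SchemeHomOver t0 p := ⟨pullback.fst p p, rfl⟩
  let ψ₂ : SchemeHomOver t0 p := ⟨pullback.snd p p, pullback.condition.symm⟩
  let cls {T : Scheme.{u}} {t : T ⟶ Spec (CommRingCat.of k)} (g : SchemeHomOver t p) :
      Pic (pullback c t) := Pic.comap (baseChangeSnd c g) (bundleClass h.poincare)
  have hcls : ∀ {T T' : Scheme.{u}} {t : T ⟶ Spec (CommRingCat.of k)}
      {t' : T' ⟶ Spec (CommRingCat.of k)} (g : SchemeHomOver t p) (ψ : SchemeHomOver t' t),
      Pic.comap (baseChangeSnd c ψ) (cls g) = cls (postComp g ψ) := by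
    intro T T' t t' g ψ
    simp only [cls]
    rw [← Pic.comap_comp, baseChangeSnd_comp]
  have hext : ∀ {T : Scheme.{u}} {t : T ⟶ Spec (CommRingCat.of k)} (g g' : SchemeHomOver t p),
      cls g = cls g' → g = g' := by
    intro T t g g' he
    refine h.ext_of_iso t g g' ((bundleClass_eq_iff _ _).mp ?_)
    rw [bundleClass_pullbackAlong, bundleClass_pullbackAlong]
    exact he
  have hzero : cls (⟨D.zeroSection, D.zeroSection_toBase⟩ : SchemeHomOver (𝟙 _) p) = 1 := by
    have hh := (bundleClass_eq_iff _ _).mpr h.zero
    rw [bundleClass_pullbackAlong] at hh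
    exact hh.trans picClass_unit
  obtain ⟨N, hN, hNcls⟩ := hdiv t0 (h.poincare.pullbackAlong ψ₁) (h.poincare.pullbackAlong ψ₂)
    (P.pullback_mem _ _ _ _ h.poincare_mem) (P.pullback_mem _ _ _ _ h.poincare_mem)
  let δ := h.classify t0 N hN
  have hδ : cls δ = cls ψ₁ / cls ψ₂ := by
    have hh := (bundleClass_eq_iff _ _).mpr (h.classify_spec t0 N hN)
    rw [bundleClass_pullbackAlong, hNcls, bundleClass_pullbackAlong,
      bundleClass_pullbackAlong] at hh
    exact hh
  refine isSeparated_of_difference p D.zeroSection D.zeroSection_toBase δ.1 δ.2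
    fun {T} a b w => ?_
  let ga : SchemeHomOver (a ≫ p) p := ⟨a, rfl⟩
  let gb : SchemeHomOver (a ≫ p) p := ⟨b, w.symm⟩
  let gz : SchemeHomOver (a ≫ p) p := ⟨(a ≫ p) ≫ D.zeroSection, by
    rw [Category.assoc, D.zeroSection_toBase, Category.comp_id]⟩
  let ψ : SchemeHomOver (a ≫ p) t0 := ⟨pullback.lift a b w, by
    show pullback.lift a b w ≫ pullback.fst p p ≫ p = a ≫ p
    rw [pullback.lift_fst_assoc]⟩
  have hz : cls gz = 1 := by
    have e : gz = postComp (⟨D.zeroSection, D.zeroSection_toBase⟩ : SchemeHomOver (𝟙 _) p)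
        (⟨a ≫ p, Category.comp_id _⟩ : SchemeHomOver (a ≫ p) (𝟙 _)) := rfl
    rw [e, ← hcls, hzero, map_one]
  have hψ : cls (postComp δ ψ) = cls ga / cls gb := by
    rw [← hcls, hδ, map_div, hcls, hcls]
    have e₁ : postComp ψ₁ ψ = ga := Subtype.ext (pullback.lift_fst _ _ _)
    have e₂ : postComp ψ₂ ψ = gb := Subtype.ext (pullback.lift_snd _ _ _)
    rw [e₁, e₂]
  constructor
  · intro he
    have e : postComp δ ψ = gz := Subtype.ext he
    rw [e, hz] at hψ
    exact congrArg Subtype.val (hext ga gb (div_eq_one.mp hψ.symm))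
  · intro hab
    have e : ga = gb := Subtype.ext hab
    rw [e, div_self', ← hz] at hψ
    exact congrArg Subtype.val (hext (postComp δ ψ) gz hψ)

/-- The classifying morphism of a family which reaches all geometric points is surjective. -/
theorem exists_surjective_of_family (P : SubPicCondition c ε) {D : RelativePic0Designation k c}
    (h : RepresentsRelSubPic c ε P D) {X : Scheme.{u}} (x : X ⟶ Spec (CommRingCat.of k))
    (η : (subPicFunctor P).obj x)
    (hη : ∀ (K : Type u) [Field K] [IsAlgClosed K] [Algebra k K]
      (a : (subPicFunctor P).obj (specAlg (k := k) K)),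
      ∃ (s : Spec (CommRingCat.of K) ⟶ X) (hs : s ≫ x = specAlg (k := k) K),
        (subPicFunctor P).map s hs η = a) :
    ∃ g : X ⟶ D.P, g ≫ D.toBase = x ∧ Surjective g := by
  obtain ⟨M, hM, hMη⟩ := η.2
  let g := h.classify x M hM
  refine ⟨g.1, g.2, ⟨fun q => ?_⟩⟩
  let K : Type u := AlgebraicClosure (D.P.residueField q)
  let f : Spec (CommRingCat.of K) ⟶ D.P :=
    Spec.map (CommRingCat.ofHom (algebraMap (D.P.residueField q) K)) ≫ D.P.fromSpecResidueField q
  let _ : Algebra k K := (Spec.preimage (f ≫ D.toBase)).hom.toAlgebra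
  have hK : f ≫ D.toBase = specAlg (k := k) K := (Spec.map_preimage (f ≫ D.toBase)).symm
  obtain ⟨s, hs, hsa⟩ := hη K ((subPicFunctor P).map f hK
    ⟨bundleClass h.poincare, h.poincare, h.poincare_mem, rfl⟩)
  let sO : SchemeHomOver (specAlg (k := k) K) x := ⟨s, hs⟩
  let fO : SchemeHomOver (specAlg (k := k) K) D.toBase := ⟨f, hK⟩
  have he : postComp g sO = fO := by
    refine h.ext_of_iso _ _ _ ((bundleClass_eq_iff _ _).mp ?_)
    rw [bundleClass_pullbackAlong, bundleClass_pullbackAlong, ← baseChangeSnd_comp,
      Pic.comap_comp, ← bundleClass_pullbackAlong h.poincare g,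
      (bundleClass_eq_iff _ _).mpr (h.classify_spec x M hM), hMη]
    exact congrArg Subtype.val hsa
  refine ⟨s default, ?_⟩
  have h1 : (s ≫ g.1) default = f default :=
    congrArg (fun m : SchemeHomOver (specAlg (k := k) K) D.toBase => m.1 default) he
  exact h1.trans (D.P.fromSpecResidueField_apply q _)

variable [IsAlgClosed k] [IsIntegral C]

/-- **S25 from charts and a dominating family.** -/
theorem exists_jacobian_of_charts (c : C ⟶ Spec (CommRingCat.of k)) [IsProper c]
    (ε : SchemeHomOver (𝟙 (Spec (CommRingCat.of k))) c) {ι : Type u}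
    (Ch : ι → (subPicFunctor (algEquivZeroCut c ε)).Chart)
    (hsmooth : ∀ i, Smooth (Ch i).str)
    (hcov : ∀ (K : Type u) [Field K] [IsAlgClosed K] [Algebra k K]
      (a : (subPicFunctor (algEquivZeroCut c ε)).obj (specAlg (k := k) K)),
      ∃ (i : ι) (g : Spec (CommRingCat.of K) ⟶ (Ch i).X)
        (h : g ≫ (Ch i).str = specAlg (k := k) K),
        (subPicFunctor (algEquivZeroCut c ε)).map g h (Ch i).elt = a)
    (n : ℕ) (η : (subPicFunctor (algEquivZeroCut c ε)).obj (powHom c n))
    (hη : ∀ (K : Type u) [Field K] [IsAlgClosed K] [Algebra k K]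
      (a : (subPicFunctor (algEquivZeroCut c ε)).obj (specAlg (k := k) K)),
      ∃ (s : Spec (CommRingCat.of K) ⟶ (powOver c n).left)
        (hs : s ≫ powHom c n = specAlg (k := k) K),
        (subPicFunctor (algEquivZeroCut c ε)).map s hs η = a) :
    ∃ D : RelativePic0Designation k c,
      Nonempty (RepresentsRelSubPic c ε (algEquivZeroCut c ε) D) ∧
        Smooth D.toBase ∧ IsProper D.toBase ∧ GeometricallyConnected D.toBase := by
  obtain ⟨D, ⟨hD⟩, j, hj, hjs, hjcov⟩ := exists_designation_of_charts (algEquivZeroCut c ε)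
    (picDescent c ε) isLocalCondition_algEquivZeroCut Ch
    fun t a p => OverFunctor.cover_of_isAlgClosed _ Ch hcov t a p
  have hsm : Smooth D.toBase := by
    choose i hi using hjcov
    let 𝒰 : D.P.OpenCover :=
      { I₀ := D.P
        X := fun x => (Ch (i x)).X
        f := fun x => j (i x)
        mem₀ := by
          rw [Scheme.presieve₀_mem_precoverage_iff]
          exact ⟨fun x => ⟨x, hi x⟩, fun x => hj _⟩ }
    refine IsZariskiLocalAtSource.of_openCover (P := @Smooth) 𝒰 fun x => ?_
    change Smooth (j (i x) ≫ D.toBase)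
    rw [hjs]
    exact hsmooth _
  have := isSeparated_of_representsRelSubPic _ isDivClosed_algEquivZeroCut hD
  obtain ⟨g, hg, hgs⟩ := exists_surjective_of_family _ hD (powHom c n) η hη
  have := geometricallyIntegral_of_isAlgClosed c
  obtain ⟨hp, hgc⟩ := isProper_geometricallyConnected_of_pow c D.toBase n g hg
  exact ⟨D, ⟨hD⟩, hsm, hp, hgc⟩

end Fermat.Agent.Jacobian
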