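import Fermat.Agent.Jacobian.Sections
import Mathlib.AlgebraicGeometry.OpenImmersion

/-!
# Transfer of sections along isomorphisms of cocycles; frames; triviality

`Rel.sectEquiv`, `oneEquiv`, `Sect.IsFrame`, `Pic.mk_eq_one_iff`, `Pic.mk_eq_mk_iff_frame`,
and transport along open immersions: `pbInv`, `Sect.ofOpenImmersion`.

Owner: helper36.
-/

set_option autoImplicit false

noncomputable section

universe u

open CategoryTheory TopologicalSpace AlgebraicGeometry

namespace Fermat.Agent.Jacobian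

variable {X Y : Scheme.{u}}

/-- Being a unit is local. -/
theorem isUnit_of_cover {ι : Type*} {V : X.Opens} (O : ι → X.Opens) (hO : ∀ i, O i ≤ V)
    (hc : ∀ x ∈ V, ∃ i, x ∈ O i) {a : Γ(X, V)} (h : ∀ i, IsUnit (res (hO i) a)) : IsUnit a := by
  have hb : ∀ i j (W : X.Opens) (hi : W ≤ O i) (hj : W ≤ O j),
      res hi (((h i).unit⁻¹ : Γ(X, O i)ˣ) : Γ(X, O i)) =
        res hj (((h j).unit⁻¹ : Γ(X, O j)ˣ) : Γ(X, O j)) := by
    intro i j W hi hj
    have e1 : res hi (((h i).unit⁻¹ : Γ(X, O i)ˣ) : Γ(X, O i)) * res (hi.trans (hO i)) a = 1 := by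
      rw [← res_res (hO i) hi, ← map_mul, IsUnit.val_inv_mul, map_one]
    have e2 : res (hi.trans (hO i)) a * res hj (((h j).unit⁻¹ : Γ(X, O j)ˣ) : Γ(X, O j)) = 1 := by
      rw [show res (hi.trans (hO i)) a = res hj (res (hO j) a) by rw [res_res], ← map_mul,
        IsUnit.mul_val_inv, map_one]
    exact left_inv_eq_right_inv e1 e2
  refine IsUnit.of_mul_eq_one (glue O hO hc _ hb) (eq_of_cover O hO hc fun i => ?_)
  rw [map_mul, res_glue, map_one, IsUnit.mul_val_inv]

/-- A cover stays a cover after intersecting. -/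
theorem exists_mem_inf {ι : Type*} {V : X.Opens} {O : ι → X.Opens}
    (h : ∀ x ∈ V, ∃ i, x ∈ O i) : ∀ x ∈ V, ∃ i, x ∈ V ⊓ O i :=
  fun x hx => (h x hx).elim fun i hi => ⟨i, hx, hi⟩

/-- A glued function restricted to an open inside one member of the cover. -/
theorem res_glue_of_le {ι : Type*} {V : X.Opens} {O : ι → X.Opens} {hO : ∀ i, O i ≤ V}
    {hc : ∀ x ∈ V, ∃ i, x ∈ O i} {a : ∀ i, Γ(X, O i)}
    {h : ∀ i j (W : X.Opens) (hi : W ≤ O i) (hj : W ≤ O j), res hi (a i) = res hj (a j)}
    (i : ι) {W : X.Opens} (hi : W ≤ O i) {hW : W ≤ V} :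
    res hW (glue O hO hc a h) = res hi (a i) :=
  (res_res (hO i) hi _).symm.trans (congrArg (res hi) (res_glue O hO hc a h i))

namespace LineCocycle

variable {L L' M M' N : LineCocycle X} {W : X.Opens}

/-! ### Transfer along an isomorphism -/

/-- The unit of an isomorphism, on a smaller open. -/
def Rel.unitAt (e : Rel L M) (x : X) {V : X.Opens} (hx : V ≤ e.V x) : Γ(X, V) :=
  res hx (e.h x : Γ(X, e.V x))

lemma Rel.isUnit_unitAt (e : Rel L M) (x : X) {V : X.Opens} (hx : V ≤ e.V x) :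
    IsUnit (e.unitAt x hx) :=
  (e.h x).isUnit.map _

@[simp] lemma Rel.res_unitAt (e : Rel L M) (x : X) {V V' : X.Opens} (hx : V ≤ e.V x)
    (h : V' ≤ V) : res h (e.unitAt x hx) = e.unitAt x (h.trans hx) :=
  res_res _ _ _

lemma Rel.tr_mul_unitAt (e : Rel L M) (x y : X) {V : X.Opens} (hx : V ≤ e.V x) (hy : V ≤ e.V y) :
    M.tr x y (hx.trans (e.leM x)) (hy.trans (e.leM y)) * e.unitAt y hy =
      e.unitAt x hx * L.tr x y (hx.trans (e.leL x)) (hy.trans (e.leL y)) :=
  e.comm x y V hx hy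

lemma Rel.unitAt_symm_mul (e : Rel L M) (x : X) {V : X.Opens} (hx : V ≤ e.V x) :
    Rel.unitAt (Rel.symm e) x hx * e.unitAt x hx = 1 := by
  change res hx (((e.h x)⁻¹ : Γ(X, e.V x)ˣ) : Γ(X, e.V x)) * res hx (e.h x : Γ(X, e.V x)) = 1
  rw [← map_mul, Units.inv_mul, map_one]

/-- Image of a section under an isomorphism of cocycles. -/
def Rel.sectMap (e : Rel L M) (s : L.Sect W) : M.Sect W :=
  Sect.mk (fun x => glue (fun y => W ⊓ M.U x ⊓ e.V y) (fun _ => inf_le_left)
    (exists_mem_inf fun z _ => ⟨z, e.mem z⟩)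
    (fun y => M.tr x y (inf_le_left.trans inf_le_right) (inf_le_right.trans (e.leM y)) *
      (e.unitAt y inf_le_right *
        s.at y (inf_le_left.trans inf_le_left) (inf_le_right.trans (e.leL y))))
    (fun y y' V hy hy' => by
      simp only [map_mul, res_tr, Rel.res_unitAt, Sect.res_at]
      rw [Sect.at_eq s y y' _ _ ((hy'.trans inf_le_right).trans (e.leL y')),
        ← mul_assoc (e.unitAt y _), ← e.tr_mul_unitAt y y' _ (hy'.trans inf_le_right),
        ← mul_assoc, ← mul_assoc, ← mul_assoc, M.tr_mul_tr]))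
    fun x x' V hW hx hx' => by
      refine eq_of_cover (fun y => V ⊓ e.V y) (fun _ => inf_le_left)
        (fun z hz => ⟨z, hz, e.mem z⟩) fun y => ?_
      rw [map_mul, res_res, res_res, res_tr,
        res_glue_of_le y (le_inf (le_inf (inf_le_left.trans hW) (inf_le_left.trans hx)) inf_le_right),
        res_glue_of_le y (le_inf (le_inf (inf_le_left.trans hW) (inf_le_left.trans hx')) inf_le_right)]
      simp only [map_mul, res_tr, Rel.res_unitAt, Sect.res_at]
      rw [← mul_assoc (M.tr x x' _ _), M.tr_mul_tr]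

lemma Rel.at_sectMap (e : Rel L M) (s : L.Sect W) (x : X) {V : X.Opens} (hW : V ≤ W)
    (hx : V ≤ e.V x) :
    (e.sectMap s).at x hW (hx.trans (e.leM x)) = e.unitAt x hx * s.at x hW (hx.trans (e.leL x)) := by
  rw [Rel.sectMap, Sect.at_mk,
    res_glue_of_le x (le_inf (le_inf hW (hx.trans (e.leM x))) hx)]
  simp only [map_mul, res_tr, Rel.res_unitAt, Sect.res_at, tr_self, one_mul]

/-- Sections are determined on the refinement of an isomorphism. -/
lemma Rel.ext_target (e : Rel L M) {a b : M.Sect W}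
    (h : ∀ x, a.at x (inf_le_left : W ⊓ e.V x ≤ W) (inf_le_right.trans (e.leM x)) =
      b.at x (inf_le_left : W ⊓ e.V x ≤ W) (inf_le_right.trans (e.leM x))) : a = b :=
  Sect.ext_of_cover (fun x => W ⊓ e.V x) (fun _ => inf_le_left) (fun z hz => ⟨z, hz, e.mem z⟩) (fun x => x)
    (fun x => inf_le_right.trans (e.leM x)) h

/-- Isomorphic cocycles have isomorphic sections. -/
def Rel.sectEquiv (e : Rel L M) : L.Sect W ≃ₗ[Γ(X, W)] M.Sect W where
  toFun := e.sectMap
  invFun := (Rel.symm e).sectMap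
  map_add' s t := e.ext_target fun x => by
    rw [Sect.at_add, e.at_sectMap _ x _ inf_le_right, e.at_sectMap _ x _ inf_le_right,
      e.at_sectMap _ x _ inf_le_right, Sect.at_add, mul_add]
  map_smul' r s := e.ext_target fun x => by
    rw [RingHom.id_apply, Sect.at_smul, e.at_sectMap _ x _ inf_le_right,
      e.at_sectMap _ x _ inf_le_right, Sect.at_smul, mul_left_comm]
  left_inv s := Sect.ext_of_cover (fun x => W ⊓ e.V x) (fun _ => inf_le_left)
    (exists_mem_inf fun z _ => ⟨z, e.mem z⟩) (fun x => x)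
    (fun x => inf_le_right.trans (e.leL x)) fun x => by
    refine ((Rel.symm e).at_sectMap (e.sectMap s) x inf_le_left
      (inf_le_right : W ⊓ e.V x ≤ e.V x)).trans ?_
    refine (congrArg (_ * ·) (e.at_sectMap s x inf_le_left inf_le_right)).trans ?_
    rw [← mul_assoc]
    exact (congrArg (· * _) (e.unitAt_symm_mul x inf_le_right)).trans (one_mul _)
  right_inv s := Sect.ext_of_cover (fun x => W ⊓ e.V x) (fun _ => inf_le_left)
    (exists_mem_inf fun z _ => ⟨z, e.mem z⟩) (fun x => x)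
    (fun x => inf_le_right.trans (e.leM x)) fun x => by
    refine (e.at_sectMap ((Rel.symm e).sectMap s) x inf_le_left inf_le_right).trans ?_
    refine (congrArg (_ * ·) ((Rel.symm e).at_sectMap s x inf_le_left
      (inf_le_right : W ⊓ e.V x ≤ e.V x))).trans ?_
    refine (mul_assoc _ _ _).symm.trans ?_
    exact (congrArg (· * _) ((mul_comm _ _).trans (e.unitAt_symm_mul x inf_le_right))).trans (one_mul _)

@[simp] lemma Rel.sectEquiv_apply (e : Rel L M) (s : L.Sect W) : e.sectEquiv s = e.sectMap s := rfl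

lemma Rel.at_sectEquiv (e : Rel L M) (s : L.Sect W) (x : X) {V : X.Opens} (hW : V ≤ W)
    (hx : V ≤ e.V x) :
    (e.sectEquiv s).at x hW (hx.trans (e.leM x)) = e.unitAt x hx * s.at x hW (hx.trans (e.leL x)) :=
  e.at_sectMap s x hW hx

lemma Rel.sectMap_restrict (e : Rel L M) {W' : X.Opens} (h : W' ≤ W) (s : L.Sect W) :
    (e.sectMap s).restrict h = e.sectMap (s.restrict h) :=
  e.ext_target fun x => by
    rw [Sect.at_restrict, e.at_sectMap _ x _ inf_le_right, e.at_sectMap _ x _ inf_le_right,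
      Sect.at_restrict]

lemma Rel.sectMap_mul (e : Rel L L') (e' : Rel M M') (s : L.Sect W) (t : M.Sect W) :
    (e.mul e').sectMap (s.mul t) = (e.sectMap s).mul (e'.sectMap t) :=
  (e.mul e').ext_target fun x => by
    rw [(e.mul e').at_sectMap _ x _ inf_le_right, Sect.at_mul', Sect.at_mul']
    refine Eq.trans ?_ (congrArg₂ (· * ·)
      (e.at_sectMap s x inf_le_left (inf_le_right.trans inf_le_left))
      (e'.at_sectMap t x inf_le_left (inf_le_right.trans inf_le_right))).symm
    have hu : (e.mul e').unitAt x (inf_le_right : W ⊓ (e.mul e').V x ≤ (e.mul e').V x) =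
        e.unitAt x (inf_le_right.trans inf_le_left) *
          e'.unitAt x (inf_le_right.trans inf_le_right) := by
      change res (U := e.V x ⊓ e'.V x) inf_le_right
        (res inf_le_left (e.h x : Γ(X, e.V x)) * res inf_le_right (e'.h x : Γ(X, e'.V x))) = _
      rw [map_mul, res_res, res_res]
      rfl
    rw [hu]
    exact mul_mul_mul_comm _ _ _ _

lemma Rel.sectMap_comap (f : Y ⟶ X) (e : Rel L M) {W' : Y.Opens} (hW' : W' ≤ f ⁻¹ᵁ W)
    (s : L.Sect W) : (e.comap f).sectMap (s.comap f hW') = (e.sectMap s).comap f hW' :=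
  (e.comap f).ext_target fun x => by
    have hW'' : W' ⊓ (e.comap f).V x ≤ f ⁻¹ᵁ (W ⊓ e.V (f x)) :=
      le_inf (inf_le_left.trans hW') inf_le_right
    have h := congrArg (pb f hW'')
      (e.at_sectMap s (f x) (inf_le_left : W ⊓ e.V (f x) ≤ W) inf_le_right)
    rw [(e.comap f).at_sectMap _ x _ inf_le_right, Sect.at_comap, Sect.at_comap]
    rw [Sect.at, pb_res, map_mul, Rel.unitAt, pb_res, Sect.at, pb_res] at h
    refine Eq.trans ?_ h.symm
    congr 1
    exact res_pb f (V := f ⁻¹ᵁ e.V (f x)) le_rfl inf_le_right _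

/-! ### The trivial cocycle -/

/-- The function of a section of the trivial cocycle. -/
def oneVal (s : (LineCocycle.one : LineCocycle X).Sect W) : Γ(X, W) :=
  glue (fun _ : X => W) (fun _ => le_rfl) (fun z hz => ⟨z, hz⟩) (fun x => s.at x le_rfl le_top)
    fun x y V hx hy => by
      rw [Sect.res_at, Sect.res_at, Sect.at_eq s x y _ _ le_top, LineCocycle.tr_one, one_mul]

lemma oneVal_eq (s : (LineCocycle.one : LineCocycle X).Sect W) (x : X) :
    oneVal s = s.at x le_rfl le_top :=
  (res_refl le_rfl _).symm.trans (res_glue (fun _ : X => W) (fun _ => le_rfl)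
    (fun z hz => ⟨z, hz⟩) (fun x => s.at x le_rfl le_top) _ x)

lemma res_oneVal (s : (LineCocycle.one : LineCocycle X).Sect W) (x : X) {V : X.Opens}
    (hW : V ≤ W) (hx : V ≤ (LineCocycle.one : LineCocycle X).U x) :
    res hW (oneVal s) = s.at x hW hx := by
  rw [oneVal_eq s x, Sect.res_at]

lemma eq_of_forall {a b : Γ(X, W)}
    (h : ∀ (x : X), res (le_rfl : W ≤ W) a = res le_rfl b) : a = b :=
  eq_of_cover (fun _ : X => W) (fun _ => le_rfl) (fun z hz => ⟨z, hz⟩) h

/-- Sections of the trivial cocycle are functions. -/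
def oneEquiv : (LineCocycle.one : LineCocycle X).Sect W ≃ₗ[Γ(X, W)] Γ(X, W) where
  toFun := oneVal
  invFun a := Sect.mk (fun x => res inf_le_left a) fun x y V hW hx hy => by
    rw [LineCocycle.tr_one, one_mul]
  map_add' s t := eq_of_forall fun x => by
    simp only [map_add, res_oneVal _ x _ le_top, Sect.at_add]
  map_smul' r s := eq_of_forall fun x => by
    simp only [RingHom.id_apply, smul_eq_mul, map_mul, res_oneVal _ x _ le_top, Sect.at_smul]
  left_inv s := Sect.ext' fun x => by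
    rw [Sect.at_mk]
    exact (res_res _ _ _).trans (res_oneVal s x inf_le_left inf_le_right)
  right_inv a := eq_of_forall fun x => by
    rw [res_oneVal _ x _ le_top, Sect.at_mk]
    exact res_res _ _ _

lemma at_oneEquiv_symm (a : Γ(X, W)) (x : X) {V : X.Opens} (hW : V ≤ W)
    (hx : V ≤ (LineCocycle.one : LineCocycle X).U x) :
    ((oneEquiv (X := X)).symm a).at x hW hx = res hW a :=
  res_res _ _ _

/-! ### Frames -/

namespace Sect

/-- A nowhere vanishing section. -/
def IsFrame (s : L.Sect W) : Prop :=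
  ∀ x, IsUnit (s.at x (inf_le_left : W ⊓ L.U x ≤ W) inf_le_right)

lemma IsFrame.isUnit_at {s : L.Sect W} (hs : s.IsFrame) (x : X) {V : X.Opens} (hW : V ≤ W)
    (hx : V ≤ L.U x) : IsUnit (s.at x hW hx) := by
  have h := (hs x).map (res (le_inf hW hx))
  rwa [res_at] at h

/-- Frames are detected on any cover. -/
lemma isFrame_of_cover {ι : Type*} (O : ι → X.Opens) (hO : ∀ i, O i ≤ W)
    (hc : ∀ z ∈ W, ∃ i, z ∈ O i) (idx : ι → X) (hidx : ∀ i, O i ≤ L.U (idx i)) {s : L.Sect W}
    (h : ∀ i, IsUnit (s.at (idx i) (hO i) (hidx i))) : s.IsFrame := fun x =>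
  isUnit_of_cover (fun i => O i ⊓ L.U x) (fun i => inf_le_inf_right _ (hO i))
    (fun z hz => (hc z hz.1).elim fun i hi => ⟨i, hi, hz.2⟩) fun i => by
      rw [res_at, at_eq s x (idx i) _ _ (inf_le_left.trans (hidx i))]
      have hu := (h i).map (res (inf_le_left : O i ⊓ L.U x ≤ O i))
      rw [res_at] at hu
      exact (L.isUnit_tr _ _ _ _).mul hu

lemma IsFrame.restrict {s : L.Sect W} (hs : s.IsFrame) {W' : X.Opens} (h : W' ≤ W) :
    (s.restrict h).IsFrame := fun x => by
  rw [at_restrict]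
  exact hs.isUnit_at x _ _

lemma IsFrame.mul {s : L.Sect W} {t : M.Sect W} (hs : s.IsFrame) (ht : t.IsFrame) :
    (s.mul t).IsFrame := fun x => by
  rw [at_mul']
  exact (hs.isUnit_at x _ _).mul (ht.isUnit_at x _ _)

lemma IsFrame.smul {s : L.Sect W} (hs : s.IsFrame) {r : Γ(X, W)} (hr : IsUnit r) :
    (r • s).IsFrame := fun x => by
  rw [at_smul]
  exact (hr.map _).mul (hs.isUnit_at x _ _)

lemma IsFrame.sectMap {s : L.Sect W} (hs : s.IsFrame) (e : Rel L M) : (e.sectMap s).IsFrame :=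
  isFrame_of_cover (fun x => W ⊓ e.V x) (fun _ => inf_le_left) (fun z hz => ⟨z, hz, e.mem z⟩) (fun x => x)
    (fun x => inf_le_right.trans (e.leM x)) fun x => by
      rw [e.at_sectMap _ x _ inf_le_right]
      exact (e.isUnit_unitAt _ _).mul (hs.isUnit_at x _ _)

lemma IsFrame.comap {s : L.Sect W} (hs : s.IsFrame) (f : Y ⟶ X) {W' : Y.Opens}
    (hW' : W' ≤ f ⁻¹ᵁ W) : (s.comap f hW').IsFrame := fun x => by
  rw [at_comap]
  refine (RingHom.isUnit_map _ ?_)
  simpa [Sect.at] using hs (f x)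

lemma isFrame_oneEquiv_symm {a : Γ(X, W)} (ha : IsUnit a) :
    ((oneEquiv (X := X)).symm a).IsFrame := fun x => by
  rw [at_oneEquiv_symm]
  exact ha.map _

/-- A frame is a basis. -/
lemma IsFrame.exists_smul_eq {s : L.Sect W} (hs : s.IsFrame) (t : L.Sect W) :
    ∃ r : Γ(X, W), r • s = t := by
  let b : ∀ x, Γ(X, W ⊓ L.U x) := fun x =>
    (((hs x).unit⁻¹ : Γ(X, W ⊓ L.U x)ˣ) : Γ(X, W ⊓ L.U x)) * t.at x inf_le_left inf_le_right
  have key : ∀ x (V : X.Opens) (hW : V ≤ W) (hx : V ≤ L.U x),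
      res (le_inf hW hx) (b x) * s.at x hW hx = t.at x hW hx := fun x V hW hx => by
    have h := congrArg (res (le_inf hW hx))
      (show b x * s.at x inf_le_left inf_le_right = t.at x inf_le_left inf_le_right by
        simp only [b]
        rw [mul_right_comm, IsUnit.val_inv_mul, one_mul])
    rwa [map_mul, res_at, res_at] at h
  refine ⟨glue (fun x => W ⊓ L.U x) (fun _ => inf_le_left) (exists_mem_inf fun z _ => ⟨z, L.mem z⟩) b
    fun x y V hx hy => ?_, ext' fun x => ?_⟩
  · have hW : V ≤ W := hx.trans inf_le_left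
    have hx' : V ≤ L.U x := hx.trans inf_le_right
    have hy' : V ≤ L.U y := hy.trans inf_le_right
    refine (hs.isUnit_at x hW hx').mul_right_cancel ?_
    rw [key x V hW hx', at_eq s x y hW hx' hy', mul_left_comm]
    exact (at_eq t x y hW hx' hy').trans (by rw [key y V hW hy'])
  · rw [at_smul]
    refine (congrArg (· * _) (res_glue_of_le (O := fun x => W ⊓ L.U x) x le_rfl)).trans ?_
    exact key x _ inf_le_left inf_le_right

lemma IsFrame.smul_left_injective {s : L.Sect W} (hs : s.IsFrame) :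
    Function.Injective fun r : Γ(X, W) => r • s := fun r r' h =>
  eq_of_cover (fun x => W ⊓ L.U x) (fun _ => inf_le_left) (fun z hz => ⟨z, hz, L.mem z⟩)
    fun x => by
      have h' := congrArg (fun t : L.Sect W => t.at x inf_le_left (inf_le_right : W ⊓ L.U x ≤ L.U x)) h
      simp only [at_smul] at h'
      exact (hs x).mul_right_cancel h'

/-- Two frames differ by a unit. -/
lemma IsFrame.exists_unit_smul_eq {s t : L.Sect W} (hs : s.IsFrame) (ht : t.IsFrame) :
    ∃ r : Γ(X, W)ˣ, (r : Γ(X, W)) • s = t := by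
  obtain ⟨r, hr⟩ := hs.exists_smul_eq t
  obtain ⟨r', hr'⟩ := ht.exists_smul_eq s
  have h : r' * r = 1 := hs.smul_left_injective (by
    change (r' * r) • s = (1 : Γ(X, W)) • s
    rw [mul_smul, hr, hr', one_smul])
  exact ⟨⟨r, r', by rw [mul_comm, h], h⟩, hr⟩

end Sect

/-- A nowhere vanishing global section trivialises. -/
def Rel.ofFrame {s : L.Sect ⊤} (hs : s.IsFrame) : Rel L LineCocycle.one where
  V := L.U
  mem := L.mem
  leL _ := le_rfl
  leM _ := le_top
  h x := (hs.isUnit_at x (V := L.U x) le_top le_rfl).unit⁻¹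
  comm x y V hx hy := by
    set a := (hs.isUnit_at x (V := V) le_top hx).unit with ha
    set b := (hs.isUnit_at y (V := V) le_top hy).unit with hb
    have key : ∀ (z : X) (hz : V ≤ L.U z),
        res hz (((hs.isUnit_at z (V := L.U z) le_top le_rfl).unit⁻¹ : Γ(X, L.U z)ˣ) : Γ(X, L.U z)) *
          s.at z le_top hz = 1 := fun z hz => by
      rw [← Sect.res_at s z (V := L.U z) le_top le_rfl hz, ← map_mul, IsUnit.val_inv_mul, map_one]
    rw [LineCocycle.tr_one, one_mul]
    refine (hs.isUnit_at y (V := V) le_top hy).mul_right_cancel ?_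
    rw [key y hy, mul_assoc, ← Sect.at_eq s x y le_top hx hy, key x hx]

end LineCocycle

namespace Pic

open LineCocycle

/-- A class is trivial iff it has a nowhere vanishing global section. -/
theorem mk_eq_one_iff {L : LineCocycle X} : mk L = 1 ↔ ∃ s : L.Sect ⊤, s.IsFrame := by
  constructor
  · intro h
    obtain ⟨e⟩ := mk_eq_mk.mp (h.symm.trans rfl : mk .one = mk L)
    exact ⟨e.sectMap ((oneEquiv (X := X)).symm 1), (Sect.isFrame_oneEquiv_symm isUnit_one).sectMap e⟩
  · rintro ⟨s, hs⟩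
    exact mk_eq_mk.mpr ⟨Rel.ofFrame hs⟩

/-- Two classes agree iff `L⁻¹ M` has a nowhere vanishing global section. -/
theorem mk_eq_mk_iff_frame {L M : LineCocycle X} :
    mk L = mk M ↔ ∃ s : (L.inv.mul M).Sect ⊤, s.IsFrame := by
  rw [← mk_eq_one_iff, ← mk_mul, ← mk_inv, inv_mul_eq_one]

end Pic

/-! ### Open immersions -/

section OpenImmersion

variable (j : Y ⟶ X) [IsOpenImmersion j]

lemma pb_bijective {W : X.Opens} (hW : W ≤ j.opensRange) :
    Function.Bijective (pb j (U := W) (V := j ⁻¹ᵁ W) le_rfl) := by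
  have : pb j (U := W) (V := j ⁻¹ᵁ W) le_rfl = (j.app W).hom := by
    rw [pb, Scheme.Hom.app_eq_appLE]
  rw [this]
  have := j.isIso_app W hW
  exact ConcreteCategory.bijective_of_isIso (j.app W)

/-- Inverse of pullback of functions along an open immersion. -/
def pbInv {W : X.Opens} (hW : W ≤ j.opensRange) : Γ(Y, j ⁻¹ᵁ W) ≃+* Γ(X, W) :=
  (RingEquiv.ofBijective _ (pb_bijective j hW)).symm

lemma pb_pbInv {W : X.Opens} (hW : W ≤ j.opensRange) {V : Y.Opens} (e : V ≤ j ⁻¹ᵁ W)
    (a : Γ(Y, j ⁻¹ᵁ W)) : pb j e (pbInv j hW a) = res e a := by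
  have h : pb j (U := W) (V := j ⁻¹ᵁ W) le_rfl (pbInv j hW a) = a :=
    (RingEquiv.ofBijective _ (pb_bijective j hW)).apply_symm_apply a
  conv_rhs => rw [← h, res_pb]

lemma eq_of_pb_eq {W : X.Opens} (hW : W ≤ j.opensRange) {a b : Γ(X, W)}
    (h : pb j (U := W) (V := j ⁻¹ᵁ W) le_rfl a = pb j le_rfl b) : a = b :=
  (pb_bijective j hW).1 h

namespace LineCocycle.Sect

variable {j} {L : LineCocycle X}

/-- A section of the pullback to an open subscheme is a section on its range. -/
theorem exists_of_openImmersion (t : (L.comap j).Sect ⊤) :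
    ∃ s : L.Sect j.opensRange, s.comap j (W' := ⊤) (by simp) = t := by
  let O : Y → X.Opens := fun y => j.opensRange ⊓ L.U (j y)
  let a : ∀ y, Γ(X, O y) := fun y =>
    pbInv j (inf_le_left : O y ≤ j.opensRange)
      (t.at y (V := j ⁻¹ᵁ O y) le_top (j.preimage_mono inf_le_right))
  obtain ⟨s, hs⟩ := exists_glue (L := L) O (fun _ => inf_le_left)
    (fun z hz => (Scheme.Hom.mem_opensRange.mp hz).elim fun y hy => ⟨y, hz, by rw [← hy]; exact L.mem _⟩)
    (fun y => single (inf_le_right : O y ≤ L.U (j y)) (a y))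
    (fun y y' x V hy hy' hx => by
      rw [at_single, at_single]
      refine eq_of_pb_eq j (hy.trans inf_le_left) ?_
      rw [map_mul, map_mul, tr, tr, pb_res, pb_res, pb_res, pb_res, pb_pbInv, pb_pbInv, res_at,
        res_at]
      have h := at_eq t y y' (V := j ⁻¹ᵁ V) le_top (j.preimage_mono (hy.trans inf_le_right))
        (j.preimage_mono (hy'.trans inf_le_right))
      rw [h, LineCocycle.tr_comap, ← mul_assoc]
      congr 1
      have h2 := congrArg (pb j (le_refl (j ⁻¹ᵁ V)))
        (L.tr_mul_tr x (j y) (j y') hx (hy.trans inf_le_right) (hy'.trans inf_le_right))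
      rw [map_mul, tr, tr, tr, pb_res, pb_res, pb_res] at h2
      exact h2)
  refine ⟨s, ext_of_cover (fun y => (L.comap j).U y) (fun _ => le_top)
    (fun z _ => ⟨z, (L.comap j).mem z⟩) (fun y => y) (fun _ => le_rfl) fun y => ?_⟩
  have h1 := congrArg (fun r : L.Sect (O y) => r.at (j y) (V := O y) le_rfl inf_le_right) (hs y)
  simp only [at_restrict, at_single, tr_self, one_mul, res_refl] at h1
  have hle : (L.comap j).U y ≤ j ⁻¹ᵁ O y := by
    intro z hz
    exact ⟨⟨z, rfl⟩, hz⟩
  have h2 := congrArg (pb j hle) h1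
  rw [Sect.at, pb_res] at h2
  rw [at_comap]
  refine h2.trans ?_
  simp only [a]
  rw [pb_pbInv, res_at]

lemma isFrame_of_comap {s : L.Sect j.opensRange} (h : (s.comap j (W' := ⊤) (by simp)).IsFrame) :
    s.IsFrame := fun x => by
  suffices hu : IsUnit (pb j (U := j.opensRange ⊓ L.U x)
      (V := j ⁻¹ᵁ (j.opensRange ⊓ L.U x)) le_rfl (s.at x inf_le_left inf_le_right)) by
    have h' := hu.map (pbInv j (inf_le_left : j.opensRange ⊓ L.U x ≤ _))
    rwa [show pbInv j (inf_le_left : j.opensRange ⊓ L.U x ≤ _) (pb j le_rfl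
      (s.at x inf_le_left inf_le_right)) = s.at x inf_le_left inf_le_right from
      (RingEquiv.ofBijective _ (pb_bijective j inf_le_left)).symm_apply_apply _] at h'
  refine isUnit_of_cover (fun y => j ⁻¹ᵁ (j.opensRange ⊓ L.U x) ⊓ (L.comap j).U y)
    (fun _ => inf_le_left) (fun z hz => ⟨z, hz, (L.comap j).mem z⟩) fun y => ?_
  set V := j ⁻¹ᵁ (j.opensRange ⊓ L.U x) ⊓ (L.comap j).U y
  have hV : V ≤ j ⁻¹ᵁ (j.opensRange ⊓ L.U x ⊓ L.U (j y)) := le_inf inf_le_left inf_le_right
  have hu := h.isUnit_at y (V := V) le_top inf_le_right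
  rw [at_comap] at hu
  have h2 := congrArg (pb j hV) (at_eq s x (j y) (V := j.opensRange ⊓ L.U x ⊓ L.U (j y))
    (inf_le_left.trans inf_le_left) (inf_le_left.trans inf_le_right) inf_le_right)
  rw [map_mul, Sect.at, pb_res, Sect.at, pb_res] at h2
  rw [res_pb, Sect.at, pb_res, h2]
  exact ((L.isUnit_tr _ _ _ _).map _).mul hu

end LineCocycle.Sect

end OpenImmersion

end Fermat.Agent.Jacobian
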