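import Fermat.Agent.Jacobian.Curve.Chart
import Mathlib.AlgebraicGeometry.Morphisms.Flat
import Mathlib.AlgebraicGeometry.Morphisms.Affine
import Mathlib.RingTheory.TensorProduct.Basic

/-!
# A `k`-scheme over an affine base change `Spec R → Spec k`

`CR c R = C ×ₖ Spec R`; over an affine open `U ⊆ C` its functions are `R ⊗[k] Γ(C, U)`.
-/

set_option autoImplicit false

noncomputable section

universe u

open CategoryTheory CategoryTheory.Limits AlgebraicGeometry TensorProduct

namespace Fermat.Agent.Jacobian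

variable {k : Type u} [CommRing k] {C : Scheme.{u}} (c : C ⟶ Spec (CommRingCat.of k))

/-- Functions on an open, as a `k`-algebra. -/
def Fun {k : Type u} [CommRing k] {C : Scheme.{u}} (_c : C ⟶ Spec (CommRingCat.of k))
    (U : C.Opens) : Type u := Γ(C, U)

instance (U : C.Opens) : CommRing (Fun c U) := inferInstanceAs (CommRing Γ(C, U))

instance (U : C.Opens) : Algebra k (Fun c U) :=
  RingHom.toAlgebra (show k →+* Fun c U from baseHom c U)

lemma algebraMap_fun (U : C.Opens) (a : k) :
    algebraMap k (Fun c U) a = (show Fun c U from baseHom c U a) := rfl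

/-- Restriction as an algebra map. -/
def funRes {U V : C.Opens} (h : V ≤ U) : Fun c U →ₐ[k] Fun c V where
  toRingHom := (res h : Γ(C, U) →+* Γ(C, V))
  commutes' a := res_pb c (U := ⊤) _ h _

variable (R : Type u) [CommRing R] [Algebra k R]

/-- The structure map `Spec R → Spec k`. -/
def specAlg : Spec (CommRingCat.of R) ⟶ Spec (CommRingCat.of k) :=
  Spec.map (CommRingCat.ofHom (algebraMap k R))

/-- The base change of `C` to `R`. -/
abbrev CR : Scheme.{u} := pullback c (specAlg (k := k) R)

/-- Projection to the curve. -/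
abbrev prC : CR c R ⟶ C := pullback.fst _ _

/-- Projection to the base. -/
abbrev prR : CR c R ⟶ Spec (CommRingCat.of R) := pullback.snd _ _

/-- The preimage of an open of `C`. -/
abbrev overU (U : C.Opens) : (CR c R).Opens := prC c R ⁻¹ᵁ U

theorem isAffineOpen_overU {U : C.Opens} (hU : IsAffineOpen U) :
    IsAffineOpen (overU c R U) :=
  haveI : IsAffineHom (specAlg (k := k) R) := by unfold specAlg; infer_instance
  haveI : IsAffineHom (prC c R) := by
    haveI : MorphismProperty.IsStableUnderBaseChange @IsAffineHom.{u} := inferInstance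
    exact MorphismProperty.of_isPullback (P := @IsAffineHom.{u})
      (IsPullback.of_hasPullback c (specAlg (k := k) R)).flip ‹_›
  hU.preimage (prC c R)

theorem overU_cover {U V : C.Opens} (h : U ⊔ V = ⊤) : overU c R U ⊔ overU c R V = ⊤ := by
  change prC c R ⁻¹ᵁ (U ⊔ V) = ⊤
  rw [h]
  rfl

/-- Scalars from `R` on an open of the base change. -/
def scalar (V : (CR c R).Opens) : R →+* Γ(CR c R, V) :=
  (pb (prR c R) (U := ⊤) (V := V) le_top).comp (Scheme.ΓSpecIso (CommRingCat.of R)).inv.hom

/-- Functions on an open of the base change, as an `R`-algebra. -/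
def RFun (V : (CR c R).Opens) : Type u := Γ(CR c R, V)

instance (V : (CR c R).Opens) : CommRing (RFun c R V) :=
  inferInstanceAs (CommRing Γ(CR c R, V))

instance (V : (CR c R).Opens) : Algebra R (RFun c R V) :=
  RingHom.toAlgebra (show R →+* RFun c R V from scalar c R V)

instance (V : (CR c R).Opens) : Algebra k (RFun c R V) :=
  RingHom.toAlgebra ((algebraMap R (RFun c R V)).comp (algebraMap k R))

instance (V : (CR c R).Opens) : IsScalarTower k R (RFun c R V) :=
  IsScalarTower.of_algebraMap_eq' rfl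

lemma pb_specMap {A B : Type u} [CommRing A] [CommRing B] (ψ : A →+* B) (a : A) :
    pb (Spec.map (CommRingCat.ofHom ψ)) (U := ⊤) (V := ⊤) le_top
        ((Scheme.ΓSpecIso (CommRingCat.of A)).inv a) =
      (Scheme.ΓSpecIso (CommRingCat.of B)).inv (ψ a) := by
  have := congr($(Scheme.ΓSpecIso_inv_naturality (CommRingCat.ofHom ψ)) a)
  simp only [CommRingCat.comp_apply, CommRingCat.hom_ofHom] at this
  refine Eq.trans ?_ this.symm
  simp [pb, Scheme.Hom.appLE, Scheme.Hom.appTop] <;> rfl

lemma res_scalar {V V' : (CR c R).Opens} (h : V' ≤ V) (r : R) :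
    res h (scalar c R V r) = scalar c R V' r :=
  res_pb (prR c R) (U := ⊤) (V := V) (V' := V') le_top h
    ((Scheme.ΓSpecIso (CommRingCat.of R)).inv.hom r)

lemma pb_baseHom {U : C.Opens} {V : (CR c R).Opens} (h : V ≤ overU c R U) (a : k) :
    pb (prC c R) h (baseHom c U a) = scalar c R V (algebraMap k R a) := by
  change pb (prC c R) h (pb c (U := ⊤) (V := U) le_top _) =
    pb (prR c R) (U := ⊤) (V := V) le_top _
  rw [← pb_specMap (algebraMap k R) a]
  refine (pb_pb (prC c R) c (U := ⊤) (V := U) le_top h _).trans ?_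
  refine Eq.trans ?_ (pb_pb (prR c R) (specAlg (k := k) R) (U := ⊤) (V := ⊤) le_top le_top _).symm
  exact pb_congr pullback.condition _ _

/-- Pullback of functions along the projection. -/
def funPullback {U : C.Opens} {V : (CR c R).Opens} (h : V ≤ overU c R U) :
    Fun c U →ₐ[k] RFun c R V where
  toRingHom := (pb (prC c R) h : Γ(C, U) →+* Γ(CR c R, V))
  commutes' a := pb_baseHom c R h a

/-- The comparison map `R ⊗[k] Γ(C, U) → Γ(C_R, U)`. -/
def funMap {U : C.Opens} {V : (CR c R).Opens} (h : V ≤ overU c R U) :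
    R ⊗[k] Fun c U →ₐ[R] RFun c R V :=
  Algebra.TensorProduct.lift (Algebra.ofId R _) (funPullback c R h) fun _ _ => Commute.all _ _

lemma funMap_tmul {U : C.Opens} {V : (CR c R).Opens} (h : V ≤ overU c R U) (r : R)
    (a : Fun c U) :
    funMap c R h (r ⊗ₜ a) = algebraMap R (RFun c R V) r * funPullback c R h a :=
  Algebra.TensorProduct.lift_tmul _ _ _ _ _

theorem bijective_funMap {U : C.Opens} (hU : IsAffineOpen U) :
    Function.Bijective (funMap c R (le_refl (overU c R U))) := by
  have hH : IsPullback (prC c R) (prR c R) c (specAlg (k := k) R) := IsPullback.of_hasPullback _ _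
  have hUY : overU c R U = prC c R ⁻¹ᵁ U ⊓ prR c R ⁻¹ᵁ ⊤ := by simp
  have hp := (isIso_pushoutSection_iff hH (US := ⊤) (UT := ⊤) (UX := U) le_top le_top hUY).mp
    (isIso_pushoutSection_of_isAffineOpen hH le_top le_top hUY (isAffineOpen_top _)
      (isAffineOpen_top _) hU)
  have hp' : IsPushout (CommRingCat.ofHom (algebraMap k (Fun c U)))
      (CommRingCat.ofHom (algebraMap k R))
      (CommRingCat.ofHom (funPullback c R (le_refl (overU c R U))).toRingHom)
      (CommRingCat.ofHom (algebraMap R (RFun c R (overU c R U)))) := by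
    refine hp.of_iso (Scheme.ΓSpecIso (CommRingCat.of k)) (Iso.refl _)
      (Scheme.ΓSpecIso (CommRingCat.of R)) (Iso.refl _) ?_ ?_ ?_ ?_
    · refine (Category.comp_id _).trans ((Iso.inv_comp_eq (Scheme.ΓSpecIso _)).mp ?_)
      rfl
    · rw [← Iso.inv_comp_eq]
      ext a
      have h1 := pb_specMap (algebraMap k R) a
      apply (Scheme.ΓSpecIso (CommRingCat.of R)).commRingCatIsoToRingEquiv.symm.injective
      change (Scheme.ΓSpecIso (CommRingCat.of R)).inv _ =
        (Scheme.ΓSpecIso (CommRingCat.of R)).inv (algebraMap k R a)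
      refine Eq.trans ?_ h1
      exact congr($((Scheme.ΓSpecIso (CommRingCat.of R)).hom_inv_id)
        ((specAlg (k := k) R).appLE ⊤ ⊤ le_top ((Scheme.ΓSpecIso (CommRingCat.of k)).inv a)))
    · simp only [Iso.refl_hom, Category.comp_id, Category.id_comp]
      rfl
    · refine (Category.comp_id _).trans ((Iso.inv_comp_eq (Scheme.ΓSpecIso _)).mp ?_)
      rfl
  have hq := hp'.flip
  let e := (CommRingCat.isPushout_tensorProduct k R (Fun c U)).isoIsPushout _ _ hq
  have he : e.hom.hom = (funMap c R (le_refl (overU c R U))).toRingHom := by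
    refine Algebra.TensorProduct.ringHom_ext ?_ ?_
    · refine RingHom.ext fun r => ?_
      have := congr($((CommRingCat.isPushout_tensorProduct k R (Fun c U)).inl_isoIsPushout_hom
        _ _ hq) r)
      change e.hom (r ⊗ₜ (1 : Fun c U)) = funMap c R _ (r ⊗ₜ 1)
      rw [funMap_tmul, map_one, mul_one]
      exact this
    · refine RingHom.ext fun a => ?_
      have := congr($((CommRingCat.isPushout_tensorProduct k R (Fun c U)).inr_isoIsPushout_hom
        _ _ hq) a)
      change e.hom ((1 : R) ⊗ₜ a) = funMap c R _ (1 ⊗ₜ a)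
      rw [funMap_tmul, map_one, one_mul]
      exact this
  have hbij := e.commRingCatIsoToRingEquiv.bijective
  have : ⇑(funMap c R (le_refl (overU c R U))) = ⇑e.commRingCatIsoToRingEquiv :=
    funext fun z => (congrFun (congrArg DFunLike.coe he) z).symm
  rw [this]
  exact hbij

/-- `Γ(C_R, U) = R ⊗[k] Γ(C, U)` for affine `U`. -/
def funEquiv {U : C.Opens} (hU : IsAffineOpen U) :
    R ⊗[k] Fun c U ≃ₐ[R] RFun c R (overU c R U) :=
  AlgEquiv.ofBijective (funMap c R le_rfl) (bijective_funMap c R hU)

section BaseChange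

variable (S : Type u) [CommRing S] [Algebra k S] (φ : R →ₐ[k] S)

/-- Functoriality in the base ring. -/
def crMap : CR c S ⟶ CR c R :=
  pullback.map _ _ _ _ (𝟙 C) (Spec.map (CommRingCat.ofHom φ.toRingHom)) (𝟙 _) (by simp) (by
    rw [Category.comp_id, specAlg, specAlg, ← Spec.map_comp, ← CommRingCat.ofHom_comp,
      ]
    congr 3
    exact φ.comp_algebraMap.symm)

@[reassoc (attr := simp)]
lemma crMap_prC : crMap c R S φ ≫ prC c R = prC c S := by
  exact (pullback.lift_fst _ _ _).trans (Category.comp_id _)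

@[reassoc (attr := simp)]
lemma crMap_prR :
    crMap c R S φ ≫ prR c R = prR c S ≫ Spec.map (CommRingCat.ofHom φ.toRingHom) := by
  exact pullback.lift_snd _ _ _

lemma overU_crMap (U : C.Opens) : crMap c R S φ ⁻¹ᵁ overU c R U = overU c S U := by
  change (crMap c R S φ ≫ prC c R) ⁻¹ᵁ U = _
  rw [crMap_prC]

lemma pb_crMap_scalar {V : (CR c R).Opens} {V' : (CR c S).Opens}
    (h : V' ≤ crMap c R S φ ⁻¹ᵁ V) (r : R) :
    pb (crMap c R S φ) h (scalar c R V r) = scalar c S V' (φ r) := by
  change pb (crMap c R S φ) h (pb (prR c R) (U := ⊤) (V := V) le_top _) =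
    pb (prR c S) (U := ⊤) (V := V') le_top ((Scheme.ΓSpecIso (CommRingCat.of S)).inv (φ.toRingHom r))
  rw [← pb_specMap φ.toRingHom r]
  refine (pb_pb (crMap c R S φ) (prR c R) (U := ⊤) (V := V) le_top h _).trans ?_
  refine Eq.trans ?_ (pb_pb (prR c S) (Spec.map (CommRingCat.ofHom φ.toRingHom)) (U := ⊤) (V := ⊤)
    le_top le_top _).symm
  exact pb_congr (crMap_prR c R S φ) _ _

lemma pb_crMap_prC {U : C.Opens} {V : (CR c R).Opens} (hV : V ≤ overU c R U)
    {V' : (CR c S).Opens} (h : V' ≤ crMap c R S φ ⁻¹ᵁ V) (a : Γ(C, U)) :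
    pb (crMap c R S φ) h (pb (prC c R) hV a) =
      pb (prC c S) ((h.trans ((crMap c R S φ).preimage_mono hV)).trans
        (overU_crMap c R S φ U).le) a := by
  rw [pb_pb]
  exact pb_congr (crMap_prC c R S φ) _ _

end BaseChange

end Fermat.Agent.Jacobian
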