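import Mathlib.AlgebraicGeometry.Scheme
import Mathlib.Algebra.Group.Units.Hom

/-!
# Line bundles as Čech cocycles

A line bundle on a scheme `X` is encoded by a family of opens `U x ∋ x` indexed by the points of
`X`, with transition functions on the overlaps. Classes form a commutative group `Pic X` in the
universe of `X`, contravariantly functorial.
-/

set_option autoImplicit false

noncomputable section

universe u

open CategoryTheory TopologicalSpace AlgebraicGeometry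

namespace Fermat.Agent.Jacobian

variable {X Y Z : Scheme.{u}}

/-- Restriction of functions. -/
def res {U V : X.Opens} (h : V ≤ U) : Γ(X, U) →+* Γ(X, V) :=
  (X.presheaf.map (homOfLE h).op).hom

/-- Pullback of functions. -/
def pb (f : X ⟶ Y) {U : Y.Opens} {V : X.Opens} (e : V ≤ f ⁻¹ᵁ U) : Γ(Y, U) →+* Γ(X, V) :=
  (f.appLE U V e).hom

@[simp] lemma res_refl {U : X.Opens} (h : U ≤ U) (a : Γ(X, U)) : res h a = a := by
  simp [res]

@[simp] lemma res_res {U V W : X.Opens} (h : V ≤ U) (h' : W ≤ V) (a : Γ(X, U)) :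
    res h' (res h a) = res (h'.trans h) a := by
  rw [res, res, res, ← CommRingCat.comp_apply, ← Functor.map_comp]
  rfl

@[simp] lemma pb_res (f : X ⟶ Y) {U U' : Y.Opens} {V : X.Opens} (h : U' ≤ U)
    (e : V ≤ f ⁻¹ᵁ U') (a : Γ(Y, U)) :
    pb f e (res h a) = pb f (e.trans (f.preimage_mono h)) a := by
  rw [pb, res, pb, ← CommRingCat.comp_apply, Scheme.Hom.map_appLE]

@[simp] lemma res_pb (f : X ⟶ Y) {U : Y.Opens} {V V' : X.Opens} (e : V ≤ f ⁻¹ᵁ U)
    (h : V' ≤ V) (a : Γ(Y, U)) : res h (pb f e a) = pb f (h.trans e) a := by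
  rw [pb, res, pb, ← CommRingCat.comp_apply, Scheme.Hom.appLE_map]

lemma pb_pb (f : X ⟶ Y) (g : Y ⟶ Z) {U : Z.Opens} {V : Y.Opens} {W : X.Opens}
    (e : V ≤ g ⁻¹ᵁ U) (e' : W ≤ f ⁻¹ᵁ V) (a : Γ(Z, U)) :
    pb f e' (pb g e a) = pb (f ≫ g) (e'.trans (f.preimage_mono e)) a := by
  rw [pb, pb, pb, ← CommRingCat.comp_apply, Scheme.Hom.appLE_comp_appLE]

lemma pb_id {U V : X.Opens} (e : V ≤ (𝟙 X) ⁻¹ᵁ U) (a : Γ(X, U)) :
    pb (𝟙 X) e a = res (show V ≤ U from e) a := by
  simp [pb, res, Scheme.Hom.appLE]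
  rfl

lemma pb_congr {f f' : X ⟶ Y} (h : f = f') {U : Y.Opens} {V : X.Opens} (e : V ≤ f ⁻¹ᵁ U)
    (a : Γ(Y, U)) : pb f e a = pb f' (h ▸ e) a := by
  subst h; rfl

/-- A Čech cocycle for `𝒪ˣ` indexed by the points of `X`. -/
structure LineCocycle (X : Scheme.{u}) : Type u where
  U : X → X.Opens
  mem : ∀ x, x ∈ U x
  g : ∀ x y, Γ(X, U x ⊓ U y)
  g_self : ∀ x (W : X.Opens) (h : W ≤ U x ⊓ U x), res h (g x x) = 1
  g_mul : ∀ x y z (W : X.Opens) (hxy : W ≤ U x ⊓ U y) (hyz : W ≤ U y ⊓ U z)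
    (hxz : W ≤ U x ⊓ U z), res hxz (g x z) = res hxy (g x y) * res hyz (g y z)

namespace LineCocycle

variable (L M N : LineCocycle X)

/-- The transition function on an open contained in two members of the cover. -/
def tr (x y : X) {W : X.Opens} (hx : W ≤ L.U x) (hy : W ≤ L.U y) : Γ(X, W) :=
  res (le_inf hx hy) (L.g x y)

@[simp] lemma tr_self (x : X) {W : X.Opens} (hx hx' : W ≤ L.U x) : L.tr x x hx hx' = 1 :=
  L.g_self x W _

lemma tr_mul_tr (x y z : X) {W : X.Opens} (hx : W ≤ L.U x) (hy : W ≤ L.U y) (hz : W ≤ L.U z) :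
    L.tr x y hx hy * L.tr y z hy hz = L.tr x z hx hz :=
  (L.g_mul x y z W _ _ _).symm

@[simp] lemma res_tr (x y : X) {W W' : X.Opens} (hx : W ≤ L.U x) (hy : W ≤ L.U y) (h : W' ≤ W) :
    res h (L.tr x y hx hy) = L.tr x y (h.trans hx) (h.trans hy) := by
  simp [tr]

lemma tr_mul_tr_symm (x y : X) {W : X.Opens} (hx : W ≤ L.U x) (hy : W ≤ L.U y) :
    L.tr x y hx hy * L.tr y x hy hx = 1 := by
  rw [tr_mul_tr, tr_self]

lemma isUnit_tr (x y : X) {W : X.Opens} (hx : W ≤ L.U x) (hy : W ≤ L.U y) :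
    IsUnit (L.tr x y hx hy) :=
  IsUnit.of_mul_eq_one _ (L.tr_mul_tr_symm x y hx hy)

/-- The trivial cocycle. -/
@[reducible] protected def one : LineCocycle X where
  U _ := ⊤
  mem _ := trivial
  g _ _ := 1
  g_self _ _ _ := map_one _
  g_mul _ _ _ _ _ _ _ := by simp

/-- Product of cocycles. -/
@[reducible] protected def mul : LineCocycle X where
  U x := L.U x ⊓ M.U x
  mem x := ⟨L.mem x, M.mem x⟩
  g x y := L.tr x y (inf_le_left.trans inf_le_left) (inf_le_right.trans inf_le_left) *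
    M.tr x y (inf_le_left.trans inf_le_right) (inf_le_right.trans inf_le_right)
  g_self x W h := by simp
  g_mul x y z W hxy hyz hxz := by
    simp only [map_mul, res_tr]
    have h₁ := L.tr_mul_tr x y z (W := W)
    have h₂ := M.tr_mul_tr x y z (W := W)
    rw [mul_mul_mul_comm, h₁, h₂]

/-- Inverse cocycle. -/
@[reducible] protected def inv : LineCocycle X where
  U := L.U
  mem := L.mem
  g x y := L.tr y x inf_le_right inf_le_left
  g_self x W h := by simp
  g_mul x y z W hxy hyz hxz := by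
    simp only [res_tr]
    rw [mul_comm, L.tr_mul_tr]

lemma tr_one (x y : X) {W : X.Opens} (hx : W ≤ (LineCocycle.one : LineCocycle X).U x)
    (hy : W ≤ (LineCocycle.one : LineCocycle X).U y) :
    (LineCocycle.one : LineCocycle X).tr x y hx hy = 1 :=
  map_one _

lemma tr_mul (x y : X) {W : X.Opens} (hx : W ≤ (L.mul M).U x) (hy : W ≤ (L.mul M).U y) :
    (L.mul M).tr x y hx hy =
      L.tr x y (hx.trans inf_le_left) (hy.trans inf_le_left) *
        M.tr x y (hx.trans inf_le_right) (hy.trans inf_le_right) := by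
  change res (U := (L.U x ⊓ M.U x) ⊓ (L.U y ⊓ M.U y)) (le_inf hx hy) (_ * _) = _
  rw [map_mul, res_tr, res_tr]

lemma tr_inv (x y : X) {W : X.Opens} (hx : W ≤ L.inv.U x) (hy : W ≤ L.inv.U y) :
    L.inv.tr x y hx hy = L.tr y x hy hx :=
  L.res_tr y x inf_le_right inf_le_left (le_inf hx hy)

/-- An isomorphism of cocycles: units on a refinement, intertwining the transition functions. -/
structure Rel : Type u where
  V : X → X.Opens
  mem : ∀ x, x ∈ V x
  leL : ∀ x, V x ≤ L.U x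
  leM : ∀ x, V x ≤ M.U x
  h : ∀ x, Γ(X, V x)ˣ
  comm : ∀ x y (W : X.Opens) (hx : W ≤ V x) (hy : W ≤ V y),
    M.tr x y (hx.trans (leM x)) (hy.trans (leM y)) * res hy (h y : Γ(X, V y)) =
      res hx (h x : Γ(X, V x)) * L.tr x y (hx.trans (leL x)) (hy.trans (leL y))

variable {L M N}

/-- Reflexivity. -/
def Rel.refl (L : LineCocycle X) : Rel L L :=
  ⟨L.U, L.mem, fun _ => le_rfl, fun _ => le_rfl, fun _ => 1, fun _ _ _ _ _ => by simp⟩

/-- Symmetry. -/
def Rel.symm (e : Rel L M) : Rel M L where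
  V := e.V
  mem := e.mem
  leL := e.leM
  leM := e.leL
  h x := (e.h x)⁻¹
  comm x y W hx hy := by
    set a := (e.h x).map (res hx : _ →+* Γ(X, W)).toMonoidHom
    set b := (e.h y).map (res hy : _ →+* Γ(X, W)).toMonoidHom
    have hc : M.tr x y _ _ * (b : Γ(X, W)) = (a : Γ(X, W)) * L.tr x y _ _ := e.comm x y W hx hy
    change L.tr x y _ _ * ((b⁻¹ : Γ(X, W)ˣ) : Γ(X, W)) =
      ((a⁻¹ : Γ(X, W)ˣ) : Γ(X, W)) * M.tr x y _ _
    rw [Units.mul_inv_eq_iff_eq_mul, mul_assoc, hc, ← mul_assoc, Units.inv_mul, one_mul]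

/-- Transitivity. -/
def Rel.trans (e : Rel L M) (e' : Rel M N) : Rel L N where
  V x := e.V x ⊓ e'.V x
  mem x := ⟨e.mem x, e'.mem x⟩
  leL x := inf_le_left.trans (e.leL x)
  leM x := inf_le_right.trans (e'.leM x)
  h x := (e'.h x).map (res inf_le_right : _ →+* Γ(X, e.V x ⊓ e'.V x)).toMonoidHom *
    (e.h x).map (res inf_le_left : _ →+* Γ(X, e.V x ⊓ e'.V x)).toMonoidHom
  comm x y W hx hy := by
    have h₁ := e.comm x y W (hx.trans inf_le_left) (hy.trans inf_le_left)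
    have h₂ := e'.comm x y W (hx.trans inf_le_right) (hy.trans inf_le_right)
    simp only [Units.val_mul, Units.coe_map, RingHom.toMonoidHom_eq_coe, MonoidHom.coe_coe,
      map_mul, res_res]
    rw [← mul_assoc, h₂, mul_assoc, h₁, mul_assoc]

instance setoid (X : Scheme.{u}) : Setoid (LineCocycle X) where
  r L M := Nonempty (Rel L M)
  iseqv := ⟨fun L => ⟨.refl L⟩, fun ⟨e⟩ => ⟨e.symm⟩, fun ⟨e⟩ ⟨e'⟩ => ⟨e.trans e'⟩⟩

/-- Cocycles with equal transition functions on a common refinement are isomorphic. -/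
def Rel.ofEq (V : X → X.Opens) (hmem : ∀ x, x ∈ V x) (hL : ∀ x, V x ≤ L.U x)
    (hM : ∀ x, V x ≤ M.U x)
    (h : ∀ x y (W : X.Opens) (hx : W ≤ V x) (hy : W ≤ V y),
      M.tr x y (hx.trans (hM x)) (hy.trans (hM y)) = L.tr x y (hx.trans (hL x)) (hy.trans (hL y))) :
    Rel L M :=
  ⟨V, hmem, hL, hM, fun _ => 1, fun x y W hx hy => by simpa using h x y W hx hy⟩

/-- Product of isomorphisms. -/
def Rel.mul {L' M' : LineCocycle X} (e : Rel L L') (e' : Rel M M') :
    Rel (L.mul M) (L'.mul M') where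
  V x := e.V x ⊓ e'.V x
  mem x := ⟨e.mem x, e'.mem x⟩
  leL x := le_inf (inf_le_left.trans (e.leL x)) (inf_le_right.trans (e'.leL x))
  leM x := le_inf (inf_le_left.trans (e.leM x)) (inf_le_right.trans (e'.leM x))
  h x := (e.h x).map (res inf_le_left : _ →+* Γ(X, e.V x ⊓ e'.V x)).toMonoidHom *
    (e'.h x).map (res inf_le_right : _ →+* Γ(X, e.V x ⊓ e'.V x)).toMonoidHom
  comm x y W hx hy := by
    have h₁ := e.comm x y W (hx.trans inf_le_left) (hy.trans inf_le_left)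
    have h₂ := e'.comm x y W (hx.trans inf_le_right) (hy.trans inf_le_right)
    simp only [tr_mul, Units.val_mul, Units.coe_map, RingHom.toMonoidHom_eq_coe,
      MonoidHom.coe_coe, map_mul, res_res]
    rw [mul_mul_mul_comm, h₁, h₂, mul_mul_mul_comm]

/-- Pullback of a cocycle. -/
@[reducible] def comap (f : X ⟶ Y) (L : LineCocycle Y) : LineCocycle X where
  U x := f ⁻¹ᵁ L.U (f x)
  mem x := L.mem (f x)
  g x y := pb f (V := f ⁻¹ᵁ L.U (f x) ⊓ f ⁻¹ᵁ L.U (f y)) le_rfl (L.g (f x) (f y))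
  g_self x W h := by
    have := congrArg (pb f (h.trans (le_inf inf_le_left inf_le_left)))
      (L.g_self (f x) (L.U (f x) ⊓ L.U (f x)) le_rfl)
    rw [pb_res, map_one] at this
    exact (res_pb f (U := L.U (f x) ⊓ L.U (f x)) _ h _).trans this
  g_mul x y z W hxy hyz hxz := by
    let O : Y.Opens := L.U (f x) ⊓ L.U (f y) ⊓ L.U (f z)
    have hO : W ≤ f ⁻¹ᵁ O := le_inf hxy (hyz.trans inf_le_right)
    have := congrArg (pb f hO) (L.g_mul (f x) (f y) (f z) O inf_le_left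
      (le_inf (inf_le_left.trans inf_le_right) inf_le_right)
      (le_inf (inf_le_left.trans inf_le_left) inf_le_right))
    rw [map_mul, pb_res, pb_res, pb_res] at this
    exact (res_pb f (U := L.U (f x) ⊓ L.U (f z)) _ hxz _).trans (this.trans
      (congrArg₂ (· * ·) (res_pb f (U := L.U (f x) ⊓ L.U (f y)) _ hxy _).symm
        (res_pb f (U := L.U (f y) ⊓ L.U (f z)) _ hyz _).symm))

lemma tr_comap (f : X ⟶ Y) (L : LineCocycle Y) (x y : X) {W : X.Opens}
    (hx : W ≤ (comap f L).U x) (hy : W ≤ (comap f L).U y) :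
    (comap f L).tr x y hx hy = pb f (le_inf hx hy) (L.g (f x) (f y)) := by
  exact res_pb f (U := L.U (f x) ⊓ L.U (f y))
    (V := f ⁻¹ᵁ L.U (f x) ⊓ f ⁻¹ᵁ L.U (f y)) le_rfl (le_inf hx hy) _

/-- Pullback of an isomorphism. -/
def Rel.comap (f : X ⟶ Y) {L M : LineCocycle Y} (e : Rel L M) :
    Rel (LineCocycle.comap f L) (LineCocycle.comap f M) where
  V x := f ⁻¹ᵁ e.V (f x)
  mem x := e.mem (f x)
  leL x := f.preimage_mono (e.leL (f x))
  leM x := f.preimage_mono (e.leM (f x))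
  h x := (e.h (f x)).map (pb f le_rfl).toMonoidHom
  comm x y W hx hy := by
    let O : Y.Opens := e.V (f x) ⊓ e.V (f y)
    have hO : W ≤ f ⁻¹ᵁ O := le_inf hx hy
    have := congrArg (pb f hO) (e.comm (f x) (f y) O inf_le_left inf_le_right)
    simp only [tr, map_mul, pb_res] at this
    simpa only [tr_comap, Units.coe_map, RingHom.toMonoidHom_eq_coe, MonoidHom.coe_coe, res_pb]
      using this

end LineCocycle

open LineCocycle

/-- Isomorphism classes of line bundles. -/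
def Pic (X : Scheme.{u}) : Type u := Quotient (LineCocycle.setoid X)

namespace Pic

/-- The class of a cocycle. -/
def mk (L : LineCocycle X) : Pic X := Quotient.mk _ L

lemma mk_eq_mk {L M : LineCocycle X} : mk L = mk M ↔ Nonempty (Rel L M) := Quotient.eq

lemma mk_surjective : Function.Surjective (mk : LineCocycle X → Pic X) := Quotient.mk_surjective

instance : One (Pic X) := ⟨mk .one⟩

instance : Mul (Pic X) :=
  ⟨Quotient.map₂ LineCocycle.mul fun _ _ ⟨e⟩ _ _ ⟨e'⟩ => ⟨e.mul e'⟩⟩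

instance : Inv (Pic X) := ⟨Quotient.map LineCocycle.inv fun L M ⟨e⟩ =>
  ⟨{ V := e.V
     mem := e.mem
     leL := e.leL
     leM := e.leM
     h := fun x => (e.h x)⁻¹
     comm := fun x y W hx hy => by
      have := e.symm.comm y x W hy hx
      rw [tr_inv, tr_inv]
      simp only [Rel.symm] at this
      linear_combination -this }⟩⟩

lemma mk_mul (L M : LineCocycle X) : mk L * mk M = mk (L.mul M) := rfl
lemma mk_inv (L : LineCocycle X) : (mk L)⁻¹ = mk L.inv := rfl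
lemma one_def : (1 : Pic X) = mk .one := rfl

instance : CommGroup (Pic X) where
  mul_assoc := by
    rintro ⟨L⟩ ⟨M⟩ ⟨N⟩
    refine Quotient.sound ⟨.ofEq (fun x => L.U x ⊓ M.U x ⊓ N.U x)
      (fun x => ⟨⟨L.mem x, M.mem x⟩, N.mem x⟩) (fun x => le_rfl)
      (fun x => (inf_assoc _ _ _).le) ?_⟩
    intro x y W hx hy
    simp only [LineCocycle.tr_mul, mul_assoc]
  one_mul := by
    rintro ⟨L⟩
    refine Quotient.sound ⟨.ofEq (fun x => L.U x) L.mem (fun x => le_inf le_top le_rfl)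
      (fun x => le_rfl) ?_⟩
    intro x y W hx hy
    simp only [LineCocycle.tr_mul, LineCocycle.tr_one, one_mul]
  mul_one := by
    rintro ⟨L⟩
    refine Quotient.sound ⟨.ofEq (fun x => L.U x) L.mem (fun x => le_inf le_rfl le_top)
      (fun x => le_rfl) ?_⟩
    intro x y W hx hy
    simp only [LineCocycle.tr_mul, LineCocycle.tr_one, mul_one]
  inv_mul_cancel := by
    rintro ⟨L⟩
    refine Quotient.sound ⟨.ofEq (fun x => L.U x) L.mem (fun x => le_inf le_rfl le_rfl)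
      (fun x => le_top) ?_⟩
    intro x y W hx hy
    rw [LineCocycle.tr_mul, LineCocycle.tr_inv, LineCocycle.tr_one]
    exact (L.tr_mul_tr_symm y x _ _).symm
  mul_comm := by
    rintro ⟨L⟩ ⟨M⟩
    refine Quotient.sound ⟨.ofEq (fun x => L.U x ⊓ M.U x) (fun x => ⟨L.mem x, M.mem x⟩)
      (fun x => le_rfl) (fun x => (inf_comm _ _).le) ?_⟩
    intro x y W hx hy
    rw [LineCocycle.tr_mul, LineCocycle.tr_mul, mul_comm]

/-- Pullback. -/
def comap (f : X ⟶ Y) : Pic Y →* Pic X where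
  toFun := Quotient.map (LineCocycle.comap f) fun _ _ ⟨e⟩ => ⟨e.comap f⟩
  map_one' := Quotient.sound ⟨LineCocycle.Rel.ofEq (fun _ => ⊤) (fun _ => trivial)
    (fun _ => le_rfl) (fun _ => le_rfl) fun x y W hx hy => by
      rw [LineCocycle.tr_comap, LineCocycle.tr_one]
      exact (map_one _).symm⟩
  map_mul' := by
    rintro ⟨L⟩ ⟨M⟩
    refine Quotient.sound ⟨LineCocycle.Rel.ofEq (fun x => f ⁻¹ᵁ (L.U (f x) ⊓ M.U (f x)))
      (fun x => ⟨L.mem _, M.mem _⟩) (fun x => le_rfl) (fun x => le_rfl) ?_⟩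
    intro x y W hx hy
    rw [LineCocycle.tr_mul, LineCocycle.tr_comap, LineCocycle.tr_comap, LineCocycle.tr_comap]
    change _ = pb f (U := (L.U (f x) ⊓ M.U (f x)) ⊓ (L.U (f y) ⊓ M.U (f y))) _ (_ * _)
    rw [map_mul]
    exact (congrArg₂ (· * ·) (pb_res f (U := L.U (f x) ⊓ L.U (f y)) _ _ _)
      (pb_res f (U := M.U (f x) ⊓ M.U (f y)) _ _ _)).symm

lemma comap_mk (f : X ⟶ Y) (L : LineCocycle Y) : comap f (mk L) = mk (L.comap f) := rfl

lemma comap_id (ξ : Pic X) : comap (𝟙 X) ξ = ξ := by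
  obtain ⟨L, rfl⟩ := mk_surjective ξ
  refine Pic.mk_eq_mk.mpr ⟨.ofEq L.U L.mem (fun x => le_rfl) (fun x => le_rfl) ?_⟩
  intro x y W hx hy
  rw [tr_comap]
  exact (pb_id (U := L.U x ⊓ L.U y) _ _).symm

lemma comap_comp (f : X ⟶ Y) (g : Y ⟶ Z) (ξ : Pic Z) :
    comap (f ≫ g) ξ = comap f (comap g ξ) := by
  obtain ⟨L, rfl⟩ := mk_surjective ξ
  refine Pic.mk_eq_mk.mpr ⟨.ofEq (fun x => (f ≫ g) ⁻¹ᵁ L.U (g (f x))) (fun x => L.mem _)
    (fun x => le_rfl) (fun x => le_rfl) ?_⟩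
  intro x y W hx hy
  rw [tr_comap, tr_comap]
  exact pb_pb f g (U := L.U (g (f x)) ⊓ L.U (g (f y)))
    (V := g ⁻¹ᵁ L.U (g (f x)) ⊓ g ⁻¹ᵁ L.U (g (f y))) le_rfl (le_inf hx hy) _

end Pic

namespace LineCocycle

/-- The cocycle obtained by using, at each point `x`, the member of index `σ x` of the cover. -/
@[reducible] def reindex (L : LineCocycle X) (σ : X → X) (hσ : ∀ x, x ∈ L.U (σ x)) : LineCocycle X where
  U x := L.U (σ x)
  mem := hσ
  g x y := L.g (σ x) (σ y)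
  g_self x := L.g_self (σ x)
  g_mul x y z := L.g_mul (σ x) (σ y) (σ z)

lemma mk_reindex (L : LineCocycle X) (σ : X → X) (hσ : ∀ x, x ∈ L.U (σ x)) :
    Pic.mk (L.reindex σ hσ) = Pic.mk L := by
  refine Pic.mk_eq_mk.mpr ⟨⟨fun x => L.U x ⊓ L.U (σ x), fun x => ⟨L.mem x, hσ x⟩,
    fun x => inf_le_right, fun x => inf_le_left,
    fun x => (L.isUnit_tr x (σ x) inf_le_left inf_le_right).unit, fun x y W hx hy => ?_⟩⟩
  simp only [IsUnit.unit_spec, res_tr]
  have e : ∀ {W : X.Opens} (h₁ : W ≤ (L.reindex σ hσ).U x) (h₂ : W ≤ (L.reindex σ hσ).U y),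
      (L.reindex σ hσ).tr x y h₁ h₂ = L.tr (σ x) (σ y) h₁ h₂ := fun _ _ => rfl
  rw [e]
  exact (L.tr_mul_tr x y (σ y) _ _ _).trans (L.tr_mul_tr x (σ x) (σ y) _ _ _).symm

end LineCocycle

end Fermat.Agent.Jacobian
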