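import Fermat.Agent.Jacobian.Transfer
import Mathlib.AlgebraicGeometry.Restrict

/-!
# Rigidified classes form a Zariski sheaf on the base

`f : Z ⟶ T` with a section `e`, such that units on `f ⁻¹ᵁ V` come from units on `V`
(`UnitsDescend f`). Classes `ξ : Pic Z` with `Pic.comap e ξ = 1` are separated
(`Pic.eq_of_locally`) and glue (`Pic.exists_glue`) along open covers of `T`.

Owner: helper36.
-/

set_option autoImplicit false
set_option linter.style.haveILetI false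

noncomputable section

universe u

open CategoryTheory TopologicalSpace AlgebraicGeometry

namespace Fermat.Agent.Jacobian

open LineCocycle

variable {Z T : Scheme.{u}} (f : Z ⟶ T) {e : T ⟶ Z} (he : e ≫ f = 𝟙 T)

/-- Units on `f ⁻¹ᵁ V` come from units on `V`. -/
def UnitsDescend : Prop :=
  ∀ (V : T.Opens) (a : Γ(Z, f ⁻¹ᵁ V)), IsUnit a → ∃ b : Γ(T, V), IsUnit b ∧ pb f le_rfl b = a

include he in
lemma le_preimage_section (V : T.Opens) : V ≤ e ⁻¹ᵁ (f ⁻¹ᵁ V) := by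
  rw [← Scheme.Hom.comp_preimage, he]
  exact le_rfl

include he in
lemma pb_section_pb {V : T.Opens} {W : T.Opens} (hW : W ≤ e ⁻¹ᵁ (f ⁻¹ᵁ V)) (hWV : W ≤ V)
    (b : Γ(T, V)) : pb e hW (pb f le_rfl b) = res hWV b := by
  rw [pb_pb, pb_congr he, pb_id]

variable {f}

include he in
/-- Automorphism rigidity. -/
theorem eq_one_of_unitsDescend (hf : UnitsDescend f) {V : T.Opens} {a : Γ(Z, f ⁻¹ᵁ V)}
    (ha : IsUnit a) (h : pb e (le_preimage_section f he V) a = 1) : a = 1 := by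
  obtain ⟨b, -, rfl⟩ := hf V a ha
  rw [pb_section_pb f he _ le_rfl, res_refl] at h
  rw [h, map_one]

include he in
/-- A compatible family of units on `f ⁻¹ᵁ A` which is `1` along the section is `1`. -/
theorem family_eq_one (hf : UnitsDescend f) {A : T.Opens} {ι : Type*} (O : ι → Z.Opens)
    (hO : ∀ a, O a ≤ f ⁻¹ᵁ A) (hc : ∀ z ∈ f ⁻¹ᵁ A, ∃ a, z ∈ O a) (c : ∀ a, Γ(Z, O a))
    (hu : ∀ a, IsUnit (c a))
    (hcomp : ∀ a b (W : Z.Opens) (ha : W ≤ O a) (hb : W ≤ O b), res ha (c a) = res hb (c b))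
    (hsec : ∀ a, pb e (V := e ⁻¹ᵁ O a) le_rfl (c a) = 1) (a : ι) : c a = 1 := by
  set u := glue O hO hc c hcomp with hudef
  have hres : ∀ a, res (hO a) u = c a := fun a => res_glue O hO hc c hcomp a
  have hu1 : u = 1 := by
    refine eq_one_of_unitsDescend he hf
      (isUnit_of_cover O hO hc fun a => by rw [hres]; exact hu a) ?_
    refine eq_of_cover (fun a => A ⊓ e ⁻¹ᵁ O a) (fun _ => inf_le_left)
      (exists_mem_inf fun p hp => hc (e p) (le_preimage_section f he A hp)) fun a => ?_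
    rw [res_pb, map_one]
    have h := congrArg (res (inf_le_right : A ⊓ e ⁻¹ᵁ O a ≤ e ⁻¹ᵁ O a)) (hsec a)
    rw [← hres a, pb_res, res_pb, map_one] at h
    exact h
  rw [← hres a, hu1, map_one]

variable {L : LineCocycle Z}

include he in
/-- Frames over `f ⁻¹ᵁ V` agreeing along the section are equal. -/
theorem frame_eq_of_comap_eq (hf : UnitsDescend f) {V : T.Opens} {s t : L.Sect (f ⁻¹ᵁ V)}
    (hs : s.IsFrame) (ht : t.IsFrame)
    (h : s.comap e (le_preimage_section f he V) = t.comap e (le_preimage_section f he V)) :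
    s = t := by
  obtain ⟨r, rfl⟩ := hs.exists_unit_smul_eq ht
  have h1 : pb e (le_preimage_section f he V) (r : Γ(Z, f ⁻¹ᵁ V)) = 1 := by
    refine (hs.comap e (le_preimage_section f he V)).smul_left_injective ?_
    change _ • _ = (1 : Γ(T, V)) • _
    rw [one_smul, ← Sect.comap_smul, ← h]
  rw [eq_one_of_unitsDescend he hf r.isUnit h1, one_smul]

namespace Pic

include he in
/-- Separatedness: a rigid class trivial over an open cover of the base is trivial. -/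
theorem eq_one_of_locally (hf : UnitsDescend f) {ι : Type*} (V : ι → T.Opens)
    (hV : ∀ p : T, ∃ i, p ∈ V i) {Y : ι → Scheme.{u}} (j : ∀ i, Y i ⟶ Z)
    [∀ i, IsOpenImmersion (j i)] (hj : ∀ i, (j i).opensRange = f ⁻¹ᵁ V i)
    (ξ : Pic Z) (hrig : comap e ξ = 1) (hloc : ∀ i, comap (j i) ξ = 1) : ξ = 1 := by
  obtain ⟨L, rfl⟩ := mk_surjective ξ
  obtain ⟨r, hr⟩ := mk_eq_one_iff.mp hrig
  -- normalised frames
  have hex : ∀ i, ∃ s : L.Sect (f ⁻¹ᵁ V i), s.IsFrame ∧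
      s.comap e (le_preimage_section f he (V i)) = r.restrict le_top := by
    intro i
    obtain ⟨t, ht⟩ := mk_eq_one_iff.mp (hloc i)
    obtain ⟨s, hs⟩ := Sect.exists_of_openImmersion (j := j i) t
    have hsf : s.IsFrame := Sect.isFrame_of_comap (by rw [hs]; exact ht)
    have hle : f ⁻¹ᵁ V i ≤ (j i).opensRange := (hj i).ge
    obtain ⟨u, hu⟩ := ((hsf.restrict hle).comap e
      (le_preimage_section f he (V i))).exists_unit_smul_eq (hr.restrict le_top)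
    refine ⟨pb f le_rfl (u : Γ(T, V i)) • s.restrict hle,
      (hsf.restrict hle).smul (u.isUnit.map _), ?_⟩
    rw [Sect.comap_smul, pb_section_pb f he _ le_rfl, res_refl, hu]
  choose s hs hse using hex
  have hle : ∀ i, f ⁻¹ᵁ V i ≤ (⊤ : Z.Opens) := fun i => le_top
  obtain ⟨S, hS⟩ := Sect.exists_glue (L := L) (fun i => f ⁻¹ᵁ V i) hle
    (fun z _ => hV (f z)) s fun i i' x W hi hi' hx => by
      have hA : f ⁻¹ᵁ (V i ⊓ V i') ≤ f ⁻¹ᵁ V i := f.preimage_mono inf_le_left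
      have hA' : f ⁻¹ᵁ (V i ⊓ V i') ≤ f ⁻¹ᵁ V i' := f.preimage_mono inf_le_right
      have heq : (s i).restrict hA = (s i').restrict hA' := by
        refine frame_eq_of_comap_eq he hf ((hs i).restrict hA) ((hs i').restrict hA') ?_
        refine Sect.ext' fun p => ?_
        have h1 := congrArg (fun q : (L.comap e).Sect (V i) => q.at p
          (V := V i ⊓ V i' ⊓ (L.comap e).U p) (inf_le_left.trans inf_le_left) inf_le_right) (hse i)
        have h2 := congrArg (fun q : (L.comap e).Sect (V i') => q.at p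
          (V := V i ⊓ V i' ⊓ (L.comap e).U p) (inf_le_left.trans inf_le_right) inf_le_right) (hse i')
        simp only [Sect.at_comap, Sect.at_restrict] at h1 h2
        rw [Sect.at_comap, Sect.at_comap]
        rw [show ((s i).restrict hA).1 (e p) = (s i).at (e p) (inf_le_left.trans hA) inf_le_right from
            rfl,
          show ((s i').restrict hA').1 (e p)
            = (s i').at (e p) (inf_le_left.trans hA') inf_le_right from rfl,
          Sect.at, Sect.at, pb_res, pb_res, h1, h2]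
      have := congrArg (fun q : L.Sect (f ⁻¹ᵁ (V i ⊓ V i')) => q.at x (V := W) (le_inf hi hi') hx) heq
      simpa only [Sect.at_restrict] using this
  refine mk_eq_one_iff.mpr ⟨S, Sect.isFrame_of_cover
    (fun p : (Σ i, Z) => f ⁻¹ᵁ V p.1 ⊓ L.U p.2) (fun _ => le_top)
    (fun z _ => (hV (f z)).elim fun i hi => ⟨⟨i, z⟩, hi, L.mem z⟩) (fun p => p.2)
    (fun _ => inf_le_right) fun p => ?_⟩
  have h := congrArg (fun q : L.Sect (f ⁻¹ᵁ V p.1) =>
    q.at p.2 (V := f ⁻¹ᵁ V p.1 ⊓ L.U p.2) inf_le_left inf_le_right) (hS p.1)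
  simp only [Sect.at_restrict] at h
  rw [h]
  exact (hs p.1).isUnit_at _ _ _

include he in
/-- Separatedness for two classes. -/
theorem eq_of_locally (hf : UnitsDescend f) {ι : Type*} (V : ι → T.Opens)
    (hV : ∀ p : T, ∃ i, p ∈ V i) {Y : ι → Scheme.{u}} (j : ∀ i, Y i ⟶ Z)
    [∀ i, IsOpenImmersion (j i)] (hj : ∀ i, (j i).opensRange = f ⁻¹ᵁ V i)
    (ξ η : Pic Z) (hξ : comap e ξ = 1) (hη : comap e η = 1)
    (hloc : ∀ i, comap (j i) ξ = comap (j i) η) : ξ = η :=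
  mul_inv_eq_one.mp (eq_one_of_locally he hf V hV j hj (ξ * η⁻¹)
    (by rw [map_mul, map_inv, hξ, hη, inv_one, mul_one])
    fun i => by rw [map_mul, map_inv, hloc i, mul_inv_cancel])

end Pic

/-! ### Auxiliary evaluations -/

namespace LineCocycle

variable {X Y : Scheme.{u}}

lemma res_pb_tr (L : LineCocycle Y) (k : X ⟶ Y) (a b : Y) {A : Y.Opens} {W W' : X.Opens}
    (hA : W ≤ k ⁻¹ᵁ A) (ha : A ≤ L.U a) (hb : A ≤ L.U b) (h : W' ≤ W) :
    res h (pb k hA (L.tr a b ha hb)) =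
      pb k (h.trans hA) (L.tr a b ha hb) := res_pb _ _ _ _

/-- `tr` pulled back along `k`, on an open inside both members. -/
def ptr (L : LineCocycle Y) (k : X ⟶ Y) (a b : Y) {W : X.Opens} (ha : W ≤ k ⁻¹ᵁ L.U a)
    (hb : W ≤ k ⁻¹ᵁ L.U b) : Γ(X, W) :=
  pb k (U := L.U a ⊓ L.U b) (le_inf ha hb) (L.g a b)

@[simp] lemma res_ptr (L : LineCocycle Y) (k : X ⟶ Y) (a b : Y) {W W' : X.Opens}
    (ha : W ≤ k ⁻¹ᵁ L.U a) (hb : W ≤ k ⁻¹ᵁ L.U b) (h : W' ≤ W) :
    res h (L.ptr k a b ha hb) = L.ptr k a b (h.trans ha) (h.trans hb) :=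
  res_pb _ _ _ _

lemma ptr_mul_ptr (L : LineCocycle Y) (k : X ⟶ Y) (a b c : Y) {W : X.Opens}
    (ha : W ≤ k ⁻¹ᵁ L.U a) (hb : W ≤ k ⁻¹ᵁ L.U b) (hc : W ≤ k ⁻¹ᵁ L.U c) :
    L.ptr k a b ha hb * L.ptr k b c hb hc = L.ptr k a c ha hc := by
  have h := congrArg (pb k (U := L.U a ⊓ L.U b ⊓ L.U c) (le_inf (le_inf ha hb) hc))
    (L.tr_mul_tr a b c (W := L.U a ⊓ L.U b ⊓ L.U c) (inf_le_left.trans inf_le_left)
      (inf_le_left.trans inf_le_right) inf_le_right)
  rw [map_mul, tr, tr, tr, pb_res, pb_res, pb_res] at h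
  exact h

lemma ptr_self (L : LineCocycle Y) (k : X ⟶ Y) (a : Y) {W : X.Opens}
    (ha ha' : W ≤ k ⁻¹ᵁ L.U a) : L.ptr k a a ha ha' = 1 := by
  have h := congrArg (pb k (U := L.U a) ha) (L.tr_self a (W := L.U a) le_rfl le_rfl)
  rw [map_one, tr, pb_res] at h
  exact h

lemma isUnit_ptr (L : LineCocycle Y) (k : X ⟶ Y) (a b : Y) {W : X.Opens}
    (ha : W ≤ k ⁻¹ᵁ L.U a) (hb : W ≤ k ⁻¹ᵁ L.U b) : IsUnit (L.ptr k a b ha hb) :=
  IsUnit.of_mul_eq_one _ ((L.ptr_mul_ptr k a b a ha hb ha).trans (L.ptr_self k a _ _))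

lemma tr_comap_eq_ptr (L : LineCocycle Y) (k : X ⟶ Y) (x x' : X) {W : X.Opens}
    (hx : W ≤ (L.comap k).U x) (hy : W ≤ (L.comap k).U x') :
    (L.comap k).tr x x' hx hy = L.ptr k (k x) (k x') hx hy := tr_comap _ _ _ _ _ _

/-- Value of a section of a pullback in an arbitrary frame of the base. -/
def Sect.atComap {L : LineCocycle Y} {k : X ⟶ Y} {A : X.Opens} (s : (L.comap k).Sect A) (y : Y)
    {W : X.Opens} (hA : W ≤ A) (hy : W ≤ k ⁻¹ᵁ L.U y) : Γ(X, W) :=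
  glue (fun p => W ⊓ (L.comap k).U p) (fun _ => inf_le_left)
    (exists_mem_inf fun p _ => ⟨p, (L.comap k).mem p⟩)
    (fun p => L.ptr k y (k p) (inf_le_left.trans hy) inf_le_right *
      s.at p (inf_le_left.trans hA) inf_le_right)
    fun p q V hp hq => by
      simp only [map_mul, res_ptr, Sect.res_at]
      rw [Sect.at_eq s p q _ _ (hq.trans inf_le_right), tr_comap_eq_ptr, ← mul_assoc, ptr_mul_ptr]

lemma Sect.res_atComap_eq {L : LineCocycle Y} {k : X ⟶ Y} {A : X.Opens} (s : (L.comap k).Sect A)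
    (y : Y) {W : X.Opens} (hA : W ≤ A) (hy : W ≤ k ⁻¹ᵁ L.U y) (p : X) {V : X.Opens}
    (hV : V ≤ W) (hp : V ≤ (L.comap k).U p) :
    res hV (s.atComap y hA hy) =
      L.ptr k y (k p) (hV.trans hy) hp * s.at p (hV.trans hA) hp := by
  rw [Sect.atComap, res_glue_of_le (O := fun p => W ⊓ (L.comap k).U p) p (le_inf hV hp),
    map_mul, res_ptr, Sect.res_at]

lemma Sect.res_atComap {L : LineCocycle Y} {k : X ⟶ Y} {A : X.Opens} (s : (L.comap k).Sect A)
    (y : Y) {W W' : X.Opens} (hA : W ≤ A) (hy : W ≤ k ⁻¹ᵁ L.U y) (h : W' ≤ W) :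
    res h (s.atComap y hA hy) = s.atComap y (h.trans hA) (h.trans hy) :=
  eq_of_cover (fun p => W' ⊓ (L.comap k).U p) (fun _ => inf_le_left)
    (exists_mem_inf fun p _ => ⟨p, (L.comap k).mem p⟩) fun p => by
      rw [res_res, res_atComap_eq s y hA hy p _ inf_le_right,
        res_atComap_eq s y _ _ p _ inf_le_right]

lemma Sect.atComap_change {L : LineCocycle Y} {k : X ⟶ Y} {A : X.Opens} (s : (L.comap k).Sect A)
    (y y' : Y) {W : X.Opens} (hA : W ≤ A) (hy : W ≤ k ⁻¹ᵁ L.U y) (hy' : W ≤ k ⁻¹ᵁ L.U y') :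
    s.atComap y hA hy = L.ptr k y y' hy hy' * s.atComap y' hA hy' :=
  eq_of_cover (fun p => W ⊓ (L.comap k).U p) (fun _ => inf_le_left)
    (exists_mem_inf fun p _ => ⟨p, (L.comap k).mem p⟩) fun p => by
      rw [map_mul, res_atComap_eq s y hA hy p _ inf_le_right,
        res_atComap_eq s y' hA hy' p _ inf_le_right, res_ptr, ← mul_assoc, ptr_mul_ptr]

lemma Sect.IsFrame.isUnit_atComap {L : LineCocycle Y} {k : X ⟶ Y} {A : X.Opens}
    {s : (L.comap k).Sect A} (hs : s.IsFrame) (y : Y) {W : X.Opens} (hA : W ≤ A)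
    (hy : W ≤ k ⁻¹ᵁ L.U y) : IsUnit (s.atComap y hA hy) :=
  isUnit_of_cover (fun p => W ⊓ (L.comap k).U p) (fun _ => inf_le_left)
    (exists_mem_inf fun p _ => ⟨p, (L.comap k).mem p⟩) fun p => by
      rw [res_atComap_eq s y hA hy p _ inf_le_right]
      exact (L.isUnit_ptr _ _ _ _ _).mul (hs.isUnit_at p _ _)

/-- Value, in frames of both sides, of a section comparing two pullbacks. -/
def Sect.atPair {Y' : Scheme.{u}} {L : LineCocycle Y} {L' : LineCocycle Y'} {k : X ⟶ Y}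
    {k' : X ⟶ Y'} (s : ((L'.comap k').inv.mul (L.comap k)).Sect ⊤) (y : Y) (y' : Y')
    {W : X.Opens} (hy : W ≤ k ⁻¹ᵁ L.U y) (hy' : W ≤ k' ⁻¹ᵁ L'.U y') : Γ(X, W) :=
  glue (fun p => W ⊓ ((L'.comap k').inv.mul (L.comap k)).U p) (fun _ => inf_le_left)
    (exists_mem_inf fun p _ => ⟨p, LineCocycle.mem _ p⟩)
    (fun p => L.ptr k y (k p) (inf_le_left.trans hy) (inf_le_right.trans inf_le_right) *
      L'.ptr k' (k' p) y' (inf_le_right.trans inf_le_left) (inf_le_left.trans hy') *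
      s.at p le_top inf_le_right)
    fun p q V hp hq => by
      simp only [map_mul, res_ptr, Sect.res_at]
      rw [Sect.at_eq s p q _ _ (hq.trans inf_le_right), LineCocycle.tr_mul, LineCocycle.tr_inv,
        tr_comap_eq_ptr, tr_comap_eq_ptr]
      have h1 := L.ptr_mul_ptr k y (k p) (k q) (W := V) ((hp.trans inf_le_left).trans hy)
        ((hp.trans inf_le_right).trans inf_le_right) ((hq.trans inf_le_right).trans inf_le_right)
      have h2 := L'.ptr_mul_ptr k' (k' q) (k' p) y' (W := V)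
        ((hq.trans inf_le_right).trans inf_le_left)
        ((hp.trans inf_le_right).trans inf_le_left) ((hp.trans inf_le_left).trans hy')
      rw [← h1, ← h2]
      ring

lemma Sect.res_atPair_eq {Y' : Scheme.{u}} {L : LineCocycle Y} {L' : LineCocycle Y'} {k : X ⟶ Y}
    {k' : X ⟶ Y'} (s : ((L'.comap k').inv.mul (L.comap k)).Sect ⊤) (y : Y) (y' : Y')
    {W : X.Opens} (hy : W ≤ k ⁻¹ᵁ L.U y) (hy' : W ≤ k' ⁻¹ᵁ L'.U y') (p : X) {V : X.Opens}
    (hV : V ≤ W) (hp : V ≤ ((L'.comap k').inv.mul (L.comap k)).U p) :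
    res hV (s.atPair y y' hy hy') =
      L.ptr k y (k p) (hV.trans hy) (hp.trans inf_le_right) *
        L'.ptr k' (k' p) y' (hp.trans inf_le_left) (hV.trans hy') * s.at p le_top hp := by
  rw [Sect.atPair,
    res_glue_of_le (O := fun p => W ⊓ ((L'.comap k').inv.mul (L.comap k)).U p) p (le_inf hV hp),
    map_mul, map_mul, res_ptr, res_ptr, Sect.res_at]

lemma Sect.res_atPair {Y' : Scheme.{u}} {L : LineCocycle Y} {L' : LineCocycle Y'} {k : X ⟶ Y}
    {k' : X ⟶ Y'} (s : ((L'.comap k').inv.mul (L.comap k)).Sect ⊤) (y : Y) (y' : Y')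
    {W W' : X.Opens} (hy : W ≤ k ⁻¹ᵁ L.U y) (hy' : W ≤ k' ⁻¹ᵁ L'.U y') (h : W' ≤ W) :
    res h (s.atPair y y' hy hy') = s.atPair y y' (h.trans hy) (h.trans hy') :=
  eq_of_cover (fun p => W' ⊓ ((L'.comap k').inv.mul (L.comap k)).U p) (fun _ => inf_le_left)
    (exists_mem_inf fun p _ => ⟨p, LineCocycle.mem _ p⟩) fun p => by
      rw [res_res, res_atPair_eq s y y' hy hy' p _ inf_le_right,
        res_atPair_eq s y y' _ _ p _ inf_le_right]

lemma Sect.atPair_change {Y' : Scheme.{u}} {L : LineCocycle Y} {L' : LineCocycle Y'} {k : X ⟶ Y}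
    {k' : X ⟶ Y'} (s : ((L'.comap k').inv.mul (L.comap k)).Sect ⊤) (y₀ y : Y) (y' y₁ : Y')
    {W : X.Opens} (h₀ : W ≤ k ⁻¹ᵁ L.U y₀) (hy : W ≤ k ⁻¹ᵁ L.U y) (hy' : W ≤ k' ⁻¹ᵁ L'.U y')
    (h₁ : W ≤ k' ⁻¹ᵁ L'.U y₁) :
    s.atPair y₀ y₁ h₀ h₁ =
      L.ptr k y₀ y h₀ hy * s.atPair y y' hy hy' * L'.ptr k' y' y₁ hy' h₁ :=
  eq_of_cover (fun p => W ⊓ ((L'.comap k').inv.mul (L.comap k)).U p) (fun _ => inf_le_left)
    (exists_mem_inf fun p _ => ⟨p, LineCocycle.mem _ p⟩) fun p => by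
      rw [map_mul, map_mul, res_atPair_eq s y₀ y₁ h₀ h₁ p _ inf_le_right,
        res_atPair_eq s y y' hy hy' p _ inf_le_right, res_ptr, res_ptr]
      rw [← L.ptr_mul_ptr k y₀ y (k p) _ (inf_le_left.trans hy) _,
        ← L'.ptr_mul_ptr k' (k' p) y' y₁ _ (inf_le_left.trans hy') _]
      ring

lemma Sect.IsFrame.isUnit_atPair {Y' : Scheme.{u}} {L : LineCocycle Y} {L' : LineCocycle Y'}
    {k : X ⟶ Y} {k' : X ⟶ Y'} {s : ((L'.comap k').inv.mul (L.comap k)).Sect ⊤} (hs : s.IsFrame)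
    (y : Y) (y' : Y') {W : X.Opens} (hy : W ≤ k ⁻¹ᵁ L.U y) (hy' : W ≤ k' ⁻¹ᵁ L'.U y') :
    IsUnit (s.atPair y y' hy hy') :=
  isUnit_of_cover (fun p => W ⊓ ((L'.comap k').inv.mul (L.comap k)).U p) (fun _ => inf_le_left)
    (exists_mem_inf fun p _ => ⟨p, LineCocycle.mem _ p⟩) fun p => by
      rw [res_atPair_eq s y y' hy hy' p _ inf_le_right]
      exact ((L.isUnit_ptr _ _ _ _ _).mul (L'.isUnit_ptr _ _ _ _ _)).mul (hs.isUnit_at p _ _)

end LineCocycle

/-! ### Cocycles with an arbitrary index type -/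

/-- Transition functions on a cover with arbitrary index type. -/
structure IndexedCocycle (Z : Scheme.{u}) (I : Type u) where
  O : I → Z.Opens
  cover : ∀ z, ∃ a, z ∈ O a
  g : ∀ a b {W : Z.Opens}, W ≤ O a → W ≤ O b → Γ(Z, W)
  res_g : ∀ a b {W W' : Z.Opens} (ha : W ≤ O a) (hb : W ≤ O b) (h : W' ≤ W),
    res h (g a b ha hb) = g a b (h.trans ha) (h.trans hb)
  g_self : ∀ a {W : Z.Opens} (ha ha' : W ≤ O a), g a a ha ha' = 1
  g_mul : ∀ a b c {W : Z.Opens} (ha : W ≤ O a) (hb : W ≤ O b) (hc : W ≤ O c),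
    g a b ha hb * g b c hb hc = g a c ha hc

namespace IndexedCocycle

variable {I : Type u} (G : IndexedCocycle Z I)

/-- A member of the cover containing a point. -/
def idx (z : Z) : I := (G.cover z).choose

lemma mem_idx (z : Z) : z ∈ G.O (G.idx z) := (G.cover z).choose_spec

/-- The associated cocycle. -/
@[reducible] def toLineCocycle : LineCocycle Z where
  U z := G.O (G.idx z)
  mem := G.mem_idx
  g z w := G.g _ _ inf_le_left inf_le_right
  g_self z W h := by rw [G.res_g, G.g_self]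
  g_mul x y z W hxy hyz hxz := by rw [G.res_g, G.res_g, G.res_g, G.g_mul]

lemma tr_toLineCocycle (z w : Z) {W : Z.Opens} (hz : W ≤ G.O (G.idx z)) (hw : W ≤ G.O (G.idx w)) :
    G.toLineCocycle.tr z w hz hw = G.g _ _ hz hw :=
  G.res_g _ _ _ _ _

end IndexedCocycle

/-! ### Gluing -/

section Glue

variable {ι : Type u} {V : ι → T.Opens} {Y : ι → Scheme.{u}} (j : ∀ i, Y i ⟶ Z)
  [∀ i, IsOpenImmersion (j i)] (hj : ∀ i, (j i).opensRange = f ⁻¹ᵁ V i)
  {ei : ∀ i, (V i).toScheme ⟶ Y i} (hei : ∀ i, ei i ≫ j i = (V i).ι ≫ e)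
  (L : ∀ i, LineCocycle (Y i))

/-- Members of the glued cover. -/
def glueOpen (a : Σ i, Y i) : Z.Opens := j a.1 ''ᵁ (L a.1).U a.2

lemma glueOpen_le_range (a : Σ i, Y i) : glueOpen j L a ≤ (j a.1).opensRange :=
  (j a.1).image_le_opensRange _

include hj in
lemma glueOpen_le (a : Σ i, Y i) : glueOpen j L a ≤ f ⁻¹ᵁ V a.1 :=
  (glueOpen_le_range j L a).trans (hj a.1).le

lemma preimage_le_of_le_glueOpen (a : Σ i, Y i) {W : Z.Opens} (h : W ≤ glueOpen j L a) :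
    j a.1 ⁻¹ᵁ W ≤ (L a.1).U a.2 :=
  ((j a.1).preimage_mono h).trans (Scheme.Hom.preimage_image_eq _ _).le

lemma comp_preimage_le {X : Scheme.{u}} {q : X ⟶ Z} (a : Σ i, Y i) {k : X ⟶ Y a.1}
    (hq : k ≫ j a.1 = q) {W : Z.Opens} (h : W ≤ glueOpen j L a) :
    q ⁻¹ᵁ W ≤ k ⁻¹ᵁ (L a.1).U a.2 := by
  subst hq
  rw [Scheme.Hom.comp_preimage]
  exact k.preimage_mono (preimage_le_of_le_glueOpen j L a h)

include hj in
lemma exists_mem_glueOpen (i : ι) {z : Z} (hz : f z ∈ V i) :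
    ∃ y, z ∈ glueOpen j L ⟨i, y⟩ := by
  obtain ⟨y, hy⟩ : z ∈ (j i).opensRange := by rw [hj]; exact hz
  exact ⟨y, y, (L i).mem y, hy⟩

/-- Transition functions of the `L i`, on `Z`. -/
def trans₁ (i : ι) (y y' : Y i) {W : Z.Opens} (h : W ≤ glueOpen j L ⟨i, y⟩)
    (h' : W ≤ glueOpen j L ⟨i, y'⟩) : Γ(Z, W) :=
  pbInv (j i) (h.trans (glueOpen_le_range j L ⟨i, y⟩))
    ((L i).tr y y' (preimage_le_of_le_glueOpen j L ⟨i, y⟩ h)
      (preimage_le_of_le_glueOpen j L ⟨i, y'⟩ h'))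

lemma pb_trans₁ (i : ι) (y y' : Y i) {W : Z.Opens} (h : W ≤ glueOpen j L ⟨i, y⟩)
    (h' : W ≤ glueOpen j L ⟨i, y'⟩) {X : Scheme.{u}} {q : X ⟶ Z} {k : X ⟶ Y i}
    (hq : k ≫ j i = q) {W' : X.Opens} (hW' : W' ≤ q ⁻¹ᵁ W) :
    pb q hW' (trans₁ j L i y y' h h') = (L i).ptr k y y'
      (hW'.trans (comp_preimage_le j L ⟨i, y⟩ hq h))
      (hW'.trans (comp_preimage_le j L ⟨i, y'⟩ hq h')) := by
  subst hq
  rw [trans₁, ← pb_pb k (j i) (V := j i ⁻¹ᵁ W) le_rfl (by rwa [← Scheme.Hom.comp_preimage]),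
    pb_pbInv, LineCocycle.tr, res_refl, pb_res]
  rfl

lemma res_trans₁ (i : ι) (y y' : Y i) {W W' : Z.Opens} (h : W ≤ glueOpen j L ⟨i, y⟩)
    (h' : W ≤ glueOpen j L ⟨i, y'⟩) (hW : W' ≤ W) :
    res hW (trans₁ j L i y y' h h') = trans₁ j L i y y' (hW.trans h) (hW.trans h') := by
  refine eq_of_pb_eq (j i) ((hW.trans h).trans (glueOpen_le_range j L ⟨i, y⟩)) ?_
  rw [pb_res, pb_trans₁ j L i y y' h h' (Category.id_comp _),
    pb_trans₁ j L i y y' _ _ (Category.id_comp _)]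

lemma isUnit_trans₁ (i : ι) (y y' : Y i) {W : Z.Opens} (h : W ≤ glueOpen j L ⟨i, y⟩)
    (h' : W ≤ glueOpen j L ⟨i, y'⟩) : IsUnit (trans₁ j L i y y' h h') :=
  ((L i).isUnit_tr _ _ _ _).map _

variable (r : ∀ i, ((L i).comap (ei i)).Sect ⊤) (hr : ∀ i, (r i).IsFrame)

include hei in
lemma rig_preimage_le (a : Σ i, Y i) {W : T.Opens} (h : W ≤ e ⁻¹ᵁ glueOpen j L a) :
    (V a.1).ι ⁻¹ᵁ W ≤ ei a.1 ⁻¹ᵁ (L a.1).U a.2 := by
  refine ((V a.1).ι.preimage_mono h).trans ?_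
  rw [← Scheme.Hom.comp_preimage, ← hei, Scheme.Hom.comp_preimage]
  exact (ei a.1).preimage_mono (Scheme.Hom.preimage_image_eq _ _).le

/-- The rigidifications, in the frames of the glued cover. -/
def rig (a : Σ i, Y i) {W : T.Opens} (hV : W ≤ V a.1) (h : W ≤ e ⁻¹ᵁ glueOpen j L a) : Γ(T, W) :=
  pbInv (V a.1).ι (show W ≤ (V a.1).ι.opensRange by rwa [Scheme.Opens.opensRange_ι])
    ((r a.1).atComap a.2 le_top (rig_preimage_le j hei L a h))

lemma res_rig (a : Σ i, Y i) {W W' : T.Opens} (hV : W ≤ V a.1)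
    (h : W ≤ e ⁻¹ᵁ glueOpen j L a) (hW : W' ≤ W) :
    res hW (rig j hei L r a hV h) = rig j hei L r a (hW.trans hV) (hW.trans h) := by
  refine eq_of_pb_eq (V a.1).ι (show W' ≤ _ by rw [Scheme.Opens.opensRange_ι]; exact hW.trans hV) ?_
  rw [pb_res, rig, rig, pb_pbInv, pb_pbInv, res_refl, Sect.res_atComap]

include hr in
lemma isUnit_rig (a : Σ i, Y i) {W : T.Opens} (hV : W ≤ V a.1)
    (h : W ≤ e ⁻¹ᵁ glueOpen j L a) : IsUnit (rig j hei L r a hV h) :=
  ((hr a.1).isUnit_atComap _ _ _).map _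

lemma rig_change (i : ι) (y y' : Y i) {A : Z.Opens} (hy : A ≤ glueOpen j L ⟨i, y⟩)
    (hy' : A ≤ glueOpen j L ⟨i, y'⟩) {W : T.Opens} (hV : W ≤ V i) (hA : W ≤ e ⁻¹ᵁ A) :
    rig j hei L r ⟨i, y⟩ hV (hA.trans (e.preimage_mono hy)) =
      pb e hA (trans₁ j L i y y' hy hy') *
        rig j hei L r ⟨i, y'⟩ hV (hA.trans (e.preimage_mono hy')) := by
  refine eq_of_pb_eq (V i).ι (show W ≤ _ by rwa [Scheme.Opens.opensRange_ι]) ?_
  rw [map_mul, rig, rig, pb_pbInv, pb_pbInv, res_refl, res_refl, pb_pb,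
    pb_trans₁ j L i y y' hy hy' (hei i)]
  exact Sect.atComap_change (r i) y y' _ _ _

include he hj hei hr in
/-- Comparison functions on an overlap, normalised along the section. -/
theorem exists_comparison (hf : UnitsDescend f)
    (hagree : ∀ (i i' : ι) (X : Scheme.{u}) (k : X ⟶ Y i) (k' : X ⟶ Y i'),
      k ≫ j i = k' ≫ j i' → Pic.comap k (Pic.mk (L i)) = Pic.comap k' (Pic.mk (L i')))
    (i i' : ι) :
    ∃ φ : ∀ (y : Y i) (y' : Y i') {W : Z.Opens},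
        W ≤ glueOpen j L ⟨i, y⟩ → W ≤ glueOpen j L ⟨i', y'⟩ → Γ(Z, W),
      (∀ y y' (W W' : Z.Opens) h h' (hW : W' ≤ W),
        res hW (φ y y' (W := W) h h') = φ y y' (hW.trans h) (hW.trans h')) ∧
      (∀ y y' (W : Z.Opens) h h', IsUnit (φ y y' (W := W) h h')) ∧
      (∀ y₀ y y' y₁ (W : Z.Opens) h₀ h h' h₁, φ y₀ y₁ (W := W) h₀ h₁ =
        trans₁ j L i y₀ y h₀ h * φ y y' h h' * trans₁ j L i' y' y₁ h' h₁) ∧
      (∀ y y' (A : Z.Opens) (h : A ≤ glueOpen j L ⟨i, y⟩) (h' : A ≤ glueOpen j L ⟨i', y'⟩)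
        (W : T.Opens) (hV : W ≤ V i) (hV' : W ≤ V i') (hA : W ≤ e ⁻¹ᵁ A),
        pb e hA (φ y y' h h') * rig j hei L r ⟨i', y'⟩ hV' (hA.trans (e.preimage_mono h')) =
          rig j hei L r ⟨i, y⟩ hV (hA.trans (e.preimage_mono h))) := by
  let O' : (Y i).Opens := j i ⁻¹ᵁ (f ⁻¹ᵁ V i')
  let q : O'.toScheme ⟶ Z := O'.ι ≫ j i
  have hqr : Set.range q ⊆ Set.range (j i') := by
    rintro _ ⟨x, rfl⟩
    have hx : j i (O'.ι x) ∈ f ⁻¹ᵁ V i' := by
      have : O'.ι x ∈ O' := by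
        have h0 : O'.ι x ∈ O'.ι.opensRange := ⟨x, rfl⟩
        rwa [Scheme.Opens.opensRange_ι] at h0
      exact this
    rw [← hj] at hx
    exact hx
  let k' : O'.toScheme ⟶ Y i' := IsOpenImmersion.lift (j i') q hqr
  have hk' : k' ≫ j i' = q := IsOpenImmersion.lift_fac _ _ _
  have hrange : ∀ {W : Z.Opens}, W ≤ f ⁻¹ᵁ V i → W ≤ f ⁻¹ᵁ V i' → W ≤ q.opensRange := by
    intro W h h' z hz
    obtain ⟨y, hy⟩ : z ∈ (j i).opensRange := by rw [hj]; exact h hz
    have hyO : y ∈ O' := by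
      change j i y ∈ f ⁻¹ᵁ V i'
      rw [hy]; exact h' hz
    exact ⟨⟨y, hyO⟩, by simpa [q] using hy⟩
  obtain ⟨σ, hσ⟩ := Pic.mk_eq_mk_iff_frame.mp
    (hagree i i' _ O'.ι k' hk'.symm).symm
  have hq₁ : O'.ι ≫ j i = q := rfl
  let φ₀ : ∀ (y : Y i) (y' : Y i') {W : Z.Opens},
      W ≤ glueOpen j L ⟨i, y⟩ → W ≤ glueOpen j L ⟨i', y'⟩ → Γ(Z, W) := fun y y' W h h' =>
    pbInv q (hrange (h.trans (glueOpen_le j hj L ⟨i, y⟩)) (h'.trans (glueOpen_le j hj L ⟨i', y'⟩)))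
      (σ.atPair y y' (comp_preimage_le j L ⟨i, y⟩ hq₁ h) (comp_preimage_le j L ⟨i', y'⟩ hk' h'))
  have hres₀ : ∀ y y' (W W' : Z.Opens) h h' (hW : W' ≤ W),
      res hW (φ₀ y y' (W := W) h h') = φ₀ y y' (hW.trans h) (hW.trans h') := by
    intro y y' W W' h h' hW
    refine eq_of_pb_eq q (hrange ((hW.trans h).trans (glueOpen_le j hj L ⟨i, y⟩))
      ((hW.trans h').trans (glueOpen_le j hj L ⟨i', y'⟩))) ?_
    simp only [φ₀]
    rw [pb_res, pb_pbInv, pb_pbInv, res_refl, Sect.res_atPair]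
  have hunit₀ : ∀ y y' (W : Z.Opens) h h', IsUnit (φ₀ y y' (W := W) h h') := fun y y' W h h' =>
    (hσ.isUnit_atPair y y' _ _).map _
  have hchange₀ : ∀ y₀ y y' y₁ (W : Z.Opens) h₀ h h' h₁, φ₀ y₀ y₁ (W := W) h₀ h₁ =
      trans₁ j L i y₀ y h₀ h * φ₀ y y' h h' * trans₁ j L i' y' y₁ h' h₁ := by
    intro y₀ y y' y₁ W h₀ h h' h₁
    refine eq_of_pb_eq q (hrange (h.trans (glueOpen_le j hj L ⟨i, y⟩))
      (h'.trans (glueOpen_le j hj L ⟨i', y'⟩))) ?_
    simp only [φ₀]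
    rw [map_mul, map_mul, pb_pbInv, pb_pbInv, res_refl, res_refl,
      pb_trans₁ j L i y₀ y h₀ h hq₁, pb_trans₁ j L i' y' y₁ h' h₁ hk']
    exact Sect.atPair_change σ y₀ y y' y₁ _ _ _ _
  -- normalisation along the section
  set A : T.Opens := V i ⊓ V i'
  let B : (Y i × Y i') → T.Opens := fun p =>
    A ⊓ e ⁻¹ᵁ (glueOpen j L ⟨i, p.1⟩ ⊓ glueOpen j L ⟨i', p.2⟩)
  let den : ∀ p, Γ(T, B p) := fun p =>
    pb e (inf_le_right : B p ≤ _) (φ₀ p.1 p.2 inf_le_left inf_le_right) *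
      rig j hei L r ⟨i', p.2⟩ (inf_le_left.trans inf_le_right)
        (inf_le_right.trans (e.preimage_mono inf_le_right))
  let num : ∀ p, Γ(T, B p) := fun p =>
    rig j hei L r ⟨i, p.1⟩ (inf_le_left.trans inf_le_left)
      (inf_le_right.trans (e.preimage_mono inf_le_left))
  have hden : ∀ p, IsUnit (den p) := fun p =>
    ((hunit₀ p.1 p.2 _ inf_le_left inf_le_right).map _).mul (isUnit_rig j hei L r hr _ _ _)
  let w : ∀ p, Γ(T, B p) := fun p => num p * ↑(hden p).unit⁻¹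
  have hw : ∀ p, w p * den p = num p := fun p => by
    simp only [w]
    rw [mul_assoc, IsUnit.val_inv_mul, mul_one]
  have hcompat : ∀ p p' (W : T.Opens) (hp : W ≤ B p) (hp' : W ≤ B p'),
      res hp (w p) = res hp' (w p') := by
    intro p p' W hp hp'
    refine ((hden p).map (res hp)).mul_right_cancel ?_
    rw [← map_mul, hw]
    refine ((hden p').map (res hp')).mul_right_cancel ?_
    rw [mul_right_comm, ← map_mul, hw]
    simp only [den, num, map_mul, res_pb, res_rig]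
    set O : Z.Opens := glueOpen j L ⟨i, p.1⟩ ⊓ glueOpen j L ⟨i', p.2⟩ ⊓
      (glueOpen j L ⟨i, p'.1⟩ ⊓ glueOpen j L ⟨i', p'.2⟩)
    have hWO : W ≤ e ⁻¹ᵁ O := le_inf (hp.trans inf_le_right) (hp'.trans inf_le_right)
    have hWV : W ≤ V i := (hp.trans inf_le_left).trans inf_le_left
    have hWV' : W ≤ V i' := (hp.trans inf_le_left).trans inf_le_right
    have h1 := rig_change j hei L r i p'.1 p.1 (A := O) (inf_le_right.trans inf_le_left)
      (inf_le_left.trans inf_le_left) hWV hWO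
    have h2 := rig_change j hei L r i' p.2 p'.2 (A := O) (inf_le_left.trans inf_le_right)
      (inf_le_right.trans inf_le_right) hWV' hWO
    have h3 := congrArg (pb e hWO) (hchange₀ p'.1 p.1 p.2 p'.2 O
      (inf_le_right.trans inf_le_left) (inf_le_left.trans inf_le_left)
      (inf_le_left.trans inf_le_right) (inf_le_right.trans inf_le_right))
    rw [map_mul, map_mul] at h3
    have e1 : ∀ (y : Y i) (y' : Y i') (Q : Z.Opens) (hQ : W ≤ e ⁻¹ᵁ Q) (hOQ : O ≤ Q)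
        (h : Q ≤ glueOpen j L ⟨i, y⟩) (h' : Q ≤ glueOpen j L ⟨i', y'⟩),
        pb e hQ (φ₀ y y' h h') = pb e hWO (φ₀ y y' (hOQ.trans h) (hOQ.trans h')) := by
      intro y y' Q hQ hOQ h h'
      rw [← hres₀ y y' Q O h h' hOQ, pb_res]
    rw [e1 p.1 p.2 _ _ inf_le_left inf_le_left inf_le_right,
      e1 p'.1 p'.2 _ _ inf_le_right inf_le_left inf_le_right, h3, h1, h2]
    ring
  have hcov : ∀ x ∈ A, ∃ p, x ∈ B p := by
    intro x hx
    have hx' := le_preimage_section f he A hx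
    obtain ⟨y, hy⟩ := exists_mem_glueOpen j hj L i (z := e x) hx'.1
    obtain ⟨y', hy'⟩ := exists_mem_glueOpen j hj L i' (z := e x) hx'.2
    exact ⟨(y, y'), hx, hy, hy'⟩
  set v := glue B (fun _ => inf_le_left) hcov w hcompat
  have hv : ∀ p, res (inf_le_left : B p ≤ A) v = w p := fun p =>
    res_glue B (fun _ => inf_le_left) hcov w hcompat p
  have hvu : IsUnit v := isUnit_of_cover B (fun _ => inf_le_left) hcov fun p => by
    rw [hv]
    exact ((isUnit_rig j hei L r hr _ _ _)).mul (Units.isUnit _)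
  have hWA : ∀ (y : Y i) (y' : Y i') {W : Z.Opens}, W ≤ glueOpen j L ⟨i, y⟩ →
      W ≤ glueOpen j L ⟨i', y'⟩ → W ≤ f ⁻¹ᵁ A := fun y y' W h h' =>
    le_inf (h.trans (glueOpen_le j hj L ⟨i, y⟩)) (h'.trans (glueOpen_le j hj L ⟨i', y'⟩))
  refine ⟨fun y y' W h h' => pb f (hWA y y' h h') v * φ₀ y y' h h', ?_, ?_, ?_, ?_⟩
  · intro y y' W W' h h' hW
    rw [map_mul, res_pb, hres₀ y y' W W' h h' hW]
  · intro y y' W h h'
    exact (hvu.map _).mul (hunit₀ y y' W h h')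
  · intro y₀ y y' y₁ W h₀ h h' h₁
    simp only []
    rw [hchange₀ y₀ y y' y₁ W h₀ h h' h₁]
    ring
  · intro y y' Q h h' W hV hV' hQ
    simp only []
    rw [map_mul, pb_pb, pb_congr he, pb_id]
    set p : Y i × Y i' := (y, y')
    have hWB : W ≤ B p := le_inf (le_inf hV hV') (hQ.trans (e.preimage_mono (le_inf h h')))
    have h1 := congrArg (res hWB) (hw p)
    rw [map_mul, ← hv p, res_res] at h1
    simp only [den, num, map_mul, res_pb, res_rig] at h1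
    have e1 : pb e hQ (φ₀ y y' h h') =
        pb e (hWB.trans inf_le_right) (φ₀ y y' inf_le_left inf_le_right) := by
      rw [← hres₀ y y' (glueOpen j L ⟨i, y⟩ ⊓ glueOpen j L ⟨i', y'⟩) Q inf_le_left inf_le_right
        (le_inf h h'), pb_res]
    rw [e1, mul_assoc]
    exact h1

include he hj hei hr in
/-- The glued cocycle. -/
theorem exists_indexedCocycle (hf : UnitsDescend f) (hV : ∀ p : T, ∃ i, p ∈ V i)
    (hagree : ∀ (i i' : ι) (X : Scheme.{u}) (k : X ⟶ Y i) (k' : X ⟶ Y i'),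
      k ≫ j i = k' ≫ j i' → Pic.comap k (Pic.mk (L i)) = Pic.comap k' (Pic.mk (L i'))) :
    ∃ ξ : Pic Z, Pic.comap e ξ = 1 ∧ ∀ i, Pic.comap (j i) ξ = Pic.mk (L i) := by
  choose φ hres hunit hchange hnorm using exists_comparison he j hj hei L r hr hf hagree
  -- the cocycle condition, by rigidity
  have hmul : ∀ (a b c : Σ i, Y i) (W : Z.Opens) (ha : W ≤ glueOpen j L a)
      (hb : W ≤ glueOpen j L b) (hc : W ≤ glueOpen j L c),
      φ a.1 b.1 a.2 b.2 ha hb * φ b.1 c.1 b.2 c.2 hb hc = φ a.1 c.1 a.2 c.2 ha hc := by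
    rintro ⟨i₁, y₁⟩ ⟨i₂, y₂⟩ ⟨i₃, y₃⟩ W ha hb hc
    let O : (Y i₁ × Y i₂ × Y i₃) → Z.Opens := fun p =>
      glueOpen j L ⟨i₁, p.1⟩ ⊓ glueOpen j L ⟨i₂, p.2.1⟩ ⊓ glueOpen j L ⟨i₃, p.2.2⟩
    let den : ∀ p, Γ(Z, O p) := fun p =>
      φ i₁ i₃ p.1 p.2.2 (inf_le_left.trans inf_le_left) inf_le_right
    let num : ∀ p, Γ(Z, O p) := fun p =>
      φ i₁ i₂ p.1 p.2.1 (inf_le_left.trans inf_le_left) (inf_le_left.trans inf_le_right) *
        φ i₂ i₃ p.2.1 p.2.2 (inf_le_left.trans inf_le_right) inf_le_right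
    have hden : ∀ p, IsUnit (den p) := fun p => hunit _ _ _ _ _ _ _
    let c : ∀ p, Γ(Z, O p) := fun p => num p * ↑(hden p).unit⁻¹
    have hcd : ∀ p, c p * den p = num p := fun p => by
      simp only [c]
      rw [mul_assoc, IsUnit.val_inv_mul, mul_one]
    have hone : ∀ p, c p = 1 := by
      refine family_eq_one he hf (A := V i₁ ⊓ V i₂ ⊓ V i₃) O ?_ ?_ c ?_ ?_ ?_
      · intro p
        exact le_inf (le_inf
          ((inf_le_left.trans inf_le_left).trans (glueOpen_le j hj L ⟨i₁, p.1⟩))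
          ((inf_le_left.trans inf_le_right).trans (glueOpen_le j hj L ⟨i₂, p.2.1⟩)))
          (inf_le_right.trans (glueOpen_le j hj L ⟨i₃, p.2.2⟩))
      · intro z hz
        obtain ⟨w₁, h₁⟩ := exists_mem_glueOpen j hj L i₁ (z := z) hz.1.1
        obtain ⟨w₂, h₂⟩ := exists_mem_glueOpen j hj L i₂ (z := z) hz.1.2
        obtain ⟨w₃, h₃⟩ := exists_mem_glueOpen j hj L i₃ (z := z) hz.2
        exact ⟨(w₁, w₂, w₃), ⟨h₁, h₂⟩, h₃⟩
      · intro p
        exact ((hunit _ _ _ _ _ _ _).mul (hunit _ _ _ _ _ _ _)).mul (Units.isUnit _)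
      · intro p q U hp hq
        refine ((hden p).map (res hp)).mul_right_cancel ?_
        rw [← map_mul, hcd]
        refine ((hden q).map (res hq)).mul_right_cancel ?_
        rw [mul_right_comm, ← map_mul, hcd]
        simp only [num, den, map_mul, hres]
        have a1 : U ≤ glueOpen j L ⟨i₁, p.1⟩ := hp.trans (inf_le_left.trans inf_le_left)
        have a2 : U ≤ glueOpen j L ⟨i₂, p.2.1⟩ := hp.trans (inf_le_left.trans inf_le_right)
        have a3 : U ≤ glueOpen j L ⟨i₃, p.2.2⟩ := hp.trans inf_le_right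
        have b1 : U ≤ glueOpen j L ⟨i₁, q.1⟩ := hq.trans (inf_le_left.trans inf_le_left)
        have b2 : U ≤ glueOpen j L ⟨i₂, q.2.1⟩ := hq.trans (inf_le_left.trans inf_le_right)
        have b3 : U ≤ glueOpen j L ⟨i₃, q.2.2⟩ := hq.trans inf_le_right
        rw [hchange i₁ i₃ q.1 p.1 p.2.2 q.2.2 U b1 a1 a3 b3,
          hchange i₁ i₂ q.1 p.1 p.2.1 q.2.1 U b1 a1 a2 b2,
          hchange i₂ i₃ q.2.1 p.2.1 p.2.2 q.2.2 U b2 a2 a3 b3]
        have hcancel : trans₁ j L i₂ p.2.1 q.2.1 a2 b2 * trans₁ j L i₂ q.2.1 p.2.1 b2 a2 = 1 := by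
          refine eq_of_pb_eq (j i₂) (a2.trans (glueOpen_le_range j L ⟨i₂, p.2.1⟩)) ?_
          rw [map_mul, pb_trans₁ j L i₂ _ _ _ _ (Category.id_comp _),
            pb_trans₁ j L i₂ _ _ _ _ (Category.id_comp _), ptr_mul_ptr, ptr_self, map_one]
        linear_combination (φ i₁ i₃ p.1 p.2.2 a1 a3 * trans₁ j L i₁ q.1 p.1 b1 a1 *
          φ i₁ i₂ p.1 p.2.1 a1 a2 * φ i₂ i₃ p.2.1 p.2.2 a2 a3 *
          trans₁ j L i₃ p.2.2 q.2.2 a3 b3) * (-hcancel)
      · intro p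
        set U : T.Opens := e ⁻¹ᵁ O p
        have hU : ∀ {i : ι} {y : Y i}, O p ≤ glueOpen j L ⟨i, y⟩ → U ≤ V i := by
          intro i y h
          refine (e.preimage_mono (h.trans (glueOpen_le j hj L ⟨i, y⟩))).trans ?_
          rw [← Scheme.Hom.comp_preimage, he]
          exact le_rfl
        have a1 : O p ≤ glueOpen j L ⟨i₁, p.1⟩ := inf_le_left.trans inf_le_left
        have a2 : O p ≤ glueOpen j L ⟨i₂, p.2.1⟩ := inf_le_left.trans inf_le_right
        have a3 : O p ≤ glueOpen j L ⟨i₃, p.2.2⟩ := inf_le_right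
        have n12 := hnorm i₁ i₂ p.1 p.2.1 (O p) a1 a2 U (hU a1) (hU a2) le_rfl
        have n23 := hnorm i₂ i₃ p.2.1 p.2.2 (O p) a2 a3 U (hU a2) (hU a3) le_rfl
        have n13 := hnorm i₁ i₃ p.1 p.2.2 (O p) a1 a3 U (hU a1) (hU a3) le_rfl
        have hd : IsUnit (pb e (V := U) le_rfl (den p)) := (hden p).map _
        refine hd.mul_right_cancel ?_
        rw [← map_mul, hcd, one_mul]
        refine (isUnit_rig j hei L r hr ⟨i₃, p.2.2⟩ (hU a3) (e.preimage_mono a3)).mul_right_cancel ?_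
        simp only [num, den, map_mul]
        rw [mul_assoc, n23, n12, n13]
    set p : Y i₁ × Y i₂ × Y i₃ := (y₁, y₂, y₃)
    have h := hcd p
    rw [hone p, one_mul] at h
    have h' := congrArg (res (le_inf (le_inf ha hb) hc : W ≤ O p)) h.symm
    simp only [num, den, map_mul, hres] at h'
    exact h'
  have hself : ∀ (a : Σ i, Y i) (W : Z.Opens) (ha : W ≤ glueOpen j L a),
      φ a.1 a.1 a.2 a.2 ha ha = 1 := fun a W ha =>
    (hunit _ _ _ _ _ ha ha).mul_left_cancel ((hmul a a a W ha ha ha).trans (mul_one _).symm)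
  let G : IndexedCocycle Z (Σ i, Y i) :=
    { O := glueOpen j L
      cover := fun z => by
        obtain ⟨i, hi⟩ := hV (f z)
        obtain ⟨y, hy⟩ := exists_mem_glueOpen j hj L i hi
        exact ⟨⟨i, y⟩, hy⟩
      g := fun a b W ha hb => φ a.1 b.1 a.2 b.2 ha hb
      res_g := fun a b W W' ha hb h => hres _ _ _ _ _ _ ha hb h
      g_self := fun a W ha _ => hself a W ha
      g_mul := fun a b c W ha hb hc => hmul a b c W ha hb hc }
  have hsame : ∀ i (y y' : Y i) (W : Z.Opens) (h : W ≤ glueOpen j L ⟨i, y⟩)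
      (h' : W ≤ glueOpen j L ⟨i, y'⟩), φ i i y y' h h' = trans₁ j L i y y' h h' := by
    intro i y y' W h h'
    rw [hchange i i y y y y' W h h h h', hself ⟨i, y⟩ W h]
    have h1 : trans₁ j L i y y h h = 1 := by
      refine eq_of_pb_eq (j i) (h.trans (glueOpen_le_range j L ⟨i, y⟩)) ?_
      rw [pb_trans₁ j L i _ _ _ _ (Category.id_comp _), ptr_self, map_one]
    rw [h1, one_mul, one_mul]
  refine ⟨Pic.mk G.toLineCocycle, ?_, fun i => ?_⟩
  · -- the rigidifications form a frame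
    rw [Pic.comap_mk, Pic.mk_eq_one_iff]
    have hle : ∀ p : T, (G.toLineCocycle.comap e).U p ≤ V (G.idx (e p)).1 := by
      intro p
      refine (e.preimage_mono (glueOpen_le j hj L (G.idx (e p)))).trans ?_
      rw [← Scheme.Hom.comp_preimage, he]
      exact le_rfl
    refine ⟨Sect.mk (fun p => rig j hei L r (G.idx (e p)) (inf_le_right.trans (hle p))
      inf_le_right) fun p q W hW hp hq => ?_, fun p => ?_⟩
    · rw [res_rig, res_rig, LineCocycle.tr_comap]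
      have hp' : W ≤ e ⁻¹ᵁ (G.O (G.idx (e p)) ⊓ G.O (G.idx (e q))) := le_inf hp hq
      exact (hnorm _ _ (G.idx (e p)).2 (G.idx (e q)).2 _ inf_le_left inf_le_right W
        (hp.trans (hle p)) (hq.trans (hle q)) hp').symm
    · rw [Sect.at_mk, res_rig]
      exact isUnit_rig j hei L r hr _ _ _
  · -- the comparison with `L i`
    rw [Pic.comap_mk, Pic.mk_eq_mk]
    let Vy : Y i → (Y i).Opens := fun y => j i ⁻¹ᵁ G.O (G.idx (j i y)) ⊓ (L i).U y
    have hVy : ∀ y, Vy y ≤ j i ⁻¹ᵁ (glueOpen j L ⟨i, y⟩ ⊓ G.O (G.idx (j i y))) := fun y =>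
      le_inf (inf_le_right.trans (Scheme.Hom.preimage_image_eq _ _).ge) inf_le_left
    refine ⟨⟨Vy, fun y => ⟨G.mem_idx (j i y), (L i).mem y⟩, fun y => inf_le_left,
      fun y => inf_le_right,
      fun y => ((hunit _ _ y (G.idx (j i y)).2 _ inf_le_left inf_le_right).map (pb (j i) (hVy y))).unit,
      fun y y' W hy hy' => ?_⟩⟩
    simp only [IsUnit.unit_spec, res_pb]
    rw [LineCocycle.tr_comap]
    set O : Z.Opens := glueOpen j L ⟨i, y⟩ ⊓ G.O (G.idx (j i y)) ⊓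
      (glueOpen j L ⟨i, y'⟩ ⊓ G.O (G.idx (j i y')))
    have hWO : W ≤ j i ⁻¹ᵁ O := le_inf (hy.trans (hVy y)) (hy'.trans (hVy y'))
    have a0 : O ≤ glueOpen j L ⟨i, y⟩ := inf_le_left.trans inf_le_left
    have a1 : O ≤ G.O (G.idx (j i y)) := inf_le_left.trans inf_le_right
    have b0 : O ≤ glueOpen j L ⟨i, y'⟩ := inf_le_right.trans inf_le_left
    have b1 : O ≤ G.O (G.idx (j i y')) := inf_le_right.trans inf_le_right
    have key : trans₁ j L i y y' a0 b0 * φ i _ y' (G.idx (j i y')).2 b0 b1 =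
        φ i _ y (G.idx (j i y)).2 a0 a1 * φ _ _ (G.idx (j i y)).2 (G.idx (j i y')).2 a1 b1 := by
      rw [← hsame i y y' O a0 b0, hmul ⟨i, y⟩ ⟨i, y'⟩ (G.idx (j i y')) O a0 b0 b1,
        hmul ⟨i, y⟩ (G.idx (j i y)) (G.idx (j i y')) O a0 a1 b1]
    have key' := congrArg (pb (j i) hWO) key
    rw [map_mul, map_mul, pb_trans₁ j L i y y' a0 b0 (Category.id_comp _)] at key'
    refine Eq.trans ?_ (key'.trans ?_)
    · congr 1
      · rw [← hres i (G.idx (j i y')).1 y' (G.idx (j i y')).2 _ O inf_le_left inf_le_right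
          (inf_le_right : O ≤ _), pb_res]
    · congr 1
      · rw [← hres i (G.idx (j i y)).1 y (G.idx (j i y)).2 _ O inf_le_left inf_le_right
          (inf_le_left : O ≤ _), pb_res]
      · rw [← hres (G.idx (j i y)).1 (G.idx (j i y')).1 (G.idx (j i y)).2 (G.idx (j i y')).2 _ O
          inf_le_left inf_le_right (le_inf a1 b1), pb_res]

end Glue

namespace Pic

include he in
/-- Zariski gluing of rigid classes. -/
theorem exists_glue (hf : UnitsDescend f) {ι : Type u} {V : ι → T.Opens}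
    (hV : ∀ p : T, ∃ i, p ∈ V i) {Y : ι → Scheme.{u}} (j : ∀ i, Y i ⟶ Z)
    [∀ i, IsOpenImmersion (j i)] (hj : ∀ i, (j i).opensRange = f ⁻¹ᵁ V i)
    (ei : ∀ i, (V i).toScheme ⟶ Y i) (hei : ∀ i, ei i ≫ j i = (V i).ι ≫ e)
    (ξ : ∀ i, Pic (Y i)) (hrig : ∀ i, comap (ei i) (ξ i) = 1)
    (hagree : ∀ (i i' : ι) (X : Scheme.{u}) (k : X ⟶ Y i) (k' : X ⟶ Y i'),
      k ≫ j i = k' ≫ j i' → comap k (ξ i) = comap k' (ξ i')) :
    ∃! η : Pic Z, comap e η = 1 ∧ ∀ i, comap (j i) η = ξ i := by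
  choose L hL using fun i => mk_surjective (ξ i)
  obtain rfl : (fun i => mk (L i)) = ξ := funext hL
  choose r hr using fun i => mk_eq_one_iff.mp (hrig i)
  obtain ⟨η, h1, h2⟩ := exists_indexedCocycle he j hj hei L r hr hf hV hagree
  exact ⟨η, ⟨h1, h2⟩, fun η' hη' => eq_of_locally he hf V hV j hj η' η hη'.1 h1
    fun i => (hη'.2 i).trans (h2 i).symm⟩

end Pic

end Fermat.Agent.Jacobian
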