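import Mathlib.RingTheory.Finiteness.Basic
import Mathlib.Algebra.Module.Equiv.Basic
import Mathlib.LinearAlgebra.Span.Basic

/-!
# Pairs of lattices: vector bundles on the projective line over a ring

A vector bundle on `ℙ¹` over `R` is described by the module `M` of sections over `x ≠ 0, ∞`, the
automorphism "multiplication by `x`" and the two submodules `P₀`, `P₁` of sections regular at `0`,
resp. at `∞`.  The twist by `m` replaces `P₁` by `x^m P₁`; the Čech complex is
`P₀ × x^m P₁ → M`.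

We prove that the cokernel is finitely generated and vanishes for large twists.
-/

set_option autoImplicit false

noncomputable section

namespace Fermat.Agent.Jacobian

variable (R : Type*) [CommRing R] (M : Type*) [AddCommGroup M] [Module R M]

/-- Two lattices in a module with an automorphism `x`. -/
structure Lattices where
  x : M ≃ₗ[R] M
  P₀ : Submodule R M
  P₁ : Submodule R M
  x_mem : ∀ p ∈ P₀, x p ∈ P₀
  x_symm_mem : ∀ p ∈ P₁, x.symm p ∈ P₁
  exhaust₀ : ∀ v : M, ∃ n : ℕ, (x ^ n) v ∈ P₀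
  exhaust₁ : ∀ v : M, ∃ n : ℕ, (x.symm ^ n) v ∈ P₁
  gen₀ : ∃ S : Finset M, ↑S ⊆ (P₀ : Set M) ∧
    P₀ = Submodule.span R {v | ∃ s ∈ S, ∃ n : ℕ, v = (x ^ n) s}
  gen₁ : ∃ S : Finset M, ↑S ⊆ (P₁ : Set M) ∧
    P₁ = Submodule.span R {v | ∃ s ∈ S, ∃ n : ℕ, v = (x.symm ^ n) s}

namespace Lattices

variable {R M} (L : Lattices R M)

lemma pow_mem₀ {p : M} (hp : p ∈ L.P₀) (n : ℕ) : (L.x ^ n) p ∈ L.P₀ := by
  induction n with
  | zero => exact hp
  | succ n ih => rw [pow_succ']; exact L.x_mem _ ih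

lemma pow_mem₁ {p : M} (hp : p ∈ L.P₁) (n : ℕ) : (L.x.symm ^ n) p ∈ L.P₁ := by
  induction n with
  | zero => exact hp
  | succ n ih => rw [pow_succ']; exact L.x_symm_mem _ ih

lemma pow_symm_pow (n : ℕ) (v : M) : (L.x ^ n) ((L.x.symm ^ n) v) = v := by
  induction n generalizing v with
  | zero => rfl
  | succ n ih =>
    rw [pow_succ, pow_succ']
    show (L.x ^ n) (L.x (L.x.symm ((L.x.symm ^ n) v))) = v
    rw [LinearEquiv.apply_symm_apply, ih]

lemma symm_pow_pow (n : ℕ) (v : M) : (L.x.symm ^ n) ((L.x ^ n) v) = v := by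
  induction n generalizing v with
  | zero => rfl
  | succ n ih =>
    rw [pow_succ, pow_succ']
    show (L.x.symm ^ n) (L.x.symm (L.x ((L.x ^ n) v))) = v
    rw [LinearEquiv.symm_apply_apply, ih]

/-- `v ∈ x^m P₁`. -/
def twist (m : ℕ) : Submodule R M :=
  L.P₁.comap ((L.x.symm ^ m : M ≃ₗ[R] M) : M →ₗ[R] M)

lemma mem_twist {m : ℕ} {v : M} : v ∈ L.twist m ↔ (L.x.symm ^ m) v ∈ L.P₁ := Iff.rfl

lemma twist_mono {m n : ℕ} (h : m ≤ n) : L.twist m ≤ L.twist n := by
  intro v hv
  obtain ⟨k, rfl⟩ := Nat.exists_eq_add_of_le h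
  rw [mem_twist, add_comm, pow_add]
  exact L.pow_mem₁ hv k

lemma pow_mem_twist {p : M} (hp : p ∈ L.P₁) (n : ℕ) : (L.x ^ n) p ∈ L.twist n := by
  rw [mem_twist, symm_pow_pow]; exact hp

/-- Large twists have no `H¹`. -/
theorem exists_sup_twist_eq_top : ∃ N : ℕ, ∀ m, N ≤ m → L.P₀ ⊔ L.twist m = ⊤ := by
  classical
  obtain ⟨S, hS, hP₀⟩ := L.gen₀
  choose e he using fun s : M => L.exhaust₁ s
  refine ⟨S.sup e, fun m hm => ?_⟩
  rw [eq_top_iff]
  intro v _
  obtain ⟨n, hn⟩ := L.exhaust₀ v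
  rw [← L.symm_pow_pow n v]
  generalize (L.x ^ n) v = w at hn ⊢
  have hw : w ∈ Submodule.span R {v | ∃ s ∈ S, ∃ n : ℕ, v = (L.x ^ n) s} := hP₀ ▸ hn
  clear hn
  induction hw using Submodule.span_induction with
  | mem w hw =>
    obtain ⟨s, hs, k, rfl⟩ := hw
    rcases le_or_gt n k with h | h
    · refine Submodule.mem_sup_left ?_
      obtain ⟨j, rfl⟩ := Nat.exists_eq_add_of_le h
      rw [pow_add]
      show (L.x.symm ^ n) ((L.x ^ n) ((L.x ^ j) s)) ∈ L.P₀
      rw [symm_pow_pow]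
      exact L.pow_mem₀ (hS hs) j
    · refine Submodule.mem_sup_right ?_
      obtain ⟨j, rfl⟩ := Nat.exists_eq_add_of_le h.le
      rw [add_comm, pow_add]
      show (L.x.symm ^ j) ((L.x.symm ^ k) ((L.x ^ k) s)) ∈ L.twist m
      rw [symm_pow_pow, mem_twist]
      have : (L.x.symm ^ e s) s ∈ L.P₁ := he s
      obtain ⟨i, rfl⟩ := Nat.exists_eq_add_of_le ((Finset.le_sup (f := e) hs).trans hm)
      show (L.x.symm ^ (e s + i)) ((L.x.symm ^ j) s) ∈ L.P₁
      rw [show (L.x.symm ^ (e s + i)) ((L.x.symm ^ j) s) =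
        (L.x.symm ^ (i + j)) ((L.x.symm ^ e s) s) by
          rw [← LinearEquiv.mul_apply, ← LinearEquiv.mul_apply, ← pow_add, ← pow_add,
            show e s + i + j = i + j + e s by omega]]
      exact L.pow_mem₁ this _
  | zero => simp
  | add a b _ _ iha ihb =>
    rw [map_add]
    exact Submodule.add_mem _ iha ihb
  | smul r a _ iha =>
    rw [map_smul]
    exact Submodule.smul_mem _ r iha

/-- `H¹` is finitely generated. -/
theorem exists_fg_complement :
    ∃ G : Submodule R M, G.FG ∧ L.P₀ ⊔ L.P₁ ⊔ G = ⊤ := by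
  classical
  obtain ⟨N, hN⟩ := L.exists_sup_twist_eq_top
  obtain ⟨S, hS, hP₁⟩ := L.gen₁
  refine ⟨Submodule.span R ↑((S ×ˢ Finset.range (N + 1)).image
    fun p => (L.x ^ p.2) p.1), Submodule.fg_span (Finset.finite_toSet _), ?_⟩
  rw [eq_top_iff, ← hN N le_rfl]
  refine sup_le (le_sup_left.trans le_sup_left) ?_
  intro v hv
  rw [← L.pow_symm_pow N v]
  rw [mem_twist] at hv
  generalize (L.x.symm ^ N) v = w at hv ⊢
  rw [hP₁] at hv
  induction hv using Submodule.span_induction with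
  | mem w hw =>
    obtain ⟨s, hs, k, rfl⟩ := hw
    rcases le_or_gt N k with h | h
    · refine Submodule.mem_sup_left (Submodule.mem_sup_right ?_)
      obtain ⟨j, rfl⟩ := Nat.exists_eq_add_of_le h
      rw [pow_add]
      show (L.x ^ N) ((L.x.symm ^ N) ((L.x.symm ^ j) s)) ∈ L.P₁
      rw [pow_symm_pow]
      exact L.pow_mem₁ (hS hs) j
    · refine Submodule.mem_sup_right (Submodule.subset_span ?_)
      obtain ⟨j, hj⟩ := Nat.exists_eq_add_of_le h.le
      simp only [Finset.coe_image, Set.mem_image, Finset.mem_coe]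
      refine ⟨(s, j), Finset.mem_product.mpr ⟨hs, Finset.mem_range.mpr (by omega)⟩, ?_⟩
      rw [hj, add_comm, pow_add]
      show _ = (L.x ^ j) ((L.x ^ k) ((L.x.symm ^ k) s))
      rw [pow_symm_pow]
  | zero => simp
  | add a b _ _ iha ihb => rw [map_add]; exact Submodule.add_mem _ iha ihb
  | smul r a _ iha => rw [map_smul]; exact Submodule.smul_mem _ r iha

end Lattices

end Fermat.Agent.Jacobian
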