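import Fermat.Agent.Jacobian.Affine
import Fermat.Agent.Jacobian.Transfer
import Mathlib.Algebra.GroupWithZero.NonZeroDivisors

/-!
# Multiplication and pullback of sections: auxiliary facts

Division by a section with regular components, vanishing of pullbacks, the locus where a section
is a frame, lifting of sections along a surjection of functions.
-/

set_option autoImplicit false

noncomputable section

universe u

open CategoryTheory TopologicalSpace AlgebraicGeometry nonZeroDivisors

namespace Fermat.Agent.Jacobian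

variable {X Y : Scheme.{u}}

namespace LineCocycle.Sect

variable {L M : LineCocycle X} {W : X.Opens}

lemma restrict_mul {W' : X.Opens} (h : W' ≤ W) (s : L.Sect W) (t : M.Sect W) :
    (s.mul t).restrict h = (s.restrict h).mul (t.restrict h) :=
  ext' fun x => by simp

/-- Multiplication by a fixed section. -/
def mulRight (t : M.Sect W) : L.Sect W →ₗ[Γ(X, W)] (L.mul M).Sect W where
  toFun s := s.mul t
  map_add' s s' := ext' fun x => by simp [add_mul]
  map_smul' r s := ext' fun x => by simp [mul_assoc]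

@[simp] lemma mulRight_apply (t : M.Sect W) (s : L.Sect W) : mulRight t s = s.mul t := rfl

/-- If a pullback vanishes then so does the pullback of every component. -/
lemma pb_at_eq_zero (f : Y ⟶ X) {W' : Y.Opens} {hW' : W' ≤ f ⁻¹ᵁ W} {s : L.Sect W}
    (h : s.comap f hW' = 0) (x : X) {O : X.Opens} (hO : O ≤ W) (hx : O ≤ L.U x)
    {O' : Y.Opens} (hO' : O' ≤ W') (e : O' ≤ f ⁻¹ᵁ O) : pb f e (s.at x hO hx) = 0 := by
  refine eq_of_cover (fun y => O' ⊓ f ⁻¹ᵁ L.U (f y)) (fun _ => inf_le_left)
    (fun z hz => ⟨z, hz, L.mem _⟩) fun y => ?_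
  have hP : O' ⊓ f ⁻¹ᵁ L.U (f y) ≤ f ⁻¹ᵁ (O ⊓ L.U (f y)) := inf_le_inf_right _ e
  have h1 := congrArg (pb f hP) (at_eq s x (f y) (V := O ⊓ L.U (f y)) (inf_le_left.trans hO)
    (inf_le_left.trans hx) inf_le_right)
  have h2 := at_comap f hW' s y (inf_le_left.trans hO' : O' ⊓ f ⁻¹ᵁ L.U (f y) ≤ W') inf_le_right
  rw [h, at_zero] at h2
  rw [map_mul, Sect.at, pb_res, Sect.at, pb_res, ← h2, mul_zero] at h1
  rw [res_pb, map_zero, Sect.at, pb_res]
  exact h1

/-- A pullback vanishes as soon as it does so componentwise. -/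
lemma comap_eq_zero_of_forall (f : Y ⟶ X) {W' : Y.Opens} {hW' : W' ≤ f ⁻¹ᵁ W} {s : L.Sect W}
    (h : ∀ (x : X) (O : X.Opens) (hO : O ≤ W) (hx : O ≤ L.U x) (O' : Y.Opens)
      (e : O' ≤ f ⁻¹ᵁ O), pb f e (s.at x hO hx) = 0) :
    s.comap f hW' = 0 :=
  ext' fun y => by
    rw [at_comap, at_zero]
    have := h (f y) (W ⊓ L.U (f y)) inf_le_left inf_le_right (W' ⊓ f ⁻¹ᵁ L.U (f y))
      (inf_le_inf_right _ hW')
    rwa [Sect.at, res_refl] at this

/-- Existence and uniqueness of the quotient by a section with regular components. -/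
theorem existsUnique_mul_eq (c : M.Sect W)
    (hreg : ∀ (x : X) (O : X.Opens) (hW : O ≤ W) (hx : O ≤ M.U x), c.at x hW hx ∈ Γ(X, O)⁰)
    (n : (L.mul M).Sect W)
    (hd : ∀ x, c.at x (V := W ⊓ (L.mul M).U x) inf_le_left (inf_le_right.trans inf_le_right) ∣
      n.at x inf_le_left inf_le_right) :
    ∃! τ : L.Sect W, τ.mul c = n := by
  choose a ha using hd
  have ha' : ∀ x (O : X.Opens) (hW : O ≤ W) (hx : O ≤ (L.mul M).U x),
      c.at x hW (hx.trans inf_le_right) * res (le_inf hW hx) (a x) = n.at x hW hx := by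
    intro x O hW hx
    have := congrArg (res (le_inf hW hx)) (ha x)
    rw [map_mul, res_at, res_at] at this
    exact this.symm
  have hinj : ∀ τ τ' : L.Sect W, τ.mul c = τ'.mul c → τ = τ' := by
    intro τ τ' h
    refine ext_of_cover (fun x => W ⊓ (L.mul M).U x) (fun _ => inf_le_left)
      (fun z hz => ⟨z, hz, (L.mul M).mem z⟩) (fun x => x)
      (fun x => inf_le_right.trans inf_le_left) fun x => ?_
    have := congrArg (fun σ : (L.mul M).Sect W =>
      σ.at x (V := W ⊓ (L.mul M).U x) inf_le_left inf_le_right) h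
    simp only [at_mul'] at this
    exact (mul_cancel_right_mem_nonZeroDivisors (hreg x _ _ _)).1 this
  obtain ⟨τ, hτ⟩ := exists_glue (L := L) (fun x => W ⊓ (L.mul M).U x) (fun _ => inf_le_left)
    (fun z hz => ⟨z, hz, (L.mul M).mem z⟩)
    (fun x => single (z := x) (inf_le_right.trans inf_le_left) (a x)) fun x y w V hx hy hw => by
      rw [at_single, at_single]
      have hxN : V ≤ (L.mul M).U x := hx.trans inf_le_right
      have hyN : V ≤ (L.mul M).U y := hy.trans inf_le_right
      have hxL : V ≤ L.U x := hxN.trans inf_le_left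
      have hyL : V ≤ L.U y := hyN.trans inf_le_left
      suffices key : res hx (a x) = L.tr x y hxL hyL * res hy (a y) by
        rw [key, ← mul_assoc, L.tr_mul_tr]
      have hW : V ≤ W := hx.trans inf_le_left
      refine (mul_cancel_left_mem_nonZeroDivisors (hreg x V hW (hxN.trans inf_le_right))).1 ?_
      rw [ha' x V hW hxN, at_eq n x y hW hxN hyN, LineCocycle.tr_mul, ← ha' y V hW hyN,
        at_eq c x y hW (hxN.trans inf_le_right) (hyN.trans inf_le_right)]
      ring
  have key : τ.mul c = n := ext' fun x => by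
    have h1 := congrArg (fun σ : L.Sect (W ⊓ (L.mul M).U x) =>
      σ.at x (V := W ⊓ (L.mul M).U x) le_rfl (inf_le_right.trans inf_le_left)) (hτ x)
    simp only [at_restrict, at_single, tr_self, one_mul] at h1
    rw [at_mul', h1, ← ha' x _ inf_le_left inf_le_right, mul_comm]
  exact ⟨τ, key, fun τ' hτ' => hinj _ _ (hτ'.trans key.symm)⟩

/-- The largest open on which a section is a frame. -/
def frameLocus (s : L.Sect W) : X.Opens :=
  ⨆ x, X.basicOpen (s.at x (V := W ⊓ L.U x) inf_le_left inf_le_right)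

lemma frameLocus_le (s : L.Sect W) : s.frameLocus ≤ W :=
  iSup_le fun _ => (X.basicOpen_le _).trans inf_le_left

lemma isFrame_restrict_frameLocus (s : L.Sect W) :
    (s.restrict s.frameLocus_le).IsFrame := by
  refine isFrame_of_cover
    (fun x => X.basicOpen (s.at x (V := W ⊓ L.U x) inf_le_left inf_le_right))
    (fun x => le_iSup (fun x => X.basicOpen (s.at x (V := W ⊓ L.U x) inf_le_left inf_le_right)) x)
    (fun z hz => Opens.mem_iSup.mp hz) (fun x => x)
    (fun x => (X.basicOpen_le _).trans inf_le_right) fun x => ?_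
  refine (congrArg IsUnit (at_restrict (L := L) s.frameLocus_le s x _ _)).mpr ?_
  have := isUnit_res_basicOpen' (s.at x (V := W ⊓ L.U x) inf_le_left inf_le_right)
  rwa [res_at] at this

/-- The frame locus contains every open on which the pullback is a frame. -/
lemma le_preimage_frameLocus (f : Y ⟶ X) {W' : Y.Opens} {hW' : W' ≤ f ⁻¹ᵁ W} {s : L.Sect W}
    (h : (s.comap f hW').IsFrame) : W' ≤ f ⁻¹ᵁ s.frameLocus := by
  intro y hy
  have hu := h y
  rw [at_comap] at hu
  set P := W' ⊓ (L.comap f).U y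
  set e : P ≤ f ⁻¹ᵁ (W ⊓ L.U (f y)) := inf_le_inf_right _ hW'
  have hb := Y.basicOpen_of_isUnit hu
  rw [pb, Scheme.basicOpen_appLE] at hb
  have hy' : y ∈ f ⁻¹ᵁ X.basicOpen (s.1 (f y)) :=
    (hb.ge ⟨hy, (L.comap f).mem y⟩).2
  refine f.preimage_mono ?_ hy'
  refine le_trans (le_of_eq ?_)
    (le_iSup (fun x => X.basicOpen (s.at x (V := W ⊓ L.U x) inf_le_left inf_le_right)) (f y))
  rw [Sect.at, res_refl]

/-- Sections lift along a surjection of functions out of an affine open. -/
theorem exists_comap_eq (f : Y ⟶ X) (hW : IsAffineOpen W) {W' : Y.Opens}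
    (hW' : W' ≤ f ⁻¹ᵁ W) (hsurj : Function.Surjective (pb f hW'))
    (σ : (L.comap f).Sect W') : ∃ s : L.Sect W, s.comap f hW' = σ := by
  obtain ⟨n, s, t, h⟩ := exists_partition L hW
  have h' : ∑ j, ((s j).comap f hW').pair (comapInv f hW' (t j)) = 1 := by
    have := congrArg (pb f hW') h
    simpa only [map_sum, map_one, pb_pair] using this
  choose a ha using fun j => hsurj (σ.pair (comapInv f hW' (t j)))
  refine ⟨∑ j, a j • s j, ?_⟩
  change comapₗ f hW' _ = _
  rw [map_sum]
  refine (Finset.sum_congr rfl fun j _ => ?_).trans (sum_pair_smul h' σ)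
  show (a j • s j).comap f hW' = _
  rw [comap_smul, ha]

end LineCocycle.Sect

namespace Pic

/-- On a scheme with at most one point all line bundles are trivial. -/
theorem eq_one_of_subsingleton [Subsingleton X] (ξ : Pic X) : ξ = 1 := by
  obtain ⟨L, rfl⟩ := mk_surjective ξ
  rw [mk_eq_one_iff]
  rcases isEmpty_or_nonempty X with hX | ⟨⟨z⟩⟩
  · exact ⟨0, fun x => hX.elim x⟩
  · have hz : (⊤ : X.Opens) ≤ L.U z := fun x _ => by
      rw [Subsingleton.elim x z]
      exact L.mem z
    refine ⟨LineCocycle.Sect.single hz 1, fun x => ?_⟩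
    rw [LineCocycle.Sect.at_single, map_one, mul_one]
    exact L.isUnit_tr _ _ _ _

end Pic

end Fermat.Agent.Jacobian
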