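import Fermat.Agent.Jacobian.Represent.ChartInputs
import Fermat.Agent.Jacobian.Represent.ChartDegreeZero
import Fermat.Agent.Jacobian.Represent.CoverageAll
import Fermat.Agent.Jacobian.Represent.CutOfPoints
import Fermat.Agent.Jacobian.Represent.Final
import Fermat.Agent.Jacobian.Curve.ChartExists
import Fermat.Agent.Jacobian.Curve.GeomIntegral
import Fermat.Agent.Jacobian.Divisor.Smooth
import Mathlib.AlgebraicGeometry.Morphisms.Smooth

/-!
# Existence of the Jacobian
-/

set_option autoImplicit false

noncomputable section

universe u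

open CategoryTheory CategoryTheory.Limits AlgebraicGeometry AlgebraicGeometry.RelPicard
  NeronModelInfra Polynomial

namespace Fermat.Agent.Jacobian

variable {k : Type u} [Field k] {C : Scheme.{u}} {c : C ⟶ Spec (CommRingCat.of k)}
  {ε : SchemeHomOver (𝟙 (Spec (CommRingCat.of k))) c}

/-- The charts are smooth. -/
theorem smooth_chartStr [SmoothOfRelativeDimension 1 c] (E : EpsChart c ε)
    (H : FibresLocallyPrincipal k (Fun c E.U₀)) (Etw : Pic C) {g : ℕ}
    (b : Fin g → Fun c E.U₀) : Smooth (E.chartStr H Etw b) := by
  let := E.toCurveChart.lineAlgebra₀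
  have := E.toCurveChart.isScalarTower₀
  have := E.toCurveChart.module_finite₀
  have := E.toCurveChart.module_free₀
  have : Smooth c := SmoothOfRelativeDimension.smooth 1 c
  have := finiteType_fun c E.affine₀
  have h := smooth_chartRing H b
  have : Smooth (specAlg (k := k) (ChartRing k b)) := by
    rw [specAlg, HasRingHomProperty.Spec_iff (P := @Smooth), CommRingCat.hom_ofHom,
      RingHom.smooth_algebraMap]
    exact h
  show Smooth ((E.chartOpen H Etw b).ι ≫ specAlg (k := k) (ChartRing k b))
  infer_instance

/-- **The Jacobian, given a family over a power of the curve reaching every point.** -/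
theorem exists_jacobian_of_family [IsAlgClosed k] [IsIntegral C] [IsProper c]
    [SmoothOfRelativeDimension 1 c]
    (hfam : ∃ (n : ℕ) (η : (subPicFunctor (algEquivZeroCut c ε)).obj (powHom c n)),
      ∀ (K : Type u) [Field K] [IsAlgClosed K] [Algebra k K]
        (a : (subPicFunctor (algEquivZeroCut c ε)).obj (specAlg (k := k) K)),
        ∃ (s : Spec (CommRingCat.of K) ⟶ (powOver c n).left)
          (hs : s ≫ powHom c n = specAlg (k := k) K),
          (subPicFunctor (algEquivZeroCut c ε)).map s hs η = a) :
    ∃ D : GoodReductionJacobian.RelativePic0Designation k c,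
      Nonempty (RepresentsRelSubPic c ε (algEquivZeroCut c ε) D) ∧
        Smooth D.toBase ∧ IsProper D.toBase ∧ GeometricallyConnected D.toBase := by
  obtain ⟨E⟩ := nonempty_epsChart (c := c) ε
  have H := fibresLocallyPrincipal_fun c E.affine₀
  obtain ⟨n, η, hη⟩ := hfam
  have hg : Module.finrank k (E.toCurveChart.cech LineCocycle.one).H1 = E.toCurveChart.genus :=
    (E.toCurveChart.h1_mk LineCocycle.one).symm
  exact exists_jacobian_of_inputs E H (fun i => E.chartInputs H i.1.1 hg i.2)
    (fun t M => algEquivZeroCut_iff_points M)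
    (fun i K _ _ _ ξ h => E.toCurveChart.picAlgEquivZero_of_acyclicClass i.1.2 h.1)
    (fun K _ _ _ ξ hrig hξ => exists_chartIndex_inChart E H ξ hrig hξ)
    (fun i => smooth_chartStr E H i.1.1 i.2) n η hη

end Fermat.Agent.Jacobian
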