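import Fermat.Agent.Jacobian.Sheafy
import Mathlib.Algebra.Module.Equiv.Basic
import Mathlib.Algebra.Module.LinearMap.Defs
import Mathlib.Tactic.LinearCombination

/-!
# Sections of a cocycle line bundle
-/

set_option autoImplicit false

noncomputable section

universe u

open CategoryTheory TopologicalSpace AlgebraicGeometry

namespace Fermat.Agent.Jacobian

variable {X Y : Scheme.{u}}

namespace LineCocycle

variable (L M N : LineCocycle X) (W : X.Opens)

/-- Compatible families of functions. -/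
def sectGroup : AddSubgroup (∀ x, Γ(X, W ⊓ L.U x)) where
  carrier := {s | ∀ x y (V : X.Opens) (hW : V ≤ W) (hx : V ≤ L.U x) (hy : V ≤ L.U y),
    res (le_inf hW hx) (s x) = L.tr x y hx hy * res (le_inf hW hy) (s y)}
  add_mem' := fun {a b} ha hb x y V hW hx hy => by
    simp only [Pi.add_apply, map_add, mul_add]
    rw [ha x y V hW hx hy, hb x y V hW hx hy]
  zero_mem' := fun x y V hW hx hy => by simp
  neg_mem' := fun {a} ha x y V hW hx hy => by
    simp only [Pi.neg_apply, map_neg, mul_neg]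
    rw [ha x y V hW hx hy]

/-- Sections of `L` over `W`. -/
def Sect : Type u := ↥(L.sectGroup W)

instance : AddCommGroup (L.Sect W) := inferInstanceAs (AddCommGroup ↥(L.sectGroup W))

variable {L M N W}

namespace Sect

/-- The component of a section at an index `x`, on a smaller open. -/
def «at» (s : L.Sect W) (x : X) {V : X.Opens} (hW : V ≤ W) (hx : V ≤ L.U x) : Γ(X, V) :=
  res (le_inf hW hx) (s.1 x)

@[simp] lemma res_at (s : L.Sect W) (x : X) {V V' : X.Opens} (hW : V ≤ W) (hx : V ≤ L.U x)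
    (h : V' ≤ V) : res h (s.at x hW hx) = s.at x (h.trans hW) (h.trans hx) :=
  res_res _ _ _

lemma at_eq (s : L.Sect W) (x y : X) {V : X.Opens} (hW : V ≤ W) (hx : V ≤ L.U x)
    (hy : V ≤ L.U y) : s.at x hW hx = L.tr x y hx hy * s.at y hW hy :=
  s.2 x y V hW hx hy

@[simp] lemma at_add (s t : L.Sect W) (x : X) {V : X.Opens} (hW : V ≤ W) (hx : V ≤ L.U x) :
    (s + t).at x hW hx = s.at x hW hx + t.at x hW hx :=
  map_add _ _ _

@[simp] lemma at_sub (s t : L.Sect W) (x : X) {V : X.Opens} (hW : V ≤ W) (hx : V ≤ L.U x) :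
    (s - t).at x hW hx = s.at x hW hx - t.at x hW hx :=
  map_sub _ _ _

@[simp] lemma at_neg (s : L.Sect W) (x : X) {V : X.Opens} (hW : V ≤ W) (hx : V ≤ L.U x) :
    (-s).at x hW hx = -s.at x hW hx :=
  map_neg _ _

@[simp] lemma at_zero (x : X) {V : X.Opens} (hW : V ≤ W) (hx : V ≤ L.U x) :
    (0 : L.Sect W).at x hW hx = 0 :=
  map_zero _

lemma ext' {s t : L.Sect W}
    (h : ∀ x, s.at x (V := W ⊓ L.U x) inf_le_left inf_le_right
      = t.at x inf_le_left inf_le_right) : s = t := by
  refine Subtype.ext (funext fun x => ?_)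
  have := h x
  simpa [Sect.at] using this

/-- Sections agree as soon as they agree locally, in any frame. -/
lemma ext_of_cover {ι : Type*} (O : ι → X.Opens) (hO : ∀ i, O i ≤ W)
    (hc : ∀ z ∈ W, ∃ i, z ∈ O i) (idx : ι → X) (hidx : ∀ i, O i ≤ L.U (idx i)) {s t : L.Sect W}
    (h : ∀ i, s.at (idx i) (hO i) (hidx i) = t.at (idx i) (hO i) (hidx i)) : s = t := by
  refine ext' fun x => eq_of_cover (fun i => O i ⊓ L.U x) (fun i => inf_le_inf_right _ (hO i))
    (fun z hz => (hc z hz.1).elim fun i hi => ⟨i, hi, hz.2⟩) fun i => ?_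
  rw [res_at, res_at, at_eq s x (idx i) _ _ (inf_le_left.trans (hidx i)),
    at_eq t x (idx i) _ _ (inf_le_left.trans (hidx i))]
  congr 1
  have := congrArg (res (inf_le_left : O i ⊓ L.U x ≤ O i)) (h i)
  simpa using this

/-- Build a section from components given on the `W ⊓ L.U x`. -/
def mk (a : ∀ x, Γ(X, W ⊓ L.U x))
    (h : ∀ x y (V : X.Opens) (hW : V ≤ W) (hx : V ≤ L.U x) (hy : V ≤ L.U y),
      res (le_inf hW hx) (a x) = L.tr x y hx hy * res (le_inf hW hy) (a y)) : L.Sect W :=
  ⟨a, h⟩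

lemma at_mk (a : ∀ x, Γ(X, W ⊓ L.U x)) (h) (x : X) {V : X.Opens} (hW : V ≤ W)
    (hx : V ≤ L.U x) : (mk (L := L) a h).at x hW hx = res (le_inf hW hx) (a x) :=
  rfl

instance : SMul Γ(X, W) (L.Sect W) :=
  ⟨fun r s => mk (fun x => res inf_le_left r * s.1 x) fun x y V hW hx hy => by
    have := at_eq s x y hW hx hy
    simp only [Sect.at] at this
    simp only [map_mul, res_res]
    rw [this]
    ring⟩

@[simp] lemma at_smul (r : Γ(X, W)) (s : L.Sect W) (x : X) {V : X.Opens} (hW : V ≤ W)
    (hx : V ≤ L.U x) : (r • s).at x hW hx = res hW r * s.at x hW hx := by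
  change res (le_inf hW hx) (res inf_le_left r * s.1 x) = _
  rw [map_mul, res_res]
  rfl

instance : Module Γ(X, W) (L.Sect W) where
  one_smul s := ext' fun x => by simp
  mul_smul a b s := ext' fun x => by simp [mul_assoc]
  smul_zero a := ext' fun x => by simp
  smul_add a s t := ext' fun x => by simp [mul_add]
  add_smul a b s := ext' fun x => by simp [add_mul]
  zero_smul s := ext' fun x => by simp

/-- Restriction of sections. -/
def restrict {W' : X.Opens} (h : W' ≤ W) (s : L.Sect W) : L.Sect W' :=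
  mk (fun x => s.at x (V := W' ⊓ L.U x) (inf_le_left.trans h) inf_le_right)
    fun x y V hW hx hy => by
    simp only [res_at]
    exact at_eq s x y _ hx hy

@[simp] lemma at_restrict {W' : X.Opens} (h : W' ≤ W) (s : L.Sect W) (x : X) {V : X.Opens}
    (hW : V ≤ W') (hx : V ≤ L.U x) : (s.restrict h).at x hW hx = s.at x (hW.trans h) hx :=
  res_at s x (V := W' ⊓ L.U x) (inf_le_left.trans h) inf_le_right _

lemma restrict_add {W' : X.Opens} (h : W' ≤ W) (s t : L.Sect W) :
    (s + t).restrict h = s.restrict h + t.restrict h :=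
  ext' fun x => by simp

lemma restrict_smul {W' : X.Opens} (h : W' ≤ W) (r : Γ(X, W)) (s : L.Sect W) :
    (r • s).restrict h = res h r • s.restrict h :=
  ext' fun x => by simp

@[simp] lemma restrict_restrict {W' W'' : X.Opens} (h : W' ≤ W) (h' : W'' ≤ W') (s : L.Sect W) :
    (s.restrict h).restrict h' = s.restrict (h'.trans h) :=
  ext' fun x => by simp

/-- Sections glue. -/
theorem exists_glue {ι : Type*} (O : ι → X.Opens) (hO : ∀ i, O i ≤ W)
    (hc : ∀ z ∈ W, ∃ i, z ∈ O i) (s : ∀ i, L.Sect (O i))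
    (h : ∀ i j x (V : X.Opens) (hi : V ≤ O i) (hj : V ≤ O j) (hx : V ≤ L.U x),
      (s i).at x hi hx = (s j).at x hj hx) :
    ∃ t : L.Sect W, ∀ i, t.restrict (hO i) = s i := by
  let a : ∀ x, Γ(X, W ⊓ L.U x) := fun x =>
    glue (fun i => O i ⊓ L.U x) (fun i => inf_le_inf_right _ (hO i))
      (fun z hz => (hc z hz.1).elim fun i hi => ⟨i, hi, hz.2⟩) (fun i => (s i).1 x)
      (fun i j V hi hj => h i j x V (hi.trans inf_le_left) (hj.trans inf_le_left)
        (hi.trans inf_le_right))
  have ha : ∀ i x (V : X.Opens) (hi : V ≤ O i) (hx : V ≤ L.U x),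
      res (le_inf (hi.trans (hO i)) hx) (a x) = (s i).at x hi hx := by
    intro i x V hi hx
    have := congrArg (res (le_inf hi hx)) (res_glue (fun i => O i ⊓ L.U x)
      (fun i => inf_le_inf_right _ (hO i))
      (fun z hz => (hc z hz.1).elim fun i hi => ⟨i, hi, hz.2⟩) (fun i => (s i).1 x)
      (fun i j V hi hj => h i j x V (hi.trans inf_le_left) (hj.trans inf_le_left)
        (hi.trans inf_le_right)) i)
    rw [res_res] at this
    exact this
  refine ⟨mk a fun x y V hW hx hy => ?_, fun i => ext' fun x => ?_⟩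
  · refine eq_of_cover (fun i => O i ⊓ V) (fun i => inf_le_right)
      (fun z hz => (hc z (hW hz)).elim fun i hi => ⟨i, hi, hz⟩) fun i => ?_
    rw [map_mul, res_res, res_res, res_tr, ha i x _ inf_le_left (inf_le_right.trans hx),
      ha i y _ inf_le_left (inf_le_right.trans hy)]
    exact at_eq (s i) x y _ _ _
  · rw [at_restrict, at_mk, ha i x _ inf_le_left inf_le_right]

/-- Product of sections. -/
def mul (s : L.Sect W) (t : M.Sect W) : (L.mul M).Sect W :=
  mk (fun x => s.at x (V := W ⊓ (L.mul M).U x) inf_le_left (inf_le_right.trans inf_le_left) *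
      t.at x inf_le_left (inf_le_right.trans inf_le_right)) fun x y V hW hx hy => by
    simp only [map_mul, res_at, LineCocycle.tr_mul]
    rw [at_eq s x y hW _ (hy.trans inf_le_left), at_eq t x y hW _ (hy.trans inf_le_right)]
    ring

@[simp] lemma at_mul' (s : L.Sect W) (t : M.Sect W) (x : X) {V : X.Opens} (hW : V ≤ W)
    (hx : V ≤ (L.mul M).U x) : (s.mul t).at x hW hx =
      s.at x hW (hx.trans inf_le_left) * t.at x hW (hx.trans inf_le_right) := by
  simp [mul, at_mk]

/-- Contraction of a section of `L` with one of `L⁻¹`. -/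
def pair (s : L.Sect W) (t : L.inv.Sect W) : Γ(X, W) :=
  glue (fun x => W ⊓ L.U x) (fun _ => inf_le_left) (fun z hz => ⟨z, hz, L.mem z⟩)
    (fun x => s.at x inf_le_left inf_le_right * t.at x inf_le_left inf_le_right)
    fun x y V hx hy => by
      simp only [map_mul, res_at]
      rw [at_eq s x y _ _ (hy.trans inf_le_right), at_eq t x y _ _ (hy.trans inf_le_right)]
      rw [LineCocycle.tr_inv]
      linear_combination
        (s.at y (hy.trans inf_le_left) (hy.trans inf_le_right) *
          t.at y (hy.trans inf_le_left) (hy.trans inf_le_right)) *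
          L.tr_mul_tr_symm x y (hx.trans inf_le_right) (hy.trans inf_le_right)

lemma res_pair (s : L.Sect W) (t : L.inv.Sect W) (x : X) {V : X.Opens} (hW : V ≤ W)
    (hx : V ≤ L.U x) : res hW (s.pair t) = s.at x hW hx * t.at x hW hx := by
  have := congrArg (res (le_inf hW hx)) (res_glue (fun x => W ⊓ L.U x) (fun _ => inf_le_left)
    (fun z hz => ⟨z, hz, L.mem z⟩)
    (fun x => s.at x inf_le_left inf_le_right * t.at x inf_le_left inf_le_right)
    (by
      intro x y V hx hy
      simp only [map_mul, res_at]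
      rw [at_eq s x y _ _ (hy.trans inf_le_right), at_eq t x y _ _ (hy.trans inf_le_right)]
      rw [LineCocycle.tr_inv]
      linear_combination
        (s.at y (hy.trans inf_le_left) (hy.trans inf_le_right) *
          t.at y (hy.trans inf_le_left) (hy.trans inf_le_right)) *
          L.tr_mul_tr_symm x y (hx.trans inf_le_right) (hy.trans inf_le_right)) x)
  rw [res_res, map_mul, res_at, res_at] at this
  exact this

lemma pair_add_left (s s' : L.Sect W) (t : L.inv.Sect W) :
    (s + s').pair t = s.pair t + s'.pair t :=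
  eq_of_cover (fun x => W ⊓ L.U x) (fun _ => inf_le_left) (fun z hz => ⟨z, hz, L.mem z⟩)
    fun x => by simp [res_pair (hx := (inf_le_right : W ⊓ L.U x ≤ L.U x)), add_mul]

lemma pair_smul_left (r : Γ(X, W)) (s : L.Sect W) (t : L.inv.Sect W) :
    (r • s).pair t = r * s.pair t :=
  eq_of_cover (fun x => W ⊓ L.U x) (fun _ => inf_le_left) (fun z hz => ⟨z, hz, L.mem z⟩)
    fun x => by simp [res_pair (hx := (inf_le_right : W ⊓ L.U x ≤ L.U x)), mul_assoc]

lemma pair_smul_right (r : Γ(X, W)) (s : L.Sect W) (t : L.inv.Sect W) :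
    s.pair (r • t) = r * s.pair t :=
  eq_of_cover (fun x => W ⊓ L.U x) (fun _ => inf_le_left) (fun z hz => ⟨z, hz, L.mem z⟩)
    fun x => by simp [res_pair (hx := (inf_le_right : W ⊓ L.U x ≤ L.U x)), mul_left_comm]

/-- Contraction as a linear map. -/
def pairLeft (t : L.inv.Sect W) : L.Sect W →ₗ[Γ(X, W)] Γ(X, W) where
  toFun s := s.pair t
  map_add' s s' := pair_add_left s s' t
  map_smul' r s := pair_smul_left r s t

/-- Sections reconstructed from a partition `∑ sⱼ tⱼ = 1`. -/
theorem sum_pair_smul {n : ℕ} {s : Fin n → L.Sect W} {t : Fin n → L.inv.Sect W}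
    (h : ∑ j, (s j).pair (t j) = 1) (e : L.Sect W) : ∑ j, e.pair (t j) • s j = e := by
  refine ext' fun x => ?_
  have h1 := congrArg (res (inf_le_left : W ⊓ L.U x ≤ W)) h
  simp only [map_sum, map_one, res_pair (hx := (inf_le_right : W ⊓ L.U x ≤ L.U x))] at h1
  have key : ∀ (S : Finset (Fin n)),
      (∑ j ∈ S, e.pair (t j) • s j).at x (V := W ⊓ L.U x) inf_le_left inf_le_right =
        e.at x inf_le_left inf_le_right *
          ∑ j ∈ S, (s j).at x inf_le_left inf_le_right * (t j).at x inf_le_left inf_le_right := by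
    intro S
    induction S using Finset.induction_on with
    | empty => simp
    | insert a S ha ih =>
      rw [Finset.sum_insert ha, Finset.sum_insert ha, at_add, ih, at_smul,
        res_pair (hx := (inf_le_right : W ⊓ L.U x ≤ L.U x)), mul_add]
      ring
  rw [key, h1, mul_one]

/-- The section `a ·` (frame of index `z`). -/
def single {z : X} (hz : W ≤ L.U z) (a : Γ(X, W)) : L.Sect W :=
  mk (fun x => L.tr x z inf_le_right (inf_le_left.trans hz) * res inf_le_left a)
    fun x y V hW hx hy => by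
      simp only [map_mul, res_tr, res_res]
      rw [← mul_assoc, L.tr_mul_tr]

@[simp] lemma at_single {z : X} (hz : W ≤ L.U z) (a : Γ(X, W)) (x : X) {V : X.Opens}
    (hW : V ≤ W) (hx : V ≤ L.U x) :
    (single hz a).at x hW hx = L.tr x z hx (hW.trans hz) * res hW a := by
  simp [single, at_mk]

/-- Over a member of the cover, sections are functions. -/
def frameEquiv {z : X} (hz : W ≤ L.U z) : L.Sect W ≃ₗ[Γ(X, W)] Γ(X, W) where
  toFun s := s.at z le_rfl hz
  invFun a := single hz a
  map_add' _ _ := at_add _ _ _ _ _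
  map_smul' r s := by simp
  left_inv s := ext' fun x => by simp [← at_eq]
  right_inv a := by simp

/-- Pullback of sections. -/
def comap (f : Y ⟶ X) {W' : Y.Opens} (hW' : W' ≤ f ⁻¹ᵁ W) (s : L.Sect W) :
    (L.comap f).Sect W' :=
  mk (fun x => pb f (U := W ⊓ L.U (f x)) (V := W' ⊓ f ⁻¹ᵁ L.U (f x))
      (inf_le_inf_right _ hW') (s.1 (f x))) fun x y V hW hx hy => by
    have h1 := s.2 (f x) (f y) (W ⊓ (L.U (f x) ⊓ L.U (f y))) inf_le_left
      (inf_le_right.trans inf_le_left) (inf_le_right.trans inf_le_right)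
    have h2 : V ≤ f ⁻¹ᵁ (W ⊓ (L.U (f x) ⊓ L.U (f y))) :=
      le_inf (hW.trans hW') (le_inf hx hy)
    have h3 := congrArg (pb f h2) h1
    rw [LineCocycle.tr, map_mul, pb_res, pb_res, pb_res] at h3
    rw [LineCocycle.tr_comap]
    exact (res_pb f (U := W ⊓ L.U (f x)) _ (le_inf hW hx) _).trans (h3.trans (congrArg₂ (· * ·)
      rfl (res_pb f (U := W ⊓ L.U (f y)) _ (le_inf hW hy) _).symm))

lemma at_comap (f : Y ⟶ X) {W' : Y.Opens} (hW' : W' ≤ f ⁻¹ᵁ W) (s : L.Sect W) (x : Y)
    {V : Y.Opens} (hW : V ≤ W') (hx : V ≤ (L.comap f).U x) :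
    (s.comap f hW').at x hW hx = pb f (le_inf (hW.trans hW') hx) (s.1 (f x)) :=
  res_pb f (U := W ⊓ L.U (f x)) _ (le_inf hW hx) _

@[simp] lemma comap_add (f : Y ⟶ X) {W' : Y.Opens} (hW' : W' ≤ f ⁻¹ᵁ W) (s t : L.Sect W) :
    (s + t).comap f hW' = s.comap f hW' + t.comap f hW' :=
  ext' fun x => by
    rw [at_add, at_comap, at_comap, at_comap]
    exact map_add _ _ _

lemma comap_smul (f : Y ⟶ X) {W' : Y.Opens} (hW' : W' ≤ f ⁻¹ᵁ W) (r : Γ(X, W)) (s : L.Sect W) :
    (r • s).comap f hW' = pb f hW' r • s.comap f hW' :=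
  ext' fun x => by
    rw [at_smul, at_comap, at_comap, res_pb]
    change pb f _ (res (inf_le_left : W ⊓ L.U (f x) ≤ W) r * s.1 (f x)) = _
    rw [map_mul]
    exact congrArg (· * _) (pb_res f (inf_le_left : W ⊓ L.U (f x) ≤ W) _ r)

end Sect

end LineCocycle

end Fermat.Agent.Jacobian
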